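import Mathlib
import Fermat.Prelude.Def_GroupCohomology_ContinuousUnramified

set_option autoImplicit false

/-!
# CFT stream [D], bridge lemma BR4: the archimedean local conditions are vacuous

For a finite group `G` whose order is invertible in the coefficient ring, `H¹` and the
"level-constant" `H²` (`groupCohomology.continuousH2`) vanish (averaging).  Applied to the
archimedean decomposition group (generated by complex conjugation, order dividing `2`) and
coefficients `ZMod p`, `p` odd, this shows that the archimedean factor in the definitions of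
`sha₁` and `sha₂` is trivial.
-/

namespace Fermat.Agent.CFT

open groupCohomology CategoryTheory ExtCitation

section Averaging

universe u

variable {k : Type u} [CommRing k] {G : Type u} [Group G] [Fintype G]

/-- Averaging: a `1`-cocycle of a finite group whose order is invertible is a coboundary. -/
theorem cocycles₁_mem_coboundaries₁_of_isUnit_card (A : Rep.{u} k G)
    (hcard : IsUnit ((Fintype.card G : ℕ) : k)) (c : G → A) (hc : c ∈ cocycles₁ A) :
    c ∈ coboundaries₁ A := by
  obtain ⟨u, hu⟩ := hcard
  rw [mem_cocycles₁_iff] at hc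
  have key : ∀ g : G, ∑ h : G, c h = A.ρ g (∑ h : G, c h) + ((Fintype.card G : ℕ) : k) • c g := by
    intro g
    have h1 : ∑ h : G, c (g * h) = ∑ h : G, c h :=
      Fintype.sum_equiv (Equiv.mulLeft g) _ _ (fun _ => rfl)
    have h3 : ((Fintype.card G : ℕ) : k) • c g = ∑ _j : G, c g := by
      rw [Finset.sum_const, Finset.card_univ, Nat.cast_smul_eq_nsmul]
    rw [h3, map_sum, ← Finset.sum_add_distrib, ← h1]
    exact Finset.sum_congr rfl fun h _ => hc g h
  refine ⟨-((↑u⁻¹ : k) • ∑ h : G, c h), ?_⟩
  funext g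
  rw [d₀₁_hom_apply]
  have h2 : c g = (↑u⁻¹ : k) • (∑ h : G, c h - A.ρ g (∑ h : G, c h)) := by
    rw [← eq_sub_of_add_eq' (key g).symm, smul_smul, ← hu, Units.inv_mul, one_smul]
  rw [h2, map_neg, map_smul, smul_sub]
  abel

/-- Averaging: for a finite group whose order is invertible, every `2`-cocycle `f` is the
coboundary of the explicit `1`-cochain `g ↦ |G|⁻¹ ∑ₕ f (g, h)`. -/
theorem cocycles₂_eq_d₁₂_average (A : Rep.{u} k G) (u : kˣ)
    (hu : (u : k) = ((Fintype.card G : ℕ) : k)) (f : G × G → A) (hf : f ∈ cocycles₂ A) :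
    (d₁₂ A).hom (fun g => (↑u⁻¹ : k) • ∑ h : G, f (g, h)) = f := by
  rw [mem_cocycles₂_iff] at hf
  funext ⟨g, h⟩
  rw [d₁₂_hom_apply]
  have key : ∑ j : G, f (g * h, j) + ((Fintype.card G : ℕ) : k) • f (g, h) =
      A.ρ g (∑ j : G, f (h, j)) + ∑ j : G, f (g, j) := by
    have h1 : ∑ j : G, f (g, h * j) = ∑ j : G, f (g, j) :=
      Fintype.sum_equiv (Equiv.mulLeft h) _ _ (fun _ => rfl)
    rw [← h1, map_sum, ← Finset.sum_add_distrib]
    have h3 : ((Fintype.card G : ℕ) : k) • f (g, h) = ∑ _j : G, f (g, h) := by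
      rw [Finset.sum_const, Finset.card_univ, Nat.cast_smul_eq_nsmul]
    rw [h3, ← Finset.sum_add_distrib]
    exact Finset.sum_congr rfl fun j _ => hf g h j
  have h2 : f (g, h) = (↑u⁻¹ : k) • (A.ρ g (∑ j : G, f (h, j)) + ∑ j : G, f (g, j)
      - ∑ j : G, f (g * h, j)) := by
    rw [← key, add_sub_cancel_left, smul_smul, ← hu, Units.inv_mul, one_smul]
  simp only [map_smul]
  rw [h2, smul_sub, smul_add]
  abel

variable (r : G →* (AlgebraicClosure ℚ ≃ₐ[ℚ] AlgebraicClosure ℚ))

/-- The level-constant `H²` of a finite group whose order is invertible vanishes. -/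
theorem subsingleton_continuousH2_of_isUnit_card (A : Rep.{u} k G)
    (hcard : IsUnit ((Fintype.card G : ℕ) : k)) : Subsingleton (continuousH2 r A) := by
  obtain ⟨u, hu⟩ := hcard
  refine ⟨fun x y => ?_⟩
  suffices h : ∀ z : continuousH2 r A, z = 0 by rw [h x, h y]
  intro z
  obtain ⟨c, rfl⟩ := Submodule.Quotient.mk_surjective _ z
  rw [Submodule.Quotient.mk_eq_zero, Submodule.mem_comap, Submodule.subtype_apply,
    mem_levelCoboundaries₂_iff]
  obtain ⟨hc, F, hF, hinv⟩ := c.2
  refine ⟨fun g => (↑u⁻¹ : k) • ∑ h : G, (c : G × G → A) (g, h), ⟨F, hF, fun g s hs => ?_⟩,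
    cocycles₂_eq_d₁₂_average A u hu _ hc⟩
  have : ∀ h : G, (c : G × G → A) (g * s, h) = (c : G × G → A) (g, h) := fun h => by
    have := hinv g h s 1 hs (by rw [map_one]; exact one_mem _)
    rwa [mul_one] at this
  simp only [this]

/-- `H¹` of a finite group whose order is invertible vanishes. -/
theorem subsingleton_H1_of_isUnit_card (A : Rep.{u} k G)
    (hcard : IsUnit ((Fintype.card G : ℕ) : k)) : Subsingleton (H1 A) := by
  refine ⟨fun x y => ?_⟩
  suffices h : ∀ z : H1 A, z = 0 by rw [h x, h y]
  intro z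
  induction z using H1_induction_on with
  | h c =>
    rw [H1π_eq_zero_iff]
    exact cocycles₁_mem_coboundaries₁_of_isUnit_card A hcard _ c.2

end Averaging

section Archimedean

noncomputable instance archimedeanDecomposition_fintype : Fintype ↥archimedeanDecomposition := by
  haveI : Finite ↥archimedeanDecomposition := by
    have h : IsOfFinOrder complexConjugation :=
      isOfFinOrder_iff_pow_eq_one.mpr ⟨2, by norm_num, complexConjugation_sq⟩
    exact Set.finite_coe_iff.mpr h.finite_zpowers
  exact Fintype.ofFinite _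

theorem card_archimedeanDecomposition_dvd_two : Fintype.card ↥archimedeanDecomposition ∣ 2 := by
  have h : Fintype.card ↥archimedeanDecomposition = orderOf complexConjugation := by
    rw [← Nat.card_eq_fintype_card]
    exact Nat.card_zpowers complexConjugation
  rw [h]
  exact orderOf_dvd_of_pow_eq_one complexConjugation_sq

theorem isUnit_card_archimedeanDecomposition {p : ℕ} [Fact p.Prime] (hp2 : p ≠ 2) :
    IsUnit ((Fintype.card ↥archimedeanDecomposition : ℕ) : ZMod p) := by
  rw [ZMod.isUnit_iff_coprime]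
  refine Nat.Coprime.coprime_dvd_left card_archimedeanDecomposition_dvd_two ?_
  rw [Nat.coprime_comm, Nat.Prime.coprime_iff_not_dvd Fact.out]
  intro h
  exact hp2 ((Nat.prime_dvd_prime_iff_eq Fact.out Nat.prime_two).mp h)

variable {p : ℕ} [Fact p.Prime]

/-- The archimedean local `H²` with odd-characteristic coefficients vanishes. -/
theorem subsingleton_continuousH2_archimedean (hp2 : p ≠ 2)
    (M : Rep (ZMod p) (AlgebraicClosure ℚ ≃ₐ[ℚ] AlgebraicClosure ℚ)) :
    Subsingleton (continuousH2 archimedeanLoc (Rep.res archimedeanLoc M)) :=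
  subsingleton_continuousH2_of_isUnit_card archimedeanLoc _
    (isUnit_card_archimedeanDecomposition hp2)

/-- The archimedean local `H¹` with odd-characteristic coefficients vanishes. -/
theorem subsingleton_H1_archimedean (hp2 : p ≠ 2)
    (M : Rep (ZMod p) (AlgebraicClosure ℚ ≃ₐ[ℚ] AlgebraicClosure ℚ)) :
    Subsingleton (H1 (Rep.res archimedeanLoc M)) :=
  subsingleton_H1_of_isUnit_card _ (isUnit_card_archimedeanDecomposition hp2)

/-- `Ш²_S(M)` only sees the finite places in `S` (odd residue characteristic of the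
coefficients). -/
theorem mem_sha₂_iff_forall_prime (hp2 : p ≠ 2) (S : Finset Nat.Primes)
    (M : Rep (ZMod p) (AlgebraicClosure ℚ ≃ₐ[ℚ] AlgebraicClosure ℚ)) (x : continuousH2S S M) :
    x ∈ sha₂ S M ↔ ∀ q : ↥S, locRes₂S S M (primeLocalToGlobal q.1) x = 0 := by
  unfold sha₂
  rw [LinearMap.mem_ker, funext_iff]
  constructor
  · intro h q
    exact h (Sum.inr q)
  · rintro h (v | q)
    · haveI := subsingleton_continuousH2_archimedean hp2 M
      exact Subsingleton.elim (α := continuousH2 archimedeanLoc (Rep.res archimedeanLoc M)) _ _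
    · exact h q

/-- `Ш¹_S(A)` only sees the finite places in `S` (odd residue characteristic of the
coefficients). -/
theorem mem_sha₁_iff_forall_prime (hp2 : p ≠ 2) (S : Finset Nat.Primes)
    (A : Rep (ZMod p) (AlgebraicClosure ℚ ≃ₐ[ℚ] AlgebraicClosure ℚ)) (x : H1 A) :
    x ∈ sha₁ S A ↔ x ∈ continuousH1S S A ∧
      ∀ q : ↥S, (map (primeLocalToGlobal q.1)
        (𝟙 (Rep.res (primeLocalToGlobal q.1) A)) 1).hom x = 0 := by
  unfold sha₁
  rw [Submodule.mem_inf, LinearMap.mem_ker, funext_iff]
  refine and_congr_right fun _ => ?_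
  constructor
  · intro h q
    exact h (Sum.inr q)
  · rintro h (v | q)
    · haveI := subsingleton_H1_archimedean hp2 A
      exact Subsingleton.elim (α := H1 (Rep.res archimedeanLoc A)) _ _
    · exact h q

end Archimedean

end Fermat.Agent.CFT
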