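import Mathlib
import Fermat.Prelude.Def_GroupCohomology_ContinuousUnramified

set_option autoImplicit false

/-!
# CFT stream [D], bridge D2(a): Krasner cofinality

Every element of `PadicAlgCl q` lies in `ℚ_q(ι β)` for some `β : AlgebraicClosure ℚ`
(`ι = padicEmbedding q`).  Consequently the subgroups `r_q⁻¹(G_F)` (`F/ℚ` finite) used by the
prelude to define level-constant cochains on the local Galois group are cofinal among the fixing
subgroups of finite extensions of `ℚ_q`.
-/

namespace Fermat.Agent.CFT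

open Polynomial IntermediateField

variable (q : ℕ) [Fact q.Prime]

/-- **Krasner cofinality**: every element of the algebraic closure of `ℚ_q` lies in the field
generated over `ℚ_q` by the image of an algebraic number. -/
theorem exists_mem_adjoin_padicEmbedding (α : PadicAlgCl q) :
    ∃ β : AlgebraicClosure ℚ, α ∈ ℚ_[q]⟮padicEmbedding q β⟯ := by
  classical
  -- the minimal polynomial of `α`
  have hαint : IsIntegral ℚ_[q] α := Algebra.IsIntegral.isIntegral α
  set f : ℚ_[q][X] := minpoly ℚ_[q] α with hf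
  have fmon : f.Monic := minpoly.monic hαint
  have fa0 : f.aeval α = 0 := minpoly.aeval _ _
  have fnatdeg0 : f.natDegree ≠ 0 := (minpoly.natDegree_pos hαint).ne'
  -- separation of `α` from its other conjugates
  let T : Finset (PadicAlgCl q) := {x ∈ (f.rootSet (PadicAlgCl q)).toFinset | x ≠ α}
  let δ : ℝ := if hT : T.Nonempty then Finset.min' (T.image fun x => ‖α - x‖)
      (Finset.image_nonempty.mpr hT) else 1
  have norm_sub_le : ∀ a' : PadicAlgCl q, IsConjRoot ℚ_[q] α a' → α ≠ a' → δ ≤ ‖α - a'‖ := by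
    intro a' conj ne
    by_cases hT : T.Nonempty <;> simp only [hT, ↓reduceDIte, δ]
    · apply Finset.min'_le (T.image fun x => ‖α - x‖) (‖α - a'‖)
      apply Finset.mem_image_of_mem
      simp only [Finset.mem_filter, Set.mem_toFinset, T]
      rw [← (isConjRoot_iff_mem_minpoly_rootSet hαint)]
      exact ⟨conj, ne.symm⟩
    · simp only [ne_eq, Finset.not_nonempty_iff_eq_empty, Finset.filter_eq_empty_iff,
        Set.mem_toFinset, not_not, T] at hT
      rw [isConjRoot_iff_mem_minpoly_rootSet hαint] at conj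
      exact (ne (hT conj).symm).elim
  have δpos : δ > 0 := by
    by_cases hT : T.Nonempty <;> simp only [hT, ↓reduceDIte, δ]
    · simp only [gt_iff_lt, Finset.lt_min'_iff, Finset.mem_image, forall_exists_index, and_imp,
        forall_apply_eq_imp_iff₂]
      rintro a' ha'
      simp only [Finset.mem_filter, Set.mem_toFinset, T] at ha'
      rw [norm_pos_iff, sub_ne_zero]
      exact ha'.2.symm
    · linarith
  have hε : (δ / (max ‖α‖ 1)) ^ f.natDegree / (f.natDegree + 1) > 0 := by positivity
  -- approximate `f` by a monic polynomial with rational coefficients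
  have hdense : DenseRange (algebraMap ℚ ℚ_[q]) := by
    have : (algebraMap ℚ ℚ_[q] : ℚ → ℚ_[q]) = ((↑) : ℚ → ℚ_[q]) := by
      funext x; simp
    rw [this]
    exact Padic.denseRange_ratCast q
  obtain ⟨g, gmon, gdeg, gcoeff⟩ :=
    exists_monic_and_natDegree_eq_and_norm_map_algebraMap_coeff_sub_lt hdense fmon hε
  -- a root `b` of `g` close to `α`
  obtain ⟨b, hb, hab⟩ := exists_aroots_norm_sub_lt_of_norm_coeff_sub_lt
      (L := PadicAlgCl q) hε fa0 fmon (gmon.map _) (gdeg ▸ (g.natDegree_map _)) gcoeff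
      (IsAlgClosed.splits _)
  have hab : ‖α - b‖ < δ := by
    rw [← Real.rpow_natCast, ← mul_comm_div, div_self, one_mul,
        ← Real.rpow_mul (div_pos δpos (by positivity)).le, mul_inv_cancel₀] at hab
    · simpa [mul_assoc, div_mul_cancel₀ _ (by positivity : (max ‖α‖ 1) > 0).ne'] using hab
    · simp [fnatdeg0]
    · positivity
  simp only [Polynomial.mem_roots', ne_eq, Polynomial.IsRoot.def, Polynomial.aroots_def,
    Polynomial.eval_map_algebraMap] at hb
  -- `b` comes from an algebraic number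
  have hgb : Polynomial.aeval b g = 0 := by
    have := hb.2
    rwa [Polynomial.aeval_map_algebraMap] at this
  have hbint : IsIntegral ℚ b := ⟨g, gmon, hgb⟩
  obtain ⟨β, hβ⟩ : ∃ β : AlgebraicClosure ℚ, padicEmbedding q β = b := by
    have hrange : b ∈ (padicEmbedding q).range := by
      have hsplit : ((minpoly ℚ b).map (algebraMap ℚ (AlgebraicClosure ℚ))).Splits :=
        IsAlgClosed.splits _
      exact hbint.mem_range_algHom_of_minpoly_splits hsplit (padicEmbedding q)
    exact hrange
  refine ⟨β, ?_⟩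
  rw [hβ]
  -- Krasner's lemma
  have masp : ((minpoly ℚ_[q] α).map (algebraMap ℚ_[q] (PadicAlgCl q))).Splits :=
    IsAlgClosed.splits _
  exact IsKrasner.krasner (minpoly.irreducible hαint).separable masp
    ⟨g.map _, gmon.map _, hb.2⟩ fun a' h1 h2 ↦ lt_of_lt_of_le hab (norm_sub_le a' h1 h2)

section General

variable {K L : Type*} [Field K] [Field L] [Algebra K L]

/-- An automorphism fixes `K⟮a⟯` pointwise iff it fixes `a`. -/
theorem mem_fixingSubgroup_adjoin_simple_iff (a : L) (τ : L ≃ₐ[K] L) :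
    τ ∈ (K⟮a⟯).fixingSubgroup ↔ τ a = a := by
  constructor
  · intro h
    exact (IntermediateField.mem_fixingSubgroup_iff _ _).mp h a (mem_adjoin_simple_self K a)
  · intro h
    have h1 : Subgroup.zpowers τ ≤ MulAction.stabilizer (L ≃ₐ[K] L) a := by
      rw [Subgroup.zpowers_le, MulAction.mem_stabilizer_iff, AlgEquiv.smul_def, h]
    have h2 : K⟮a⟯ ≤ IntermediateField.fixedField (Subgroup.zpowers τ) := by
      rw [adjoin_simple_le_iff, IntermediateField.mem_fixedField_iff]
      intro σ hσ
      have := h1 hσ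
      rwa [MulAction.mem_stabilizer_iff, AlgEquiv.smul_def] at this
    exact (IntermediateField.le_iff_le _ _).mp h2 (Subgroup.mem_zpowers τ)

/-- A finite separable subextension is simple. -/
theorem exists_eq_adjoin_simple_of_finiteDimensional [CharZero K]
    (E : IntermediateField K L) [FiniteDimensional K E] : ∃ a : L, E = K⟮a⟯ := by
  obtain ⟨α, hα⟩ := Field.exists_primitive_element K E
  refine ⟨(α : L), ?_⟩
  rw [← lift_adjoin_simple, hα, lift_top]

end General

/-- `r_q(τ)` fixes the number field `F` pointwise iff `τ` fixes its image in `PadicAlgCl q`. -/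
theorem localGaloisToGlobal_mem_fixingSubgroup_iff
    (F : IntermediateField ℚ (AlgebraicClosure ℚ)) (τ : PadicAlgCl q ≃ₐ[ℚ_[q]] PadicAlgCl q) :
    localGaloisToGlobal q τ ∈ F.fixingSubgroup ↔
      ∀ x ∈ F, τ (padicEmbedding q x) = padicEmbedding q x := by
  rw [IntermediateField.mem_fixingSubgroup_iff]
  refine forall₂_congr fun x _ => ?_
  rw [← padicEmbedding_localGaloisToGlobal]
  exact ⟨fun h => by rw [h], fun h => (padicEmbedding q).injective h⟩

/-- **Cofinality, first half**: the fixing subgroup of a finite extension `E/ℚ_q` contains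
`r_q⁻¹(G_F)` for a suitable number field `F`. -/
theorem exists_numberField_comap_le_fixingSubgroup
    (E : IntermediateField ℚ_[q] (PadicAlgCl q)) [FiniteDimensional ℚ_[q] E] :
    ∃ F : IntermediateField ℚ (AlgebraicClosure ℚ), FiniteDimensional ℚ F ∧
      ∀ τ : PadicAlgCl q ≃ₐ[ℚ_[q]] PadicAlgCl q,
        localGaloisToGlobal q τ ∈ F.fixingSubgroup → τ ∈ E.fixingSubgroup := by
  obtain ⟨a, rfl⟩ := exists_eq_adjoin_simple_of_finiteDimensional E
  obtain ⟨β, hβ⟩ := exists_mem_adjoin_padicEmbedding q a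
  have hβint : IsIntegral ℚ β :=
    ((AlgebraicClosure.isAlgebraic ℚ).isAlgebraic β).isIntegral
  refine ⟨ℚ⟮β⟯, adjoin.finiteDimensional hβint, fun τ hτ => ?_⟩
  have h1 : τ (padicEmbedding q β) = padicEmbedding q β :=
    (localGaloisToGlobal_mem_fixingSubgroup_iff q _ τ).mp hτ β (mem_adjoin_simple_self ℚ β)
  have h2 : τ ∈ (ℚ_[q]⟮padicEmbedding q β⟯).fixingSubgroup :=
    (mem_fixingSubgroup_adjoin_simple_iff _ τ).mpr h1
  rw [mem_fixingSubgroup_adjoin_simple_iff]
  exact (IntermediateField.mem_fixingSubgroup_iff _ _).mp h2 a hβ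

/-- **Cofinality, second half**: `r_q⁻¹(G_F)` is the fixing subgroup of a finite extension of
`ℚ_q` (namely `ℚ_q · ι(F)`). -/
theorem exists_localField_fixingSubgroup_eq
    (F : IntermediateField ℚ (AlgebraicClosure ℚ)) [FiniteDimensional ℚ F] :
    ∃ E : IntermediateField ℚ_[q] (PadicAlgCl q), FiniteDimensional ℚ_[q] E ∧
      ∀ τ : PadicAlgCl q ≃ₐ[ℚ_[q]] PadicAlgCl q,
        τ ∈ E.fixingSubgroup ↔ localGaloisToGlobal q τ ∈ F.fixingSubgroup := by
  obtain ⟨β, rfl⟩ := exists_eq_adjoin_simple_of_finiteDimensional F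
  have hint : IsIntegral ℚ_[q] (padicEmbedding q β) := Algebra.IsIntegral.isIntegral _
  refine ⟨ℚ_[q]⟮padicEmbedding q β⟯, adjoin.finiteDimensional hint, fun τ => ?_⟩
  rw [mem_fixingSubgroup_adjoin_simple_iff, mem_fixingSubgroup_adjoin_simple_iff,
    ← padicEmbedding_localGaloisToGlobal]
  exact ⟨fun h => (padicEmbedding q).injective h, fun h => by rw [h]⟩

open groupCohomology in
/-- The prelude's level-constancy for `1`-cochains on the local Galois group is continuity for the
Krull topology: right-invariance under the fixing subgroup of a finite extension of `ℚ_q`. -/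
theorem isLevelConstant₁_localGaloisToGlobal_iff {X : Type*}
    (f : (PadicAlgCl q ≃ₐ[ℚ_[q]] PadicAlgCl q) → X) :
    IsLevelConstant₁ (localGaloisToGlobal q) f ↔
      ∃ E : IntermediateField ℚ_[q] (PadicAlgCl q), FiniteDimensional ℚ_[q] E ∧
        ∀ g s, s ∈ E.fixingSubgroup → f (g * s) = f g := by
  constructor
  · rintro ⟨F, hF, h⟩
    haveI := hF
    obtain ⟨E, hE, hEF⟩ := exists_localField_fixingSubgroup_eq q F
    exact ⟨E, hE, fun g s hs => h g s ((hEF s).mp hs)⟩
  · rintro ⟨E, hE, h⟩
    haveI := hE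
    obtain ⟨F, hF, hFE⟩ := exists_numberField_comap_le_fixingSubgroup q E
    exact ⟨F, hF, fun g s hs => h g s (hFE s hs)⟩

open groupCohomology in
/-- The prelude's level-constancy for `2`-cochains on the local Galois group is continuity for the
Krull topology. -/
theorem isLevelConstant₂_localGaloisToGlobal_iff {X : Type*}
    (f : (PadicAlgCl q ≃ₐ[ℚ_[q]] PadicAlgCl q) × (PadicAlgCl q ≃ₐ[ℚ_[q]] PadicAlgCl q) → X) :
    IsLevelConstant₂ (localGaloisToGlobal q) f ↔
      ∃ E : IntermediateField ℚ_[q] (PadicAlgCl q), FiniteDimensional ℚ_[q] E ∧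
        ∀ g g' s s', s ∈ E.fixingSubgroup → s' ∈ E.fixingSubgroup →
          f (g * s, g' * s') = f (g, g') := by
  constructor
  · rintro ⟨F, hF, h⟩
    haveI := hF
    obtain ⟨E, hE, hEF⟩ := exists_localField_fixingSubgroup_eq q F
    exact ⟨E, hE, fun g g' s s' hs hs' => h g g' s s' ((hEF s).mp hs) ((hEF s').mp hs')⟩
  · rintro ⟨E, hE, h⟩
    haveI := hE
    obtain ⟨F, hF, hFE⟩ := exists_numberField_comap_le_fixingSubgroup q E
    exact ⟨F, hF, fun g g' s s' hs hs' => h g g' s s' (hFE s hs) (hFE s' hs')⟩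

section PrimeLocal

open groupCohomology ExtCitation

/-- Version of `isLevelConstant₁_localGaloisToGlobal_iff` for the prelude's
`primeLocalToGlobal`. -/
theorem isLevelConstant₁_primeLocalToGlobal_iff (q : Nat.Primes) {X : Type*}
    (f : primeLocalGaloisGroup q → X) :
    letI : Fact (q : ℕ).Prime := ⟨q.2⟩
    IsLevelConstant₁ (primeLocalToGlobal q) f ↔
      ∃ E : IntermediateField ℚ_[(q : ℕ)] (PadicAlgCl (q : ℕ)),
        FiniteDimensional ℚ_[(q : ℕ)] E ∧
        ∀ g s : PadicAlgCl (q : ℕ) ≃ₐ[ℚ_[(q : ℕ)]] PadicAlgCl (q : ℕ),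
          s ∈ E.fixingSubgroup → f (g * s) = f g :=
  letI : Fact (q : ℕ).Prime := ⟨q.2⟩
  isLevelConstant₁_localGaloisToGlobal_iff (q : ℕ) f

/-- Version of `isLevelConstant₂_localGaloisToGlobal_iff` for the prelude's
`primeLocalToGlobal`. -/
theorem isLevelConstant₂_primeLocalToGlobal_iff (q : Nat.Primes) {X : Type*}
    (f : primeLocalGaloisGroup q × primeLocalGaloisGroup q → X) :
    letI : Fact (q : ℕ).Prime := ⟨q.2⟩
    IsLevelConstant₂ (primeLocalToGlobal q) f ↔
      ∃ E : IntermediateField ℚ_[(q : ℕ)] (PadicAlgCl (q : ℕ)),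
        FiniteDimensional ℚ_[(q : ℕ)] E ∧
        ∀ g g' s s' : PadicAlgCl (q : ℕ) ≃ₐ[ℚ_[(q : ℕ)]] PadicAlgCl (q : ℕ),
          s ∈ E.fixingSubgroup → s' ∈ E.fixingSubgroup → f (g * s, g' * s') = f (g, g') :=
  letI : Fact (q : ℕ).Prime := ⟨q.2⟩
  isLevelConstant₂_localGaloisToGlobal_iff (q : ℕ) f

end PrimeLocal

end Fermat.Agent.CFT
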