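import Mathlib
import Fermat.Prelude.Def_GroupCohomology_ContinuousUnramified
import Fermat.Agent.CFT.Bridge.Krasner

set_option autoImplicit false

/-!
# CFT stream [D], bridge D2(b): local levels

For a subfield `K ⊆ AlgebraicClosure ℚ` we define the local field
`localLevel q K = ℚ_q · ι(K) ⊆ PadicAlgCl q` (`ι = padicEmbedding q`) and show

* `r_q⁻¹(G_K) = Gal(PadicAlgCl q / localLevel q K)` (`localLevel_fixingSubgroup_eq_comap`);
* `localLevel q K` is finite over `ℚ_q` if `K/ℚ` is finite, and normal if `K/ℚ` is normal;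
* every finite `E/ℚ_q` is contained in `localLevel q F` for a number field `F` (Krasner);
* for `K/ℚ` normal the induced map of finite quotients
  `Gal(Q̄_q/ℚ_q) ⧸ Gal(Q̄_q/K_w) → Gal(Q̄/ℚ) ⧸ Gal(Q̄/K)` is injective.
-/

namespace Fermat.Agent.CFT

open IntermediateField

section General

variable {K L : Type*} [Field K] [Field L] [Algebra K L]

/-- An automorphism fixes `K(S)` pointwise iff it fixes every element of `S`. -/
theorem mem_fixingSubgroup_adjoin_iff (S : Set L) (τ : L ≃ₐ[K] L) :
    τ ∈ (adjoin K S).fixingSubgroup ↔ ∀ a ∈ S, τ a = a := by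
  constructor
  · intro h a ha
    exact (IntermediateField.mem_fixingSubgroup_iff _ _).mp h a (subset_adjoin K S ha)
  · intro h
    have h2 : adjoin K S ≤ IntermediateField.fixedField (Subgroup.zpowers τ) := by
      rw [adjoin_le_iff]
      intro a ha
      rw [SetLike.mem_coe, IntermediateField.mem_fixedField_iff]
      intro σ hσ
      have h1 : Subgroup.zpowers τ ≤ MulAction.stabilizer (L ≃ₐ[K] L) a := by
        rw [Subgroup.zpowers_le, MulAction.mem_stabilizer_iff, AlgEquiv.smul_def, h a ha]
      have := h1 hσ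
      rwa [MulAction.mem_stabilizer_iff, AlgEquiv.smul_def] at this
    exact (IntermediateField.le_iff_le _ _).mp h2 (Subgroup.mem_zpowers τ)

end General

variable (q : ℕ) [Fact q.Prime]

/-- The local field `ℚ_q · ι(K) ⊆ PadicAlgCl q` attached to a subfield `K` of `AlgebraicClosure ℚ`. -/
noncomputable def localLevel (K : IntermediateField ℚ (AlgebraicClosure ℚ)) :
    IntermediateField ℚ_[q] (PadicAlgCl q) :=
  adjoin ℚ_[q] (padicEmbedding q '' (K : Set (AlgebraicClosure ℚ)))

variable {q} in
theorem padicEmbedding_mem_localLevel {K : IntermediateField ℚ (AlgebraicClosure ℚ)}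
    {x : AlgebraicClosure ℚ} (hx : x ∈ K) : padicEmbedding q x ∈ localLevel q K :=
  subset_adjoin _ _ ⟨x, hx, rfl⟩

theorem localLevel_mono {K K' : IntermediateField ℚ (AlgebraicClosure ℚ)} (h : K ≤ K') :
    localLevel q K ≤ localLevel q K' :=
  adjoin.mono _ _ _ (Set.image_mono h)

/-- `τ` fixes `ℚ_q · ι(K)` iff `r_q(τ)` fixes `K`. -/
theorem mem_fixingSubgroup_localLevel_iff (K : IntermediateField ℚ (AlgebraicClosure ℚ))
    (τ : PadicAlgCl q ≃ₐ[ℚ_[q]] PadicAlgCl q) :
    τ ∈ (localLevel q K).fixingSubgroup ↔ localGaloisToGlobal q τ ∈ K.fixingSubgroup := by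
  rw [localLevel, mem_fixingSubgroup_adjoin_iff, localGaloisToGlobal_mem_fixingSubgroup_iff]
  constructor
  · intro h x hx
    exact h _ ⟨x, hx, rfl⟩
  · rintro h _ ⟨x, hx, rfl⟩
    exact h x hx

/-- `r_q⁻¹(G_K)` is the absolute Galois group of `ℚ_q · ι(K)`. -/
theorem localLevel_fixingSubgroup_eq_comap (K : IntermediateField ℚ (AlgebraicClosure ℚ)) :
    (localLevel q K).fixingSubgroup = K.fixingSubgroup.comap (localGaloisToGlobal q) := by
  ext τ
  rw [Subgroup.mem_comap]
  exact mem_fixingSubgroup_localLevel_iff q K τ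

theorem localLevel_adjoin_simple (β : AlgebraicClosure ℚ) :
    localLevel q ℚ⟮β⟯ = ℚ_[q]⟮padicEmbedding q β⟯ := by
  apply le_antisymm
  · rw [localLevel, adjoin_le_iff]
    rintro _ ⟨x, hx, rfl⟩
    -- `x` is a rational function of `β`
    have hβint : IsIntegral ℚ β := ((AlgebraicClosure.isAlgebraic ℚ).isAlgebraic β).isIntegral
    have hx' : x ∈ Algebra.adjoin ℚ {β} := by
      have := (IntermediateField.adjoin_simple_toSubalgebra_of_isAlgebraic
        hβint.isAlgebraic) ▸ (show x ∈ (ℚ⟮β⟯).toSubalgebra from hx)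
      exact this
    rw [SetLike.mem_coe]
    clear hx
    induction hx' using Algebra.adjoin_induction with
    | mem y hy =>
      rw [Set.mem_singleton_iff] at hy
      rw [hy]
      exact mem_adjoin_simple_self _ _
    | algebraMap r =>
      rw [AlgHom.commutes]
      have : algebraMap ℚ (PadicAlgCl q) r = algebraMap ℚ_[q] (PadicAlgCl q) (r : ℚ_[q]) := by
        simp
      rw [this]
      exact IntermediateField.algebraMap_mem _ _
    | add y z _ _ hy hz => rw [map_add]; exact add_mem hy hz
    | mul y z _ _ hy hz => rw [map_mul]; exact mul_mem hy hz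
  · rw [adjoin_simple_le_iff]
    exact padicEmbedding_mem_localLevel (mem_adjoin_simple_self ℚ β)

instance finiteDimensional_localLevel (K : IntermediateField ℚ (AlgebraicClosure ℚ))
    [FiniteDimensional ℚ K] : FiniteDimensional ℚ_[q] (localLevel q K) := by
  obtain ⟨β, rfl⟩ := exists_eq_adjoin_simple_of_finiteDimensional K
  rw [localLevel_adjoin_simple]
  exact adjoin.finiteDimensional (Algebra.IsIntegral.isIntegral _)

/-- Krasner: every finite extension of `ℚ_q` is contained in the local field of a number field. -/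
theorem exists_le_localLevel (E : IntermediateField ℚ_[q] (PadicAlgCl q))
    [FiniteDimensional ℚ_[q] E] :
    ∃ F : IntermediateField ℚ (AlgebraicClosure ℚ), FiniteDimensional ℚ F ∧
      E ≤ localLevel q F := by
  obtain ⟨a, rfl⟩ := exists_eq_adjoin_simple_of_finiteDimensional E
  obtain ⟨β, hβ⟩ := exists_mem_adjoin_padicEmbedding q a
  have hβint : IsIntegral ℚ β := ((AlgebraicClosure.isAlgebraic ℚ).isAlgebraic β).isIntegral
  refine ⟨ℚ⟮β⟯, adjoin.finiteDimensional hβint, ?_⟩
  rw [localLevel_adjoin_simple, adjoin_simple_le_iff]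
  exact hβ

section Normal

local instance isAlgebraicQbar_ll : Algebra.IsAlgebraic ℚ (AlgebraicClosure ℚ) :=
  AlgebraicClosure.isAlgebraic ℚ
local instance isAlgClosureQbar_ll : IsAlgClosure ℚ (AlgebraicClosure ℚ) :=
  ⟨inferInstance, inferInstance⟩
local instance normalQbar_ll : Normal ℚ (AlgebraicClosure ℚ) :=
  IsAlgClosure.normal ℚ (AlgebraicClosure ℚ)
local instance normalPadicAlgCl_ll : Normal ℚ_[q] (PadicAlgCl q) :=
  IsAlgClosure.normal ℚ_[q] (PadicAlgCl q)

/-- If `K/ℚ` is normal then so is `ℚ_q · ι(K)` over `ℚ_q`. -/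
instance normal_localLevel (K : IntermediateField ℚ (AlgebraicClosure ℚ)) [Normal ℚ K] :
    Normal ℚ_[q] (localLevel q K) := by
  rw [normal_iff_forall_map_le']
  intro σ
  rw [localLevel, adjoin_map]
  apply adjoin.mono
  rintro _ ⟨_, ⟨x, hx, rfl⟩, rfl⟩
  refine ⟨localGaloisToGlobal q σ x, ?_, ?_⟩
  · have h := (normal_iff_forall_map_le' (F := ℚ) (K := K)).mp ‹Normal ℚ K›
      (localGaloisToGlobal q σ)
    exact h ⟨x, hx, rfl⟩
  · rw [padicEmbedding_localGaloisToGlobal]
    rfl

/-- The fixing subgroup of a normal intermediate field is a normal subgroup (no finiteness or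
separability hypothesis on the big extension). -/
theorem fixingSubgroup_normal_of_normal {F L : Type*} [Field F] [Field L] [Algebra F L]
    (E : IntermediateField F L) [Normal F E] : E.fixingSubgroup.Normal := by
  rw [← E.restrictNormalHom_ker]
  exact MonoidHom.normal_ker _

/-- Instance-agnostic version of `IntermediateField.restrictNormalHom_ker` (useful over `ℚ`, where
`[Normal ℚ K]` elaborates with `DivisionRing.toRatAlgebra` rather than `IntermediateField.algebra'`). -/
theorem restrictNormalHom_eq_one_iff {F L : Type*} [Field F] [Field L] [Algebra F L]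
    (E : IntermediateField F L) [Algebra F E] [IsScalarTower F E L] [Normal F E]
    (σ : L ≃ₐ[F] L) : AlgEquiv.restrictNormalHom E σ = 1 ↔ σ ∈ E.fixingSubgroup := by
  rw [IntermediateField.mem_fixingSubgroup_iff]
  constructor
  · intro h x hx
    have h1 := AlgEquiv.restrictNormal_commutes σ E ⟨x, hx⟩
    rw [show σ.restrictNormal E = AlgEquiv.restrictNormalHom E σ from rfl, h] at h1
    exact h1.symm
  · intro h
    ext x
    have h1 := AlgEquiv.restrictNormal_commutes σ E x
    rw [show σ.restrictNormal E = AlgEquiv.restrictNormalHom E σ from rfl] at h1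
    exact h1.trans (h x x.2)

/-- The kernel of `Gal(Q̄_q/ℚ_q) → Gal(Q̄/ℚ) → Gal(K/ℚ)` is the absolute Galois group of
`K_w = ℚ_q · ι(K)`. -/
theorem ker_restrictNormalHom_comp_localGaloisToGlobal
    (K : IntermediateField ℚ (AlgebraicClosure ℚ)) [Normal ℚ K] :
    ((AlgEquiv.restrictNormalHom (F := ℚ) (K₁ := AlgebraicClosure ℚ) K).comp
      (localGaloisToGlobal q)).ker = (localLevel q K).fixingSubgroup := by
  ext τ
  rw [MonoidHom.mem_ker, MonoidHom.comp_apply, restrictNormalHom_eq_one_iff,
    mem_fixingSubgroup_localLevel_iff]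

/-- The injection `Gal(K_w/ℚ_q) ↪ Gal(K/ℚ)` (onto the decomposition group of the place of `K`
induced by `ι`), for `K/ℚ` normal and `K_w = ℚ_q · ι(K)`. -/
noncomputable def localLevelRestrict (K : IntermediateField ℚ (AlgebraicClosure ℚ)) [Normal ℚ K] :
    ((localLevel q K) ≃ₐ[ℚ_[q]] (localLevel q K)) →* (K ≃ₐ[ℚ] K) :=
  (AlgEquiv.restrictNormalHom (F := ℚ_[q]) (K₁ := PadicAlgCl q) (localLevel q K)).liftOfSurjective
    (AlgEquiv.restrictNormalHom_surjective (PadicAlgCl q))
    ⟨(AlgEquiv.restrictNormalHom (F := ℚ) (K₁ := AlgebraicClosure ℚ) K).comp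
      (localGaloisToGlobal q), by
        rw [ker_restrictNormalHom_comp_localGaloisToGlobal, (localLevel q K).restrictNormalHom_ker]⟩

/-- The square `Gal(Q̄_q/ℚ_q) → Gal(Q̄/ℚ)`, `Gal(K_w/ℚ_q) → Gal(K/ℚ)` commutes. -/
theorem localLevelRestrict_restrictNormalHom (K : IntermediateField ℚ (AlgebraicClosure ℚ))
    [Normal ℚ K] (τ : PadicAlgCl q ≃ₐ[ℚ_[q]] PadicAlgCl q) :
    localLevelRestrict q K (AlgEquiv.restrictNormalHom (localLevel q K) τ) =
      AlgEquiv.restrictNormalHom K (localGaloisToGlobal q τ) :=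
  MonoidHom.liftOfRightInverse_comp_apply _ _ _ _ τ

theorem localLevelRestrict_injective (K : IntermediateField ℚ (AlgebraicClosure ℚ))
    [Normal ℚ K] : Function.Injective (localLevelRestrict q K) := by
  rw [injective_iff_map_eq_one]
  intro σ hσ
  obtain ⟨τ, rfl⟩ := AlgEquiv.restrictNormalHom_surjective (F := ℚ_[q]) (K₁ := localLevel q K)
    (PadicAlgCl q) σ
  rw [localLevelRestrict_restrictNormalHom] at hσ
  have h1 : τ ∈ ((AlgEquiv.restrictNormalHom (F := ℚ) (K₁ := AlgebraicClosure ℚ) K).comp
      (localGaloisToGlobal q)).ker := hσ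
  rw [ker_restrictNormalHom_comp_localGaloisToGlobal,
    ← (localLevel q K).restrictNormalHom_ker] at h1
  exact h1

/-- Explicit description: `ι (localLevelRestrict σ x) = σ (ι x)` for `x ∈ K`. -/
theorem padicEmbedding_localLevelRestrict (K : IntermediateField ℚ (AlgebraicClosure ℚ))
    [Normal ℚ K] (σ : (localLevel q K) ≃ₐ[ℚ_[q]] (localLevel q K)) (x : K) :
    padicEmbedding q (localLevelRestrict q K σ x : AlgebraicClosure ℚ) =
      (σ ⟨padicEmbedding q x, padicEmbedding_mem_localLevel x.2⟩ : PadicAlgCl q) := by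
  obtain ⟨τ, rfl⟩ := AlgEquiv.restrictNormalHom_surjective (F := ℚ_[q]) (K₁ := localLevel q K)
    (PadicAlgCl q) σ
  rw [localLevelRestrict_restrictNormalHom]
  have h1 := AlgEquiv.restrictNormal_commutes (localGaloisToGlobal q τ) K x
  have h2 := AlgEquiv.restrictNormal_commutes τ (localLevel q K)
    ⟨padicEmbedding q x, padicEmbedding_mem_localLevel x.2⟩
  rw [show (localGaloisToGlobal q τ).restrictNormal K =
    AlgEquiv.restrictNormalHom K (localGaloisToGlobal q τ) from rfl] at h1
  rw [show τ.restrictNormal (localLevel q K) =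
    AlgEquiv.restrictNormalHom (localLevel q K) τ from rfl] at h2
  exact (congrArg (padicEmbedding q) h1).trans
    ((padicEmbedding_localGaloisToGlobal q τ x).trans h2.symm)

end Normal

end Fermat.Agent.CFT
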