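import Mathlib
import Fermat.Prelude.Def_GroupCohomology_ContinuousUnramified
import Fermat.Agent.S05.Interface

set_option autoImplicit false

/-!
# CFT stream [D], bridge (B0)/(B1): Galois levels

* `mem_inertiaSubgroupIn_iff_forall`: `s ∈ I_A ↔ s • A = A ∧ ∀ x ∈ A, s x - x ∈ 𝔪_A`;
* `conj_mem_inertiaSubgroupIn`: conjugation of inertia groups;
* `IsUnramifiedOutside.map`, `IsUnramifiedOutside.galClosure`: conjugates and the Galois closure of
  a field unramified outside `S` are unramified outside `S`;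
* `IsLevelConstantS₁.exists_normal`, `IsLevelConstantS₂.exists_normal`: `S`-level-constant cochains
  are witnessed by a field which is moreover normal over `ℚ`.
-/

namespace Fermat.Agent.CFT

open scoped Pointwise
open IntermediateField

local instance isAlgebraicQbar_sf : Algebra.IsAlgebraic ℚ (AlgebraicClosure ℚ) :=
  AlgebraicClosure.isAlgebraic ℚ
local instance isAlgClosureQbar_sf : IsAlgClosure ℚ (AlgebraicClosure ℚ) :=
  ⟨inferInstance, inferInstance⟩
local instance normalQbar_sf : Normal ℚ (AlgebraicClosure ℚ) :=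
  IsAlgClosure.normal ℚ (AlgebraicClosure ℚ)

section Inertia

variable {K L : Type*} [Field K] [Field L] [Algebra K L]

/-- Elementwise description of the inertia subgroup. -/
theorem mem_inertiaSubgroupIn_iff_forall {A : ValuationSubring L} {s : L ≃ₐ[K] L} :
    s ∈ A.inertiaSubgroupIn K ↔ s • A = A ∧ ∀ x ∈ A, s x - x ∈ A.nonunits := by
  constructor
  · intro hs
    exact ⟨Fermat.Agent.S05.inertia_smul_eq hs,
      fun x hx => Fermat.Agent.S05.inertia_sub_mem_nonunits hs hx⟩
  · rintro ⟨h1, h2⟩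
    rw [Fermat.Agent.S05.mem_inertiaSubgroupIn_iff]
    refine ⟨⟨s, h1⟩, ?_, rfl⟩
    show MulSemiringAction.toRingAut (A.decompositionSubgroup K)
      (IsLocalRing.ResidueField A) ⟨s, h1⟩ = 1
    ext y
    obtain ⟨⟨x, hx⟩, rfl⟩ := IsLocalRing.residue_surjective y
    show (⟨s, h1⟩ : A.decompositionSubgroup K) • IsLocalRing.residue A ⟨x, hx⟩ =
      IsLocalRing.residue A ⟨x, hx⟩
    rw [← IsLocalRing.ResidueField.residue_smul]
    apply Ideal.Quotient.eq.mpr
    have h3 : (((⟨s, h1⟩ : A.decompositionSubgroup K) • (⟨x, hx⟩ : A) - ⟨x, hx⟩ : A) : L)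
        ∈ A.nonunits := h2 x hx
    exact ValuationSubring.coe_mem_nonunits_iff.mp h3

theorem mem_smul_nonunits_iff (g : L ≃ₐ[K] L) (A : ValuationSubring L) (y : L) :
    y ∈ (g • A).nonunits ↔ g⁻¹ y ∈ A.nonunits := by
  rw [ValuationSubring.mem_nonunits_iff_or, ValuationSubring.mem_nonunits_iff_or,
    ValuationSubring.mem_pointwise_smul_iff_inv_smul_mem, AlgEquiv.smul_def, map_inv₀]
  have : g⁻¹ y = 0 ↔ y = 0 := map_eq_zero_iff _ (g⁻¹).injective
  rw [this]

/-- Conjugation of inertia groups: `σ⁻¹ I_A σ = I_{σ⁻¹ A}` (one inclusion). -/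
theorem conj_mem_inertiaSubgroupIn {A : ValuationSubring L} {s : L ≃ₐ[K] L}
    (hs : s ∈ A.inertiaSubgroupIn K) (σ : L ≃ₐ[K] L) :
    σ⁻¹ * s * σ ∈ (σ⁻¹ • A).inertiaSubgroupIn K := by
  rw [mem_inertiaSubgroupIn_iff_forall] at hs ⊢
  obtain ⟨h1, h2⟩ := hs
  refine ⟨?_, fun x hx => ?_⟩
  · rw [mul_smul, mul_smul, smul_inv_smul, h1]
  · rw [ValuationSubring.mem_pointwise_smul_iff_inv_smul_mem, inv_inv, AlgEquiv.smul_def] at hx
    rw [mem_smul_nonunits_iff, inv_inv]
    have := h2 (σ x) hx
    have e : σ ((σ⁻¹ * s * σ) x - x) = s (σ x) - σ x := by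
      rw [map_sub]
      simp only [AlgEquiv.mul_apply]
      congr 1
      exact AlgEquiv.apply_symm_apply σ _
    rwa [e]

end Inertia

section Unramified

variable {S : Finset Nat.Primes}

theorem liesOverPrime_smul {A : ValuationSubring (AlgebraicClosure ℚ)} {q : ℕ}
    (hA : A.LiesOverPrime q) (σ : AlgebraicClosure ℚ ≃ₐ[ℚ] AlgebraicClosure ℚ) :
    (σ • A).LiesOverPrime q := by
  unfold ValuationSubring.LiesOverPrime at hA ⊢
  rw [mem_smul_nonunits_iff, map_natCast]
  exact hA

/-- A conjugate of a field unramified outside `S` is unramified outside `S`. -/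
theorem IsUnramifiedOutside.map {F : IntermediateField ℚ (AlgebraicClosure ℚ)}
    (hF : F.IsUnramifiedOutside S) (σ : AlgebraicClosure ℚ ≃ₐ[ℚ] AlgebraicClosure ℚ) :
    (F.map (σ : AlgebraicClosure ℚ →ₐ[ℚ] AlgebraicClosure ℚ)).IsUnramifiedOutside S := by
  haveI := hF.1
  refine ⟨?_, fun q hq A hA s hs => ?_⟩
  · exact LinearEquiv.finiteDimensional (F.equivMap (σ : AlgebraicClosure ℚ →ₐ[ℚ]
      AlgebraicClosure ℚ)).toLinearEquiv
  · have h1 := conj_mem_inertiaSubgroupIn hs σ
    have h2 := hF.2 q hq (σ⁻¹ • A) (liesOverPrime_smul hA σ⁻¹) h1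
    rw [IntermediateField.mem_fixingSubgroup_iff] at h2 ⊢
    rintro _ ⟨x, hx, rfl⟩
    have := h2 x hx
    simp only [AlgEquiv.mul_apply] at this
    have h3 := congrArg σ this
    rw [show σ (σ⁻¹ (s (σ x))) = s (σ x) from AlgEquiv.apply_symm_apply σ _] at h3
    exact h3

/-- If `s` fixes every `K i` pointwise then it fixes `⨆ i, K i` pointwise. -/
theorem mem_fixingSubgroup_iSup {F L : Type*} [Field F] [Field L] [Algebra F L] {ι : Sort*}
    {K : ι → IntermediateField F L} {s : L ≃ₐ[F] L} (h : ∀ i, s ∈ (K i).fixingSubgroup) :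
    s ∈ (⨆ i, K i).fixingSubgroup := by
  have h2 : (⨆ i, K i) ≤ IntermediateField.fixedField (Subgroup.zpowers s) := by
    refine iSup_le fun i => ?_
    rw [IntermediateField.le_iff_le, Subgroup.zpowers_le]
    exact h i
  exact (IntermediateField.le_iff_le _ _).mp h2 (Subgroup.mem_zpowers s)

/-- The Galois closure of `F` inside `AlgebraicClosure ℚ`, as the compositum of its conjugates. -/
noncomputable def galClosure (F : IntermediateField ℚ (AlgebraicClosure ℚ)) :
    IntermediateField ℚ (AlgebraicClosure ℚ) :=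
  ⨆ σ : AlgebraicClosure ℚ ≃ₐ[ℚ] AlgebraicClosure ℚ,
    F.map (σ : AlgebraicClosure ℚ →ₐ[ℚ] AlgebraicClosure ℚ)

theorem le_galClosure (F : IntermediateField ℚ (AlgebraicClosure ℚ)) : F ≤ galClosure F := by
  refine le_trans ?_ (le_iSup _ (1 : AlgebraicClosure ℚ ≃ₐ[ℚ] AlgebraicClosure ℚ))
  intro x hx
  exact ⟨x, hx, rfl⟩

theorem galClosure_eq_normalClosure (F : IntermediateField ℚ (AlgebraicClosure ℚ)) :
    galClosure F = IntermediateField.normalClosure ℚ F (AlgebraicClosure ℚ) :=
  (IntermediateField.normalClosure_def'' F).symm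

/-- The Galois closure is stable under all automorphisms. -/
theorem galClosure_map (F : IntermediateField ℚ (AlgebraicClosure ℚ))
    (τ : AlgebraicClosure ℚ ≃ₐ[ℚ] AlgebraicClosure ℚ) :
    (galClosure F).map (τ : AlgebraicClosure ℚ →ₐ[ℚ] AlgebraicClosure ℚ) ≤ galClosure F := by
  rw [galClosure, IntermediateField.map_iSup]
  refine iSup_le fun σ => ?_
  rw [IntermediateField.map_map]
  exact le_iSup (fun σ : AlgebraicClosure ℚ ≃ₐ[ℚ] AlgebraicClosure ℚ =>
    F.map (σ : AlgebraicClosure ℚ →ₐ[ℚ] AlgebraicClosure ℚ)) (τ * σ)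

/-- The absolute Galois group of the Galois closure is a normal subgroup. -/
theorem galClosure_fixingSubgroup_normal (F : IntermediateField ℚ (AlgebraicClosure ℚ)) :
    (galClosure F).fixingSubgroup.Normal := by
  refine ⟨fun s hs τ => ?_⟩
  rw [IntermediateField.mem_fixingSubgroup_iff] at hs ⊢
  intro x hx
  have hx' : τ⁻¹ x ∈ galClosure F :=
    galClosure_map F τ⁻¹ ⟨x, hx, rfl⟩
  have := hs _ hx'
  simp only [AlgEquiv.mul_apply]
  rw [this]
  exact AlgEquiv.apply_symm_apply τ x

/-- The Galois closure of a field unramified outside `S` is unramified outside `S`. -/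
theorem IsUnramifiedOutside.galClosure {F : IntermediateField ℚ (AlgebraicClosure ℚ)}
    (hF : F.IsUnramifiedOutside S) : (galClosure F).IsUnramifiedOutside S := by
  haveI := hF.1
  refine ⟨?_, fun q hq A hA s hs => ?_⟩
  · rw [galClosure_eq_normalClosure]
    infer_instance
  · exact mem_fixingSubgroup_iSup fun σ => (IsUnramifiedOutside.map hF σ).2 q hq A hA hs

end Unramified

section LevelConstant

open groupCohomology

variable {S : Finset Nat.Primes}

/-- `S`-level-constant `1`-cochains are witnessed by a level which is Galois over `ℚ`. -/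
theorem exists_normal_of_isLevelConstantS₁ {X : Type*}
    {f : (AlgebraicClosure ℚ ≃ₐ[ℚ] AlgebraicClosure ℚ) → X} (hf : IsLevelConstantS₁ S f) :
    ∃ F : IntermediateField ℚ (AlgebraicClosure ℚ), F.IsUnramifiedOutside S ∧
      F.fixingSubgroup.Normal ∧ ∀ g s, s ∈ F.fixingSubgroup → f (g * s) = f g := by
  obtain ⟨F, hF, h⟩ := hf
  exact ⟨galClosure F, IsUnramifiedOutside.galClosure hF, galClosure_fixingSubgroup_normal F,
    fun g s hs => h g s (IntermediateField.fixingSubgroup_antitone (le_galClosure F) hs)⟩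

/-- `S`-level-constant `2`-cochains are witnessed by a level which is Galois over `ℚ`. -/
theorem exists_normal_of_isLevelConstantS₂ {X : Type*}
    {f : (AlgebraicClosure ℚ ≃ₐ[ℚ] AlgebraicClosure ℚ) ×
      (AlgebraicClosure ℚ ≃ₐ[ℚ] AlgebraicClosure ℚ) → X} (hf : IsLevelConstantS₂ S f) :
    ∃ F : IntermediateField ℚ (AlgebraicClosure ℚ), F.IsUnramifiedOutside S ∧
      F.fixingSubgroup.Normal ∧
      ∀ g g' s s', s ∈ F.fixingSubgroup → s' ∈ F.fixingSubgroup → f (g * s, g' * s') = f (g, g') := by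
  obtain ⟨F, hF, h⟩ := hf
  exact ⟨galClosure F, IsUnramifiedOutside.galClosure hF, galClosure_fixingSubgroup_normal F,
    fun g g' s s' hs hs' => h g g' s s'
      (IntermediateField.fixingSubgroup_antitone (le_galClosure F) hs)
      (IntermediateField.fixingSubgroup_antitone (le_galClosure F) hs')⟩

end LevelConstant

section SplittingField

variable {S : Finset Nat.Primes}

local instance isGaloisQbar_sf : IsGalois ℚ (AlgebraicClosure ℚ) where

/-- **(B0)** A finite-dimensional smooth representation unramified outside `S` factors through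
`Gal(F₀/ℚ)` for a finite Galois extension `F₀/ℚ` unramified outside `S`
(`F₀` = the field cut out by `ρ`). -/
theorem exists_level_of_unramified {k : Type} [Field k]
    (M : Rep k (AlgebraicClosure ℚ ≃ₐ[ℚ] AlgebraicClosure ℚ)) [FiniteDimensional k M]
    (hsm : ∀ m : M, ∃ F : IntermediateField ℚ (AlgebraicClosure ℚ), FiniteDimensional ℚ F ∧
      ∀ s ∈ F.fixingSubgroup, M.ρ s m = m)
    (hMur : ∀ q : Nat.Primes, q ∉ S → ∀ A : ValuationSubring (AlgebraicClosure ℚ),
      A.LiesOverPrime (q : ℕ) → ∀ g ∈ A.inertiaSubgroupIn ℚ, M.ρ g = 1) :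
    ∃ F₀ : IntermediateField ℚ (AlgebraicClosure ℚ), F₀.IsUnramifiedOutside S ∧
      F₀.fixingSubgroup.Normal ∧ F₀.fixingSubgroup = M.ρ.ker := by
  classical
  -- Step 1: a finite extension `F₁` whose absolute Galois group acts trivially
  obtain ⟨F₁, hF₁fin, hF₁⟩ : ∃ F₁ : IntermediateField ℚ (AlgebraicClosure ℚ),
      FiniteDimensional ℚ F₁ ∧ F₁.fixingSubgroup ≤ M.ρ.ker := by
    choose F hFfin hF using hsm
    let b := Module.finBasis k M
    refine ⟨⨆ i, F (b i), ?_, fun s hs => ?_⟩
    · haveI := hFfin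
      exact IntermediateField.finiteDimensional_iSup_of_finite
    · rw [MonoidHom.mem_ker]
      refine b.ext fun i => ?_
      exact hF (b i) s
        (IntermediateField.fixingSubgroup_antitone (le_iSup (fun i => F (b i)) i) hs)
  haveI := hF₁fin
  -- Step 2: `ker ρ` is open, hence closed
  have hopen : IsOpen ((M.ρ.ker : Subgroup _) : Set (AlgebraicClosure ℚ ≃ₐ[ℚ] AlgebraicClosure ℚ)) :=
    Subgroup.isOpen_mono hF₁ F₁.fixingSubgroup_isOpen
  have hclosed : IsClosed ((M.ρ.ker : Subgroup _) :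
      Set (AlgebraicClosure ℚ ≃ₐ[ℚ] AlgebraicClosure ℚ)) :=
    Subgroup.isClosed_of_isOpen _ hopen
  let H : ClosedSubgroup (AlgebraicClosure ℚ ≃ₐ[ℚ] AlgebraicClosure ℚ) := ⟨M.ρ.ker, hclosed⟩
  -- Step 3: the fixed field
  set F₀ := IntermediateField.fixedField (M.ρ.ker) with hF₀
  have hfix : F₀.fixingSubgroup = M.ρ.ker := InfiniteGalois.fixingSubgroup_fixedField H
  have hle : F₀ ≤ F₁ := by
    have h1 : IntermediateField.fixedField (M.ρ.ker) ≤
        IntermediateField.fixedField F₁.fixingSubgroup :=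
      IntermediateField.fixedField_antitone hF₁
    rwa [InfiniteGalois.fixedField_fixingSubgroup] at h1
  refine ⟨F₀, ⟨?_, fun q hq A hA g hg => ?_⟩, ?_, hfix⟩
  · exact FiniteDimensional.of_injective (IntermediateField.inclusion hle).toLinearMap
      (IntermediateField.inclusion_injective hle)
  · rw [hfix, MonoidHom.mem_ker]
    exact hMur q hq A hA g hg
  · rw [hfix]
    exact MonoidHom.normal_ker _

end SplittingField

end Fermat.Agent.CFT
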