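import Mathlib

set_option autoImplicit false

/-!
# CFT stream [D], bridge engine (E): level-constant cochains = inflations from finite quotients

Mathlib only.  `G` a group, `M : Rep k G`, `N ≤ G` a normal subgroup acting trivially on `M`
(instance `Representation.IsTrivial (M.ρ.comp N.subtype)`), `M.ofQuotient N : Rep k (G ⧸ N)`.

* `inflQ M N n : Hⁿ(G ⧸ N, M) ⟶ Hⁿ(G, M)` (Mathlib's `groupCohomology.map` along `mk' N`);
* `exists_cocycles₁_ofQuotient`, `exists_cocycles₂_ofQuotient`: a right-`N`-invariant cocycle is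
  the pull-back of a cocycle of `G ⧸ N`;  `inflQ_H1π`, `inflQ_H2π`: the class of the pull-back is
  the inflation of the class;
* `inflQ_one_injective`;
* for `N' ≤ N`: transition `inflQQ M N N' h n : Hⁿ(G ⧸ N, M) ⟶ Hⁿ(G ⧸ N', M)`,
  `inflQQ_comp_inflQ`, and `inflQQ_H2π_eq_zero_iff`: the class of `c'` dies in `H²(G ⧸ N', M)` iff
  the pull-back of `c'` to `G` is `d₁₂` of a right-`N'`-invariant `1`-cochain.
-/

namespace Fermat.Agent.CFT

open CategoryTheory groupCohomology Rep

universe u

section Descend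

variable {G : Type*} [Group G] (N : Subgroup G)

/-- A right-`N`-invariant function on `G` descends to `G ⧸ N`. -/
def descend₁ {X : Type*} (f : G → X) (hf : ∀ g, ∀ s ∈ N, f (g * s) = f g) : G ⧸ N → X :=
  fun q => Quotient.liftOn' q f (fun a b hab => by
    have h := QuotientGroup.leftRel_apply.1 hab
    have := hf a (a⁻¹ * b) h
    rw [mul_inv_cancel_left] at this
    exact this.symm)

@[simp]
lemma descend₁_mk {X : Type*} (f : G → X) (hf : ∀ g, ∀ s ∈ N, f (g * s) = f g) (g : G) :
    descend₁ N f hf (g : G ⧸ N) = f g := rfl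

/-- A function on `G × G` right-`N`-invariant in both variables descends to `G ⧸ N × G ⧸ N`. -/
def descend₂ {X : Type*} (f : G × G → X)
    (hf : ∀ g g', ∀ s ∈ N, ∀ s' ∈ N, f (g * s, g' * s') = f (g, g')) : (G ⧸ N) × (G ⧸ N) → X :=
  fun q => Quotient.liftOn₂' q.1 q.2 (fun a b => f (a, b)) (fun a b a' b' ha hb => by
    have h1 := QuotientGroup.leftRel_apply.1 ha
    have h2 := QuotientGroup.leftRel_apply.1 hb
    have := hf a b (a⁻¹ * a') h1 (b⁻¹ * b') h2
    rw [mul_inv_cancel_left, mul_inv_cancel_left] at this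
    exact this.symm)

@[simp]
lemma descend₂_mk {X : Type*} (f : G × G → X)
    (hf : ∀ g g', ∀ s ∈ N, ∀ s' ∈ N, f (g * s, g' * s') = f (g, g')) (g g' : G) :
    descend₂ N f hf ((g : G ⧸ N), (g' : G ⧸ N)) = f (g, g') := rfl

end Descend

section Engine

variable {k G : Type u} [CommRing k] [Group G] (M : Rep k G) (N : Subgroup G) [N.Normal]
  [Representation.IsTrivial (M.ρ.comp N.subtype)]

/-- Inflation `Hⁿ(G ⧸ N, M) ⟶ Hⁿ(G, M)` for a representation on which `N` acts trivially. -/
noncomputable abbrev inflQ (n : ℕ) :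
    groupCohomology (M.ofQuotient N) n ⟶ groupCohomology M n :=
  groupCohomology.map (QuotientGroup.mk' N) (M.resOfQuotientIso N).hom n

/-- (E1) a right-`N`-invariant 1-cocycle is the pull-back of a 1-cocycle of `G ⧸ N`. -/
theorem exists_cocycles₁_ofQuotient (c : cocycles₁ M) (hc : ∀ g, ∀ s ∈ N, c (g * s) = c g) :
    ∃ c' : cocycles₁ (M.ofQuotient N), ∀ g : G, c' (g : G ⧸ N) = c g := by
  refine ⟨⟨descend₁ N c hc, ?_⟩, fun g => rfl⟩
  rw [mem_cocycles₁_iff]
  intro q q'
  induction q using QuotientGroup.induction_on with | H g =>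
  induction q' using QuotientGroup.induction_on with | H h =>
  exact (mem_cocycles₁_iff c).1 c.2 g h

/-- (E2) a 2-cocycle right-`N`-invariant in both variables is the pull-back of a 2-cocycle of
`G ⧸ N`. -/
theorem exists_cocycles₂_ofQuotient (c : cocycles₂ M)
    (hc : ∀ g g', ∀ s ∈ N, ∀ s' ∈ N, c (g * s, g' * s') = c (g, g')) :
    ∃ c' : cocycles₂ (M.ofQuotient N),
      ∀ g g' : G, c' ((g : G ⧸ N), (g' : G ⧸ N)) = c (g, g') := by
  refine ⟨⟨descend₂ N c hc, ?_⟩, fun g g' => rfl⟩
  rw [mem_cocycles₂_iff]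
  intro q q' q''
  induction q using QuotientGroup.induction_on with | H g =>
  induction q' using QuotientGroup.induction_on with | H h =>
  induction q'' using QuotientGroup.induction_on with | H j =>
  exact (mem_cocycles₂_iff c).1 c.2 g h j

/-- The inflation of the class of `c'` is the class of its pull-back (degree 1). -/
theorem inflQ_H1π (c' : cocycles₁ (M.ofQuotient N)) (c : cocycles₁ M)
    (h : ∀ g : G, c' (g : G ⧸ N) = c g) :
    (inflQ M N 1) (H1π (M.ofQuotient N) c') = H1π M c := by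
  rw [H1π_comp_map_apply]
  congr 1
  apply cocycles₁_ext
  intro g
  rw [← h g]
  rfl

/-- The inflation of the class of `c'` is the class of its pull-back (degree 2). -/
theorem inflQ_H2π (c' : cocycles₂ (M.ofQuotient N)) (c : cocycles₂ M)
    (h : ∀ g g' : G, c' ((g : G ⧸ N), (g' : G ⧸ N)) = c (g, g')) :
    (inflQ M N 2) (H2π (M.ofQuotient N) c') = H2π M c := by
  rw [H2π_comp_map_apply]
  congr 1
  apply cocycles₂_ext
  intro g g'
  rw [← h g g']
  rfl

/-- (E1') inflation is injective in degree 1. -/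
theorem inflQ_one_injective : Function.Injective (inflQ M N 1) := by
  rw [injective_iff_map_eq_zero]
  intro x hx
  induction x using H1_induction_on with | h c' =>
  rw [H1π_comp_map_apply] at hx
  rcases (H1π_eq_zero_iff _).1 hx with ⟨m, hm⟩
  refine (H1π_eq_zero_iff _).2 ⟨m, ?_⟩
  funext q
  induction q using QuotientGroup.induction_on with | H g =>
  exact congr_fun hm g

/-- every class of `H¹(G, M)` represented by a right-`N`-invariant cocycle is an inflation. -/
theorem exists_inflQ_one_eq (c : cocycles₁ M) (hc : ∀ g, ∀ s ∈ N, c (g * s) = c g) :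
    ∃ y : H1 (M.ofQuotient N), (inflQ M N 1) y = H1π M c := by
  obtain ⟨c', hc'⟩ := exists_cocycles₁_ofQuotient M N c hc
  exact ⟨H1π _ c', inflQ_H1π M N c' c hc'⟩

section Transition

variable (N' : Subgroup G) [N'.Normal] [Representation.IsTrivial (M.ρ.comp N'.subtype)]
  (h : N' ≤ N)

/-- the transition map `G ⧸ N' →* G ⧸ N` for `N' ≤ N`. -/
abbrev qmap : G ⧸ N' →* G ⧸ N := QuotientGroup.map N' N (MonoidHom.id G) h

/-- identity of `M` as a morphism `res (qmap) (M.ofQuotient N) ⟶ M.ofQuotient N'`. -/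
noncomputable def transHom : res (qmap N N' h) (M.ofQuotient N) ⟶ M.ofQuotient N' :=
  Rep.ofHom ⟨LinearMap.id, fun q => by
    induction q using QuotientGroup.induction_on with | H g =>
    rfl⟩

/-- Inflation `Hⁿ(G ⧸ N, M) ⟶ Hⁿ(G ⧸ N', M)` for `N' ≤ N`. -/
noncomputable abbrev inflQQ (n : ℕ) :
    groupCohomology (M.ofQuotient N) n ⟶ groupCohomology (M.ofQuotient N') n :=
  groupCohomology.map (qmap N N' h) (transHom M N N' h) n

/-- transitivity of inflation. -/
theorem inflQQ_comp_inflQ (n : ℕ) : inflQQ M N N' h n ≫ inflQ M N' n = inflQ M N n := by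
  rw [← groupCohomology.map_comp]
  rfl

theorem inflQ_inflQQ_apply (n : ℕ) (y : groupCohomology (M.ofQuotient N) n) :
    (inflQ M N' n) ((inflQQ M N N' h n) y) = (inflQ M N n) y := by
  rw [← inflQQ_comp_inflQ M N N' h n]
  rfl

/-- (E2k) kernel of inflation in degree 2, at a finite level: the class of `c'` dies in
`H²(G ⧸ N', M)` iff the pull-back of `c'` to `G` is the coboundary of a right-`N'`-invariant
1-cochain. -/
theorem inflQQ_H2π_eq_zero_iff (c' : cocycles₂ (M.ofQuotient N)) :
    (inflQQ M N N' h 2) (H2π (M.ofQuotient N) c') = 0 ↔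
      ∃ x : G → M, (∀ g, ∀ s ∈ N', x (g * s) = x g) ∧
        ∀ g g' : G, (d₁₂ M).hom x (g, g') = c' ((g : G ⧸ N), (g' : G ⧸ N)) := by
  rw [H2π_comp_map_apply, H2π_eq_zero_iff]
  constructor
  · rintro ⟨x', hx'⟩
    refine ⟨fun g => x' (g : G ⧸ N'), fun g s hs => ?_, fun g g' => ?_⟩
    · show x' ((g * s : G) : G ⧸ N') = x' (g : G ⧸ N')
      congr 1
      rw [QuotientGroup.eq]
      simpa using hs
    · have := congr_fun hx' ((g : G ⧸ N'), (g' : G ⧸ N'))
      rw [d₁₂_hom_apply] at this ⊢
      exact this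
  · rintro ⟨x, hx, hd⟩
    refine ⟨descend₁ N' x hx, ?_⟩
    funext ⟨q, q'⟩
    induction q using QuotientGroup.induction_on with | H g =>
    induction q' using QuotientGroup.induction_on with | H g' =>
    have := hd g g'
    rw [d₁₂_hom_apply] at this ⊢
    exact this

end Transition

end Engine

end Fermat.Agent.CFT
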