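import Mathlib
import Fermat.Prelude.Def_GroupCohomology_ContinuousUnramified
import Fermat.Agent.CFT.Bridge.FiniteLevel

set_option autoImplicit false

/-!
# CFT stream [D], D1 BRIDGE-GLOBAL: `continuousH1S` / `continuousH2S` as unions of inflations

`G_ℚ = Gal(ℚbar/ℚ)`, `M : Rep k G_ℚ`, `S` a finite set of primes.

* `SLevel S M`: a *level* = finite `K/ℚ` inside `ℚbar`, unramified outside `S`, with
  `K.fixingSubgroup` normal and acting trivially on `M`;  `L.N := L.K.fixingSubgroup`,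
  finite-level module `M.ofQuotient L.N : Rep k (G_ℚ ⧸ L.N)` (Mathlib).
* `HasNormalEnlargement S` (B1): every `S`-unramified finite field lies in one with normal fixing
  subgroup (hypothesis here; = Galois closure, proved in `Bridge/SplitField`).
* degree 1: `infl1 L : H1 (M.ofQuotient L.N) →ₗ H1 M` (= Mathlib `groupCohomology.map` along the
  quotient map), `infl1_injective`, `infl1_mem_continuousH1S`, `exists_infl1_eq`.
* degree 2: `infl2 L : H2 (M.ofQuotient L.N) →ₗ continuousH2S S M`, characterised by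
  `infl2_H2π`; `exists_infl2_eq` (joint surjectivity), `infl2_inflQQ` (transitivity),
  `infl2_eq_zero_iff` (a class dies iff it dies at a finite level).
-/

namespace Fermat.Agent.CFT

open groupCohomology CategoryTheory Rep

local notation "Γℚ" => (AlgebraicClosure ℚ ≃ₐ[ℚ] AlgebraicClosure ℚ)

variable {k : Type} [CommRing k] (S : Finset Nat.Primes) (M : Rep k Γℚ)

/-- A finite Galois level for `(S, M)`: a finite extension `K/ℚ` inside `ℚbar`, unramified outside
`S`, whose fixing subgroup is normal and acts trivially on `M`. -/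
structure SLevel where
  /-- the field -/
  K : IntermediateField ℚ (AlgebraicClosure ℚ)
  unram : K.IsUnramifiedOutside S
  normal : K.fixingSubgroup.Normal
  triv : Representation.IsTrivial (M.ρ.comp K.fixingSubgroup.subtype)

attribute [instance] SLevel.normal SLevel.triv

/-- (B1) Every finite extension of `ℚ` unramified outside `S` is contained in one with normal
fixing subgroup (its Galois closure). Hypothesis of the bridge theorems; proved in `SplitField`. -/
def HasNormalEnlargement : Prop :=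
  ∀ F : IntermediateField ℚ (AlgebraicClosure ℚ), F.IsUnramifiedOutside S →
    ∃ F' : IntermediateField ℚ (AlgebraicClosure ℚ),
      F ≤ F' ∧ F'.IsUnramifiedOutside S ∧ F'.fixingSubgroup.Normal

variable {S M}

/-- The subgroup `Gal(ℚbar/K)` of a level. -/
noncomputable abbrev SLevel.N (L : SLevel S M) : Subgroup Γℚ := L.K.fixingSubgroup

/-- A bigger field with normal fixing subgroup is again a level. -/
noncomputable def SLevel.enlarge (L : SLevel S M) (F : IntermediateField ℚ (AlgebraicClosure ℚ))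
    (hF : F.IsUnramifiedOutside S) (hn : F.fixingSubgroup.Normal) (hle : L.K ≤ F) : SLevel S M where
  K := F
  unram := hF
  normal := hn
  triv := ⟨fun s => by
    have hs : (s : Γℚ) ∈ L.K.fixingSubgroup := IntermediateField.fixingSubgroup_antitone hle s.2
    exact Representation.isTrivial_def (M.ρ.comp L.K.fixingSubgroup.subtype) ⟨s.1, hs⟩⟩

/-- Given (B1), any `S`-unramified field `F` and any level `L₀` are contained in a common level. -/
theorem SLevel.exists_ge (hB1 : HasNormalEnlargement S) (L₀ : SLevel S M)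
    (F : IntermediateField ℚ (AlgebraicClosure ℚ)) (hF : F.IsUnramifiedOutside S) :
    ∃ L : SLevel S M, L₀.K ≤ L.K ∧ F ≤ L.K := by
  obtain ⟨F', hle, hF', hn⟩ := hB1 (L₀.K ⊔ F) (L₀.unram.sup hF)
  exact ⟨L₀.enlarge F' hF' hn (le_sup_left.trans hle), le_sup_left.trans hle,
    le_sup_right.trans hle⟩

/-- degree-1 inflation from a level, as a linear map into `H¹(G_ℚ, M)`. -/
noncomputable def infl1 (L : SLevel S M) : H1 (M.ofQuotient L.N) →ₗ[k] H1 M :=
  (inflQ M L.N 1).hom

theorem infl1_injective (L : SLevel S M) : Function.Injective (infl1 L) :=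
  inflQ_one_injective M L.N

theorem infl1_mem_continuousH1S (L : SLevel S M) (y : H1 (M.ofQuotient L.N)) :
    infl1 L y ∈ continuousH1S S M := by
  induction y using H1_induction_on with | h c' =>
  rw [mem_continuousH1S_iff]
  refine ⟨mapCocycles₁ (QuotientGroup.mk' L.N) (M.resOfQuotientIso L.N).hom c', ?_, ?_⟩
  · refine ⟨L.K, L.unram, fun g s hs => ?_⟩
    show c' ((g * s : Γℚ) : Γℚ ⧸ L.N) = c' ((g : Γℚ) : Γℚ ⧸ L.N)
    congr 1
    rw [QuotientGroup.eq]
    simpa using hs
  · exact (H1π_comp_map_apply (QuotientGroup.mk' L.N) (M.resOfQuotientIso L.N).hom c').symm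

/-- (G3) every class of `continuousH1S S M` is inflated from a level above any given level. -/
theorem exists_infl1_eq (hB1 : HasNormalEnlargement S) (L₀ : SLevel S M) (x : H1 M)
    (hx : x ∈ continuousH1S S M) :
    ∃ L : SLevel S M, L₀.K ≤ L.K ∧ ∃ y : H1 (M.ofQuotient L.N), infl1 L y = x := by
  obtain ⟨c, ⟨F, hF, hc⟩, rfl⟩ := (mem_continuousH1S_iff S M x).1 hx
  obtain ⟨L, hL₀, hFL⟩ := SLevel.exists_ge hB1 L₀ F hF
  refine ⟨L, hL₀, ?_⟩
  exact exists_inflQ_one_eq M L.N c
    (fun g s hs => hc g s (IntermediateField.fixingSubgroup_antitone hFL hs))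

/-- pull-back of functions on `(G ⧸ N)²` to `G²`. -/
noncomputable def pullFun₂ (L : SLevel S M) : ((Γℚ ⧸ L.N) × (Γℚ ⧸ L.N) → M) →ₗ[k] (Γℚ × Γℚ → M) :=
  LinearMap.funLeft k M (Prod.map (QuotientGroup.mk : Γℚ → Γℚ ⧸ L.N) QuotientGroup.mk)

lemma pullFun₂_apply (L : SLevel S M) (f : (Γℚ ⧸ L.N) × (Γℚ ⧸ L.N) → M) (g g' : Γℚ) :
    pullFun₂ L f (g, g') = f ((g : Γℚ ⧸ L.N), (g' : Γℚ ⧸ L.N)) := rfl

lemma pullFun₂_isLevelConstantS₂ (L : SLevel S M) (f : (Γℚ ⧸ L.N) × (Γℚ ⧸ L.N) → M) :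
    IsLevelConstantS₂ S (pullFun₂ L f) := by
  refine ⟨L.K, L.unram, fun g g' s s' hs hs' => ?_⟩
  rw [pullFun₂_apply, pullFun₂_apply]
  have h1 : ((g * s : Γℚ) : Γℚ ⧸ L.N) = (g : Γℚ ⧸ L.N) := by
    rw [QuotientGroup.eq]; simpa using hs
  have h2 : ((g' * s' : Γℚ) : Γℚ ⧸ L.N) = (g' : Γℚ ⧸ L.N) := by
    rw [QuotientGroup.eq]; simpa using hs'
  rw [h1, h2]

lemma pullFun₂_mem_cocycles₂ (L : SLevel S M) (c' : cocycles₂ (M.ofQuotient L.N)) :
    pullFun₂ L c' ∈ cocycles₂ M := by
  rw [mem_cocycles₂_iff]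
  intro g h j
  exact (mem_cocycles₂_iff (A := M.ofQuotient L.N) c').1 c'.2 (g : Γℚ ⧸ L.N) h j

/-- pull back a 2-cocycle of the finite quotient to a level-constant 2-cocycle of `G_ℚ`. -/
noncomputable def pullCocycles₂ (L : SLevel S M) :
    cocycles₂ (M.ofQuotient L.N) →ₗ[k] levelCocyclesS₂ S M :=
  LinearMap.codRestrict (levelCocyclesS₂ S M)
    (pullFun₂ L ∘ₗ (cocycles₂ (M.ofQuotient L.N)).subtype)
    (fun c' => ⟨pullFun₂_mem_cocycles₂ L c', pullFun₂_isLevelConstantS₂ L c'⟩)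

lemma pullCocycles₂_apply (L : SLevel S M) (c' : cocycles₂ (M.ofQuotient L.N)) (g g' : Γℚ) :
    (pullCocycles₂ L c' : Γℚ × Γℚ → M) (g, g') = c' ((g : Γℚ ⧸ L.N), (g' : Γℚ ⧸ L.N)) := rfl

lemma H2π_surjective' {G : Type} [Group G] (A : Rep k G) : Function.Surjective (H2π A).hom :=
  (ModuleCat.epi_iff_surjective (H2π A)).1 inferInstance

lemma pullCocycles₂_ker (L : SLevel S M) :
    LinearMap.ker (H2π (M.ofQuotient L.N)).hom ≤
      LinearMap.ker (continuousH2Sπ S M ∘ₗ pullCocycles₂ L) := by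
  intro c' hc'
  rw [LinearMap.mem_ker] at hc' ⊢
  obtain ⟨x, hx⟩ := (H2π_eq_zero_iff c').1 hc'
  rw [LinearMap.comp_apply, continuousH2Sπ_eq_zero_iff, mem_levelCoboundariesS₂_iff]
  refine ⟨fun g => x (g : Γℚ ⧸ L.N), ?_, ?_⟩
  · refine ⟨L.K, L.unram, fun g s hs => ?_⟩
    show x ((g * s : Γℚ) : Γℚ ⧸ L.N) = x (g : Γℚ ⧸ L.N)
    congr 1
    rw [QuotientGroup.eq]; simpa using hs
  · funext ⟨g, g'⟩
    rw [d₁₂_hom_apply]
    have := congr_fun hx ((g : Γℚ ⧸ L.N), (g' : Γℚ ⧸ L.N))
    rw [d₁₂_hom_apply] at this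
    exact this

/-- degree-2 inflation from a level into `continuousH2S`. -/
noncomputable def infl2 (L : SLevel S M) : H2 (M.ofQuotient L.N) →ₗ[k] continuousH2S S M :=
  (LinearMap.ker (H2π (M.ofQuotient L.N)).hom).liftQ
      (continuousH2Sπ S M ∘ₗ pullCocycles₂ L) (pullCocycles₂_ker L) ∘ₗ
    ((H2π (M.ofQuotient L.N)).hom.quotKerEquivOfSurjective (H2π_surjective' _)).symm.toLinearMap

theorem infl2_H2π (L : SLevel S M) (c' : cocycles₂ (M.ofQuotient L.N)) :
    infl2 L (H2π (M.ofQuotient L.N) c') = continuousH2Sπ S M (pullCocycles₂ L c') := by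
  unfold infl2
  rw [LinearMap.comp_apply, LinearEquiv.coe_coe]
  erw [LinearMap.quotKerEquivOfSurjective_symm_apply]
  rfl

/-- (G5) every class of `continuousH2S S M` is inflated from a level above any given level. -/
theorem exists_infl2_eq (hB1 : HasNormalEnlargement S) (L₀ : SLevel S M)
    (x : continuousH2S S M) :
    ∃ L : SLevel S M, L₀.K ≤ L.K ∧ ∃ y : H2 (M.ofQuotient L.N), infl2 L y = x := by
  obtain ⟨f, rfl⟩ := Submodule.mkQ_surjective _ x
  obtain ⟨hf1, F, hF, hf2⟩ := f.2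
  obtain ⟨L, hL₀, hFL⟩ := SLevel.exists_ge hB1 L₀ F hF
  refine ⟨L, hL₀, ?_⟩
  obtain ⟨c', hc'⟩ := exists_cocycles₂_ofQuotient M L.N ⟨f.1, hf1⟩
    (fun g g' s hs s' hs' => hf2 g g' s s' (IntermediateField.fixingSubgroup_antitone hFL hs)
      (IntermediateField.fixingSubgroup_antitone hFL hs'))
  refine ⟨H2π _ c', ?_⟩
  rw [infl2_H2π]
  congr 1
  apply Subtype.ext
  funext ⟨g, g'⟩
  exact hc' g g'

/-- (G7) transitivity of inflation in degree 2. -/
theorem infl2_inflQQ (L L' : SLevel S M) (h : L.K ≤ L'.K) (y : H2 (M.ofQuotient L.N)) :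
    infl2 L' ((inflQQ M L.N L'.N (IntermediateField.fixingSubgroup_antitone h) 2) y) =
      infl2 L y := by
  induction y using H2_induction_on with | h c' =>
  rw [H2π_comp_map_apply, infl2_H2π, infl2_H2π]
  rfl

/-- (G6) kernel of inflation in degree 2. -/
theorem infl2_eq_zero_iff (hB1 : HasNormalEnlargement S) (L : SLevel S M)
    (y : H2 (M.ofQuotient L.N)) :
    infl2 L y = 0 ↔ ∃ (L' : SLevel S M) (h : L.K ≤ L'.K),
      (inflQQ M L.N L'.N (IntermediateField.fixingSubgroup_antitone h) 2) y = 0 := by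
  constructor
  · intro hy
    induction y using H2_induction_on with | h c' =>
    rw [infl2_H2π, continuousH2Sπ_eq_zero_iff, mem_levelCoboundariesS₂_iff] at hy
    obtain ⟨x, ⟨F, hF, hx⟩, hd⟩ := hy
    obtain ⟨L', hLL', hFL'⟩ := SLevel.exists_ge hB1 L F hF
    refine ⟨L', hLL', ?_⟩
    rw [inflQQ_H2π_eq_zero_iff]
    refine ⟨x, fun g s hs => hx g s (IntermediateField.fixingSubgroup_antitone hFL' hs),
      fun g g' => ?_⟩
    exact congr_fun hd (g, g')
  · rintro ⟨L', h, hy⟩
    rw [← infl2_inflQQ L L' h y, hy, map_zero]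

end Fermat.Agent.CFT
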