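import Mathlib
import Fermat.Agent.CFT.Bridge.GlobalLevel
import Fermat.Agent.CFT.Bridge.SplitField

set_option autoImplicit false

/-!
# CFT S55 bridge: the hypotheses of `Bridge/GlobalLevel` hold

* `hasNormalEnlargement S : HasNormalEnlargement S` (Galois closure, from `Bridge/SplitField`);
* `nonempty_sLevel`: under the hypotheses of `S55` (smooth, unramified outside `S`, finite
  dimensional) there is a level for `(S, M)`.
-/

namespace Fermat.Agent.CFT

open groupCohomology

local notation "Γℚ" => (AlgebraicClosure ℚ ≃ₐ[ℚ] AlgebraicClosure ℚ)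

/-- (B1) Galois closures provide normal enlargements. -/
theorem hasNormalEnlargement (S : Finset Nat.Primes) : HasNormalEnlargement S :=
  fun F hF => ⟨galClosure F, le_galClosure F, IsUnramifiedOutside.galClosure hF,
    galClosure_fixingSubgroup_normal F⟩

/-- (B0) A level exists for a finite-dimensional smooth representation unramified outside `S`. -/
theorem nonempty_sLevel {k : Type} [Field k] (S : Finset Nat.Primes) (M : Rep k Γℚ)
    [FiniteDimensional k M]
    (hsm : ∀ m : M, ∃ F : IntermediateField ℚ (AlgebraicClosure ℚ), FiniteDimensional ℚ F ∧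
      ∀ s ∈ F.fixingSubgroup, M.ρ s m = m)
    (hMur : ∀ q : Nat.Primes, q ∉ S → ∀ A : ValuationSubring (AlgebraicClosure ℚ),
      A.LiesOverPrime (q : ℕ) → ∀ g ∈ A.inertiaSubgroupIn ℚ, M.ρ g = 1) :
    Nonempty (SLevel S M) := by
  obtain ⟨F₀, hun, hn, hker⟩ := exists_level_of_unramified (S := S) M hsm hMur
  refine ⟨⟨F₀, hun, hn, ⟨fun s => ?_⟩⟩⟩
  have hs : (s : Γℚ) ∈ M.ρ.ker := hker ▸ s.2
  exact MonoidHom.mem_ker.mp hs

end Fermat.Agent.CFT
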