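import Mathlib
import Fermat.Prelude.Def_GroupCohomology_ContinuousUnramified
import Fermat.Agent.CFT.Bridge.FiniteLevel
import Fermat.Agent.CFT.Bridge.SplitField

set_option autoImplicit false

/-!
# CFT S55 bridge, D2(c): the prelude's local `continuousH2 r M` as a union of inflations

`r : G →* G_ℚ` any group homomorphism (in the application the local Galois group
`Gal(ℚbar_q/ℚ_q) → G_ℚ`), `M : Rep k G`.

* `RLevel r M`: a *level* = finite `K/ℚ` inside `ℚbar` such that `r⁻¹(Gal(ℚbar/K))` is normal in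
  `G` and acts trivially on `M`;  `L.N := r⁻¹(Gal(ℚbar/K))`.
* `RLevel.exists_ge`: levels are directed and cofinal among all finite `F/ℚ` (Galois closure), as
  soon as one level whose field has normal fixing subgroup in `G_ℚ` exists.
* `inflR2 L : H2 (M.ofQuotient L.N) →ₗ continuousH2 r M` with `inflR2_H2π`, `exists_inflR2_eq`
  (joint surjectivity), `inflR2_inflQQ` (transitivity), `inflR2_eq_zero_iff` (kernel).
-/

namespace Fermat.Agent.CFT

open groupCohomology CategoryTheory Rep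

local notation "Γℚ" => (AlgebraicClosure ℚ ≃ₐ[ℚ] AlgebraicClosure ℚ)

local instance isAlgebraicQbar_lf : Algebra.IsAlgebraic ℚ (AlgebraicClosure ℚ) :=
  AlgebraicClosure.isAlgebraic ℚ
local instance isAlgClosureQbar_lf : IsAlgClosure ℚ (AlgebraicClosure ℚ) :=
  ⟨inferInstance, inferInstance⟩
local instance normalQbar_lf : Normal ℚ (AlgebraicClosure ℚ) :=
  IsAlgClosure.normal ℚ (AlgebraicClosure ℚ)

/-- The Galois closure of a finite extension is finite. -/
theorem galClosure_finiteDimensional (F : IntermediateField ℚ (AlgebraicClosure ℚ))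
    [FiniteDimensional ℚ F] : FiniteDimensional ℚ (galClosure F) := by
  rw [galClosure_eq_normalClosure]
  infer_instance

variable {k G : Type} [CommRing k] [Group G] (r : G →* Γℚ) (M : Rep k G)

/-- A finite level for `(r, M)`: a finite extension `K/ℚ` inside `ℚbar` such that `r⁻¹(G_K)` is a
normal subgroup of `G` acting trivially on `M`. -/
structure RLevel where
  /-- the field -/
  K : IntermediateField ℚ (AlgebraicClosure ℚ)
  fin : FiniteDimensional ℚ K
  normal : (K.fixingSubgroup.comap r).Normal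
  triv : Representation.IsTrivial (M.ρ.comp (K.fixingSubgroup.comap r).subtype)

attribute [instance] RLevel.fin RLevel.normal RLevel.triv

variable {r M}

/-- The subgroup `r⁻¹(Gal(ℚbar/K))` of a level. -/
noncomputable abbrev RLevel.N (L : RLevel r M) : Subgroup G := L.K.fixingSubgroup.comap r

/-- A bigger finite field with normal fixing subgroup is again a level. -/
noncomputable def RLevel.enlarge (L : RLevel r M) (F : IntermediateField ℚ (AlgebraicClosure ℚ))
    (hF : FiniteDimensional ℚ F) (hn : F.fixingSubgroup.Normal) (hle : L.K ≤ F) : RLevel r M where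
  K := F
  fin := hF
  normal := hn.comap r
  triv := ⟨fun s => by
    have hs : (s : G) ∈ L.N := IntermediateField.fixingSubgroup_antitone hle s.2
    exact Representation.isTrivial_def (M.ρ.comp L.N.subtype) ⟨s.1, hs⟩⟩

/-- Any finite `F/ℚ` and any level `L₀` are contained in a common level. -/
theorem RLevel.exists_ge (L₀ : RLevel r M) (F : IntermediateField ℚ (AlgebraicClosure ℚ))
    (hF : FiniteDimensional ℚ F) :
    ∃ L : RLevel r M, L₀.K ≤ L.K ∧ F ≤ L.K := by
  have := hF
  have : FiniteDimensional ℚ ↥(L₀.K ⊔ F) := IntermediateField.finiteDimensional_sup L₀.K F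
  refine ⟨L₀.enlarge (galClosure (L₀.K ⊔ F)) (galClosure_finiteDimensional _)
    (galClosure_fixingSubgroup_normal _) (le_sup_left.trans (le_galClosure _)),
    le_sup_left.trans (le_galClosure _), le_sup_right.trans (le_galClosure _)⟩

lemma RLevel.mk_mul_eq (L : RLevel r M) (g s : G) (hs : r s ∈ L.K.fixingSubgroup) :
    ((g * s : G) : G ⧸ L.N) = (g : G ⧸ L.N) := by
  rw [QuotientGroup.eq]
  simpa using hs

/-- pull-back of functions on `(G ⧸ N)²` to `G²`. -/
noncomputable def pullFunR₂ (L : RLevel r M) : ((G ⧸ L.N) × (G ⧸ L.N) → M) →ₗ[k] (G × G → M) :=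
  LinearMap.funLeft k M (Prod.map (QuotientGroup.mk : G → G ⧸ L.N) QuotientGroup.mk)

lemma pullFunR₂_apply (L : RLevel r M) (f : (G ⧸ L.N) × (G ⧸ L.N) → M) (g g' : G) :
    pullFunR₂ L f (g, g') = f ((g : G ⧸ L.N), (g' : G ⧸ L.N)) := rfl

lemma pullFunR₂_isLevelConstant₂ (L : RLevel r M) (f : (G ⧸ L.N) × (G ⧸ L.N) → M) :
    IsLevelConstant₂ r (pullFunR₂ L f) := by
  refine ⟨L.K, L.fin, fun g g' s s' hs hs' => ?_⟩
  rw [pullFunR₂_apply, pullFunR₂_apply, L.mk_mul_eq g s hs, L.mk_mul_eq g' s' hs']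

lemma pullFunR₂_mem_cocycles₂ (L : RLevel r M) (c' : cocycles₂ (M.ofQuotient L.N)) :
    pullFunR₂ L c' ∈ cocycles₂ M := by
  rw [mem_cocycles₂_iff]
  intro g h j
  exact (mem_cocycles₂_iff (A := M.ofQuotient L.N) c').1 c'.2 (g : G ⧸ L.N) h j

/-- pull back a 2-cocycle of the finite quotient to a level-constant 2-cocycle of `G`. -/
noncomputable def pullCocyclesR₂ (L : RLevel r M) :
    cocycles₂ (M.ofQuotient L.N) →ₗ[k] levelCocycles₂ r M :=
  LinearMap.codRestrict (levelCocycles₂ r M)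
    (pullFunR₂ L ∘ₗ (cocycles₂ (M.ofQuotient L.N)).subtype)
    (fun c' => ⟨pullFunR₂_mem_cocycles₂ L c', pullFunR₂_isLevelConstant₂ L c'⟩)

lemma pullCocyclesR₂_apply (L : RLevel r M) (c' : cocycles₂ (M.ofQuotient L.N)) (g g' : G) :
    (pullCocyclesR₂ L c' : G × G → M) (g, g') = c' ((g : G ⧸ L.N), (g' : G ⧸ L.N)) := rfl

lemma pullCocyclesR₂_ker (L : RLevel r M) :
    LinearMap.ker (H2π (M.ofQuotient L.N)).hom ≤
      LinearMap.ker (continuousH2π r M ∘ₗ pullCocyclesR₂ L) := by
  intro c' hc'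
  rw [LinearMap.mem_ker] at hc' ⊢
  obtain ⟨x, hx⟩ := (H2π_eq_zero_iff c').1 hc'
  rw [LinearMap.comp_apply, continuousH2π_eq_zero_iff, mem_levelCoboundaries₂_iff]
  refine ⟨fun g => x (g : G ⧸ L.N), ?_, ?_⟩
  · refine ⟨L.K, L.fin, fun g s hs => ?_⟩
    show x ((g * s : G) : G ⧸ L.N) = x (g : G ⧸ L.N)
    rw [L.mk_mul_eq g s hs]
  · funext ⟨g, g'⟩
    rw [d₁₂_hom_apply]
    have := congr_fun hx ((g : G ⧸ L.N), (g' : G ⧸ L.N))
    rw [d₁₂_hom_apply] at this
    exact this

lemma H2π_surjectiveR {G' : Type} [Group G'] (A : Rep k G') : Function.Surjective (H2π A).hom :=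
  (ModuleCat.epi_iff_surjective (H2π A)).1 inferInstance

/-- degree-2 inflation from a level into the prelude's `continuousH2 r M`. -/
noncomputable def inflR2 (L : RLevel r M) : H2 (M.ofQuotient L.N) →ₗ[k] continuousH2 r M :=
  (LinearMap.ker (H2π (M.ofQuotient L.N)).hom).liftQ
      (continuousH2π r M ∘ₗ pullCocyclesR₂ L) (pullCocyclesR₂_ker L) ∘ₗ
    ((H2π (M.ofQuotient L.N)).hom.quotKerEquivOfSurjective (H2π_surjectiveR _)).symm.toLinearMap

theorem inflR2_H2π (L : RLevel r M) (c' : cocycles₂ (M.ofQuotient L.N)) :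
    inflR2 L (H2π (M.ofQuotient L.N) c') = continuousH2π r M (pullCocyclesR₂ L c') := by
  unfold inflR2
  rw [LinearMap.comp_apply, LinearEquiv.coe_coe]
  erw [LinearMap.quotKerEquivOfSurjective_symm_apply]
  rfl

/-- every class of `continuousH2 r M` is inflated from a level above any given level. -/
theorem exists_inflR2_eq (L₀ : RLevel r M) (x : continuousH2 r M) :
    ∃ L : RLevel r M, L₀.K ≤ L.K ∧ ∃ y : H2 (M.ofQuotient L.N), inflR2 L y = x := by
  obtain ⟨f, rfl⟩ := Submodule.mkQ_surjective _ x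
  obtain ⟨hf1, F, hF, hf2⟩ := f.2
  obtain ⟨L, hL₀, hFL⟩ := RLevel.exists_ge L₀ F hF
  refine ⟨L, hL₀, ?_⟩
  obtain ⟨c', hc'⟩ := exists_cocycles₂_ofQuotient M L.N ⟨f.1, hf1⟩
    (fun g g' s hs s' hs' => hf2 g g' s s' (IntermediateField.fixingSubgroup_antitone hFL hs)
      (IntermediateField.fixingSubgroup_antitone hFL hs'))
  refine ⟨H2π _ c', ?_⟩
  rw [inflR2_H2π]
  congr 1
  apply Subtype.ext
  funext ⟨g, g'⟩
  exact hc' g g'

lemma RLevel.N_le (L L' : RLevel r M) (h : L.K ≤ L'.K) : L'.N ≤ L.N :=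
  Subgroup.comap_mono (IntermediateField.fixingSubgroup_antitone h)

/-- transitivity of inflation in degree 2. -/
theorem inflR2_inflQQ (L L' : RLevel r M) (h : L.K ≤ L'.K) (y : H2 (M.ofQuotient L.N)) :
    inflR2 L' ((inflQQ M L.N L'.N (L.N_le L' h) 2) y) = inflR2 L y := by
  induction y using H2_induction_on with | h c' =>
  rw [H2π_comp_map_apply, inflR2_H2π, inflR2_H2π]
  rfl

/-- kernel of inflation in degree 2. -/
theorem inflR2_eq_zero_iff (L : RLevel r M) (y : H2 (M.ofQuotient L.N)) :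
    inflR2 L y = 0 ↔ ∃ (L' : RLevel r M) (h : L.K ≤ L'.K),
      (inflQQ M L.N L'.N (L.N_le L' h) 2) y = 0 := by
  constructor
  · intro hy
    induction y using H2_induction_on with | h c' =>
    rw [inflR2_H2π, continuousH2π_eq_zero_iff, mem_levelCoboundaries₂_iff] at hy
    obtain ⟨x, ⟨F, hF, hx⟩, hd⟩ := hy
    obtain ⟨L', hLL', hFL'⟩ := RLevel.exists_ge L F hF
    refine ⟨L', hLL', ?_⟩
    rw [inflQQ_H2π_eq_zero_iff]
    refine ⟨x, fun g s hs => hx g s (IntermediateField.fixingSubgroup_antitone hFL' hs),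
      fun g g' => ?_⟩
    exact congr_fun hd (g, g')
  · rintro ⟨L', h, hy⟩
    rw [← inflR2_inflQQ L L' h y, hy, map_zero]

end Fermat.Agent.CFT
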