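import Mathlib
import Fermat.Agent.CFT.Bridge.LocalLevel
import Fermat.Agent.CFT.PT.SUnitsRep
import Fermat.Agent.CFT.Local.PowIndexCard
import Fermat.Agent.CFT.Local.RamIndex

/-!
# S55 GLOBAL bridge, leaf (J5): `p^∞` divides the local degrees of `ℚ_S` at every prime `q`

For primes `q`, `p` (equal or not), `S ∋ p` and every `j` there is a finite Galois extension
`K / ℚ` inside `AlgebraicClosure ℚ`, unramified outside `S` (namely `K = ℚ(ζ_{p^m})`, `m` large),
such that `p ^ j` divides the local degree `[ℚ_q · ι(K) : ℚ_q]` (`cycLD_exists`).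

Local input: for a finite extension `L / ℚ_q` containing a primitive `p^m`-th root of unity,
`φ(p^m) ≤ [L : ℚ_q]` if `q = p` (`cycLD_totient_le`, total ramification) and
`p^m ≤ q ^ [L : ℚ_q]` if `q ≠ p` (`cycLD_pow_le`, residue field).
-/

set_option autoImplicit false
set_option linter.style.haveILetI false
set_option linter.unusedSectionVars false

namespace Fermat.Agent.CFT

open IsLocalRing Polynomial IntermediateField Fermat.Agent.PT ExtCitation

local notation "Qb" => AlgebraicClosure ℚ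

local instance cycLD_isAlgebraicQbar : Algebra.IsAlgebraic ℚ (AlgebraicClosure ℚ) :=
  AlgebraicClosure.isAlgebraic ℚ

section Arith

theorem cycLD_pow_dvd_of_le {p n k j : ℕ} (hp : p.Prime) (hdvd : n ∣ p ^ k * (p - 1))
    (hle : p ^ j ≤ n) : p ^ j ∣ n := by
  have hn0 : n ≠ 0 := by
    rintro rfl
    have := pow_pos hp.pos j
    omega
  obtain ⟨a, n', hn', rfl⟩ := Nat.exists_eq_pow_mul_and_not_dvd hn0 p hp.ne_one
  have hcop : Nat.Coprime n' (p ^ k) :=
    Nat.Coprime.pow_right k ((Nat.Prime.coprime_iff_not_dvd hp).2 hn').symm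
  have h1 : n' ∣ p ^ k * (p - 1) := (Dvd.intro_left _ rfl).trans hdvd
  have h2 : n' ∣ p - 1 := hcop.dvd_of_dvd_mul_left h1
  have hp1 : 0 < p - 1 := by have := hp.two_le; omega
  have h3 : n' ≤ p - 1 := Nat.le_of_dvd hp1 h2
  have h4 : p ^ a * n' < p ^ (a + 1) := by
    rw [pow_succ]
    apply Nat.mul_lt_mul_of_pos_left _ (pow_pos hp.pos a)
    omega
  have h5 : p ^ j < p ^ (a + 1) := lt_of_le_of_lt hle h4
  have h6 : j < a + 1 := (Nat.pow_lt_pow_iff_right hp.one_lt).1 h5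
  exact Dvd.dvd.mul_right (pow_dvd_pow p (by omega)) n'


end Arith

section Local

variable (q : ℕ) [Fact q.Prime]
  (L : Type) [Field L] [Algebra ℚ_[q] L] [FiniteDimensional ℚ_[q] L]

attribute [local instance] powCardAlgebra powCard_isScalarTower

/-- the data `e f = n`, `|k_B| = q^f` for the ring of integers `B` of `L / ℚ_q` -/
theorem cycLD_ef :
    ∃ (_ : IsDomain (integralClosure ℤ_[q] L)) (_ : IsLocalRing (integralClosure ℤ_[q] L))
      (_ : IsDiscreteValuationRing (integralClosure ℤ_[q] L)) (e f : ℕ),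
      e * f = Module.finrank ℚ_[q] L ∧
      Ideal.span {((q : ℕ) : integralClosure ℤ_[q] L)} =
        maximalIdeal (integralClosure ℤ_[q] L) ^ e ∧
      Nat.card (ResidueField (integralClosure ℤ_[q] L)) = q ^ f := by
  have : Algebra.IsSeparable ℚ_[q] L := inferInstance
  letI hdom : IsDomain (integralClosure ℤ_[q] L) :=
    intClosure_isDomain ℤ_[q] ℚ_[q] L (integralClosure ℤ_[q] L)
  letI hloc : IsLocalRing (integralClosure ℤ_[q] L) :=
    intClosure_isLocalRing ℤ_[q] ℚ_[q] L (integralClosure ℤ_[q] L)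
  haveI hdvr : IsDiscreteValuationRing (integralClosure ℤ_[q] L) :=
    intClosure_isDiscreteValuationRing ℤ_[q] ℚ_[q] L (integralClosure ℤ_[q] L)
  haveI := ramIdx_isLocalHom ℤ_[q] ℚ_[q] L (integralClosure ℤ_[q] L)
  refine ⟨hdom, hloc, hdvr, ramIdx ℤ_[q] (integralClosure ℤ_[q] L),
    Module.finrank (ResidueField ℤ_[q]) (ResidueField (integralClosure ℤ_[q] L)),
    ramIdx_mul_finrank_residue ℤ_[q] ℚ_[q] L (integralClosure ℤ_[q] L), ?_, ?_⟩
  · have h := map_maximalIdeal_eq_pow_ramIdx (A := ℤ_[q]) (B := integralClosure ℤ_[q] L)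
      (ramIdx_algebraMap_injective ℤ_[q] ℚ_[q] L (integralClosure ℤ_[q] L))
    rw [← h, PadicInt.maximalIdeal_eq_span_p, Ideal.map_span, Set.image_singleton, map_natCast]
  · rw [natCard_residueField_eq_pow ℤ_[q] ℚ_[q] L (integralClosure ℤ_[q] L)]
    congr 1
    have e : ResidueField ℤ_[q] ≃ ZMod q := (PadicInt.residueField (p := q)).toEquiv
    rw [Nat.card_congr e, Nat.card_zmod]

/-- a root of unity of `L` as an element of the ring of integers -/
theorem cycLD_exists_int {n : ℕ} (hn : 0 < n) {ζ : L} (hζ : IsPrimitiveRoot ζ n) :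
    ∃ z : integralClosure ℤ_[q] L, (z : L) = ζ ∧ IsPrimitiveRoot z n := by
  have hint : IsIntegral ℤ_[q] ζ := by
    apply IsIntegral.of_pow hn
    rw [hζ.pow_eq_one]
    exact isIntegral_one
  refine ⟨⟨ζ, hint⟩, rfl, ?_⟩
  exact IsPrimitiveRoot.of_map_of_injective (f := (integralClosure ℤ_[q] L).val) hζ
    Subtype.val_injective

/-- **totally ramified case** `q = p`: `φ(p^m) ≤ [L : ℚ_p]` if `L` contains a primitive
`p^m`-th root of unity. -/
theorem cycLD_totient_le (m : ℕ) {ζ : L} (hζ : IsPrimitiveRoot ζ (q ^ (m + 1))) :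
    Nat.totient (q ^ (m + 1)) ≤ Module.finrank ℚ_[q] L := by
  have hq : q.Prime := Fact.out
  obtain ⟨hdom, hloc, hdvr, e, f, hef, hspan, -⟩ := cycLD_ef q L
  obtain ⟨z, -, hz⟩ := cycLD_exists_int q L (pow_pos hq.pos (m + 1)) hζ
  set B := integralClosure ℤ_[q] L
  have hn0 : 0 < Module.finrank ℚ_[q] L := Module.finrank_pos
  have he0 : e ≠ 0 := by
    rintro rfl
    rw [zero_mul] at hef
    omega
  -- `q ∈ 𝔪_B`
  have hqm : ((q : ℕ) : B) ∈ maximalIdeal B := by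
    have h1 : ((q : ℕ) : B) ∈ Ideal.span {((q : ℕ) : B)} := Ideal.subset_span rfl
    rw [hspan] at h1
    exact Ideal.pow_le_self he0 h1
  -- the residue field has characteristic `q`
  have hchar : CharP (ResidueField B) q := by
    rw [CharP.charP_iff_prime_eq_zero hq]
    have := (IsLocalRing.residue_eq_zero_iff _).2 hqm
    rwa [map_natCast] at this
  -- every `1 - μ` is in the maximal ideal
  have hmem : ∀ μ ∈ primitiveRoots (q ^ (m + 1)) B, (1 - μ) ∈ maximalIdeal B := by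
    intro μ hμ
    have hμ1 : μ ^ (q ^ (m + 1)) = 1 :=
      ((mem_primitiveRoots (pow_pos hq.pos (m + 1))).1 hμ).pow_eq_one
    rw [← IsLocalRing.residue_eq_zero_iff]
    have h2 : (IsLocalRing.residue B (1 - μ)) ^ (q ^ (m + 1)) = 0 := by
      rw [map_sub, map_one, sub_pow_char_pow, one_pow, ← map_pow, hμ1, map_one, sub_self]
    exact pow_eq_zero_iff (pow_pos hq.pos (m + 1)).ne' |>.1 h2
  -- `q = ∏ (1 - μ)`
  have hprod : ((q : ℕ) : B) = ∏ μ ∈ primitiveRoots (q ^ (m + 1)) B, (1 - μ) := by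
    have h1 := eval_one_cyclotomic_prime_pow (R := B) (p := q) m
    rw [cyclotomic_eq_prod_X_sub_primitiveRoots hz, eval_prod] at h1
    rw [← h1]
    apply Finset.prod_congr rfl
    intro μ _
    simp
  have hq_mem : ((q : ℕ) : B) ∈ maximalIdeal B ^ Nat.totient (q ^ (m + 1)) := by
    rw [hprod, ← hz.card_primitiveRoots, ← Finset.prod_const]
    exact Ideal.prod_mem_prod hmem
  have hle : maximalIdeal B ^ e ≤ maximalIdeal B ^ Nat.totient (q ^ (m + 1)) := by
    rw [← hspan, Ideal.span_singleton_le_iff_mem]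
    exact hq_mem
  have h0 : maximalIdeal B ≠ ⊥ := IsDiscreteValuationRing.not_a_field B
  have h1 : maximalIdeal B ≠ ⊤ := Ideal.IsPrime.ne_top'
  have hle' : Nat.totient (q ^ (m + 1)) ≤ e :=
    (Ideal.pow_right_strictAnti _ h0 h1).le_iff_ge.1 hle
  have hf0 : 0 < f := by
    rcases Nat.eq_zero_or_pos f with h | h
    · rw [h, mul_zero] at hef; omega
    · exact h
  calc Nat.totient (q ^ (m + 1)) ≤ e := hle'
    _ ≤ e * f := Nat.le_mul_of_pos_right e hf0
    _ = _ := hef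

/-- **unramified case** `q ≠ p`: `p^m ≤ q ^ [L : ℚ_q]` if `L` contains a primitive
`p^m`-th root of unity. -/
theorem cycLD_pow_le {p : ℕ} (hp : p.Prime) (hpq : p ≠ q) (m : ℕ) {ζ : L}
    (hζ : IsPrimitiveRoot ζ (p ^ m)) : p ^ m ≤ q ^ Module.finrank ℚ_[q] L := by
  have hq : q.Prime := Fact.out
  obtain ⟨hdom, hloc, hdvr, e, f, hef, -, hcard⟩ := cycLD_ef q L
  have hN : 0 < p ^ m := pow_pos hp.pos m
  set B := integralClosure ℤ_[q] L
  obtain ⟨z, -, hz⟩ : ∃ z : B, (z : L) = ζ ∧ IsPrimitiveRoot z (p ^ m) :=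
    cycLD_exists_int q L hN hζ
  have hn0 : 0 < Module.finrank ℚ_[q] L := Module.finrank_pos
  -- `p^m` is a unit of `B`
  have hu : IsUnit ((p : ℕ) : ℤ_[q]) := by
    rw [PadicInt.isUnit_iff, PadicInt.norm_natCast_eq_one_iff]
    exact (Nat.coprime_primes hq hp).2 (Ne.symm hpq)
  have hu' : IsUnit (((p ^ m : ℕ) : B)) := by
    have := (hu.pow m).map (algebraMap ℤ_[q] B)
    rwa [map_pow, map_natCast, ← Nat.cast_pow] at this
  -- the residue of `z` is a primitive `p^m`-th root of unity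
  obtain ⟨n, hn⟩ : ∃ n, p ^ m = n + 1 := ⟨p ^ m - 1, by omega⟩
  have hprim : IsPrimitiveRoot (IsLocalRing.residue B z) (p ^ m) := by
    apply IsPrimitiveRoot.mk_of_lt _ hN
    · rw [← map_pow, hz.pow_eq_one, map_one]
    · intro l hl0 hlN hl
      have h1 : (1 - z ^ l) ∈ maximalIdeal B := by
        rw [← IsLocalRing.residue_eq_zero_iff, map_sub, map_one, map_pow, hl, sub_self]
      have h2 : (1 - z ^ l) ∣ ((p ^ m : ℕ) : B) := by
        have hz' : IsPrimitiveRoot z (n + 1) := hn ▸ hz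
        have h3 := hz'.prod_one_sub_pow_eq_order
        have h4 : ((p ^ m : ℕ) : B) = (n : B) + 1 := by
          rw [hn]; push_cast; rfl
        rw [h4, ← h3]
        obtain ⟨k, rfl⟩ : ∃ k, l = k + 1 := ⟨l - 1, by omega⟩
        exact Finset.dvd_prod_of_mem (fun k => (1 - z ^ (k + 1))) (Finset.mem_range.2 (by omega))
      exact (IsLocalRing.mem_maximalIdeal _).1 h1 (isUnit_of_dvd_unit h2 hu')
  haveI hfin : Finite (ResidueField B) := by
    apply Nat.finite_of_card_ne_zero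
    rw [hcard]
    exact (pow_pos hq.pos f).ne'
  have hinj : Function.Injective (fun i : Fin (p ^ m) => (IsLocalRing.residue B z) ^ (i : ℕ)) := by
    intro i j hij
    exact Fin.ext (hprim.pow_inj i.2 j.2 hij)
  have h5 := Nat.card_le_card_of_injective _ hinj
  rw [Nat.card_fin, hcard] at h5
  have hfn : f ≤ Module.finrank ℚ_[q] L := by
    have he0 : 0 < e := by
      rcases Nat.eq_zero_or_pos e with h | h
      · rw [h, zero_mul] at hef; omega
      · exact h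
    calc f ≤ e * f := Nat.le_mul_of_pos_left f he0
      _ = _ := hef
  exact h5.trans (Nat.pow_le_pow_right hq.pos hfn)

end Local

section Global

variable (p : ℕ) [Fact p.Prime] (S : Finset Nat.Primes)

/-- `E_S` is closed under extraction of `p^m`-th roots (for `p ∈ S`). -/
theorem cycLD_mem_ES_of_pow_pow_mem (hpS : pPrime p ∈ S) (m : ℕ) (y : Qbˣ)
    (hy : y ^ (p ^ m) ∈ ES S) : y ∈ ES S := by
  induction m generalizing y with
  | zero => rwa [pow_zero, pow_one] at hy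
  | succ m ih =>
    apply ih
    apply sUR_mem_ES_of_pow_mem S hpS
    rw [← pow_mul, ← pow_succ]
    exact hy

/-- `ℚ(ζ_{p^m})` is unramified outside `S ∋ p`. -/
theorem cycLD_isUnramifiedOutside (hpS : pPrime p ∈ S) (m : ℕ) {ζ : Qb}
    (hζ : ζ ^ (p ^ m) = 1) : (ℚ⟮ζ⟯).IsUnramifiedOutside S := by
  have hp : p.Prime := Fact.out
  apply isUnramifiedOutside_adjoin_of_mem_QS
  have hζ0 : ζ ≠ 0 := by
    rintro rfl
    rw [zero_pow (pow_pos hp.pos m).ne'] at hζ
    exact zero_ne_one hζ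
  have h1 : Units.mk0 ζ hζ0 ∈ ES S := by
    apply cycLD_mem_ES_of_pow_pow_mem p S hpS m
    have : (Units.mk0 ζ hζ0) ^ (p ^ m) = 1 := by
      ext
      simpa using hζ
    rw [this]
    exact one_mem _
  exact ((mem_ES_iff S).1 h1).1

end Global

section LocalDeg

variable (q : ℕ) [Fact q.Prime]

/-- the degree of a cyclotomic extension divides `φ(n)` -/
theorem cycLD_finrank_dvd_totient {n : ℕ} (hn : 0 < n) {ζ' : PadicAlgCl q}
    (hζ' : IsPrimitiveRoot ζ' n) :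
    Module.finrank ℚ_[q] ℚ_[q]⟮ζ'⟯ ∣ Nat.totient n := by
  haveI : NeZero n := ⟨hn.ne'⟩
  haveI hcyc : IsCyclotomicExtension {n} ℚ_[q] ℚ_[q]⟮ζ'⟯ :=
    hζ'.intermediateField_adjoin_isCyclotomicExtension (K := ℚ_[q])
  haveI : IsGalois ℚ_[q] ℚ_[q]⟮ζ'⟯ := IsCyclotomicExtension.isGalois {n} ℚ_[q] ℚ_[q]⟮ζ'⟯
  haveI : FiniteDimensional ℚ_[q] ℚ_[q]⟮ζ'⟯ :=
    IsCyclotomicExtension.finiteDimensional {n} ℚ_[q] ℚ_[q]⟮ζ'⟯
  let μ : ℚ_[q]⟮ζ'⟯ := ⟨ζ', mem_adjoin_simple_self ℚ_[q] ζ'⟩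
  have hμ : IsPrimitiveRoot μ n :=
    IsPrimitiveRoot.of_map_of_injective (f := algebraMap ℚ_[q]⟮ζ'⟯ (PadicAlgCl q)) hζ'
      (algebraMap ℚ_[q]⟮ζ'⟯ (PadicAlgCl q)).injective
  have h1 := Subgroup.card_dvd_of_injective _ (hμ.autToPow_injective ℚ_[q])
  rw [IsGalois.card_aut_eq_finrank] at h1
  rwa [Nat.card_eq_fintype_card, ZMod.card_units_eq_totient] at h1

end LocalDeg

section Main

variable (q p : ℕ) [Fact q.Prime] [Fact p.Prime]

/-- lower bound for the degree of `ℚ_q(ζ_{p^m})`, `m = q^(p^j) + j + 1`. -/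
theorem cycLD_pow_le_finrank (j : ℕ) {ζ' : PadicAlgCl q}
    (hζ' : IsPrimitiveRoot ζ' (p ^ (q ^ (p ^ j) + j + 1))) :
    p ^ j ≤ Module.finrank ℚ_[q] ℚ_[q]⟮ζ'⟯ := by
  have hp : p.Prime := Fact.out
  have hq : q.Prime := Fact.out
  set m := q ^ (p ^ j) + j + 1 with hm
  haveI : FiniteDimensional ℚ_[q] ℚ_[q]⟮ζ'⟯ :=
    adjoin.finiteDimensional (Algebra.IsIntegral.isIntegral ζ')
  let μ : ℚ_[q]⟮ζ'⟯ := ⟨ζ', mem_adjoin_simple_self ℚ_[q] ζ'⟩
  have hμ : IsPrimitiveRoot μ (p ^ m) :=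
    IsPrimitiveRoot.of_map_of_injective (f := algebraMap ℚ_[q]⟮ζ'⟯ (PadicAlgCl q)) hζ'
      (algebraMap ℚ_[q]⟮ζ'⟯ (PadicAlgCl q)).injective
  by_cases hpq : p = q
  · subst hpq
    have h1 := cycLD_totient_le p ℚ_[p]⟮ζ'⟯ (p ^ (p ^ j) + j) hμ
    rw [Nat.totient_prime_pow hp (Nat.succ_pos _), Nat.succ_sub_one] at h1
    have h2 : p ^ j ≤ p ^ (p ^ (p ^ j) + j) * (p - 1) := by
      have hp1 : 1 ≤ p - 1 := by have := hp.two_le; omega
      calc p ^ j ≤ p ^ (p ^ (p ^ j) + j) := Nat.pow_le_pow_right hp.pos (by omega)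
        _ ≤ p ^ (p ^ (p ^ j) + j) * (p - 1) := Nat.le_mul_of_pos_right _ hp1
    exact h2.trans h1
  · have h1 := cycLD_pow_le q ℚ_[q]⟮ζ'⟯ hp hpq m hμ
    by_contra hlt
    rw [not_le] at hlt
    have h2 : q ^ Module.finrank ℚ_[q] ℚ_[q]⟮ζ'⟯ < q ^ (p ^ j) :=
      Nat.pow_lt_pow_right hq.one_lt hlt
    have h3 : m < p ^ m := Nat.lt_pow_self hp.one_lt
    omega

/-- **(J5)** for every `j` there is a finite Galois extension `K / ℚ` unramified outside `S ∋ p`
whose local degree at `q` is divisible by `p ^ j`. -/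
theorem cycLD_exists (S : Finset Nat.Primes) (hpS : pPrime p ∈ S) (j : ℕ) :
    ∃ K : IntermediateField ℚ Qb, K.IsUnramifiedOutside S ∧ Normal ℚ K ∧
      K.fixingSubgroup.Normal ∧
      p ^ j ∣ Module.finrank ℚ_[q] (localLevel q K) := by
  have hp : p.Prime := Fact.out
  set m := q ^ (p ^ j) + j + 1 with hm
  have hN : 0 < p ^ m := pow_pos hp.pos m
  haveI : NeZero (p ^ m) := ⟨hN.ne'⟩
  haveI : NeZero ((p ^ m : ℕ) : Qb) := ⟨by exact_mod_cast hN.ne'⟩
  obtain ⟨ζ, hζ⟩ := HasEnoughRootsOfUnity.exists_primitiveRoot Qb (p ^ m)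
  haveI hcyc : IsCyclotomicExtension {p ^ m} ℚ ℚ⟮ζ⟯ :=
    hζ.intermediateField_adjoin_isCyclotomicExtension (K := ℚ)
  haveI hgal : IsGalois ℚ ℚ⟮ζ⟯ := IsCyclotomicExtension.isGalois {p ^ m} ℚ ℚ⟮ζ⟯
  have hnor : Normal ℚ ℚ⟮ζ⟯ := hgal.to_normal
  have hζ' : IsPrimitiveRoot (padicEmbedding q ζ) (p ^ m) :=
    hζ.map_of_injective (padicEmbedding q).injective
  refine ⟨ℚ⟮ζ⟯, cycLD_isUnramifiedOutside p S hpS m hζ.pow_eq_one, hnor,
    @fixingSubgroup_normal_of_normal ℚ Qb _ _ _ ℚ⟮ζ⟯ hnor, ?_⟩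
  rw [localLevel_adjoin_simple]
  have h1 := cycLD_finrank_dvd_totient q hN hζ'
  rw [Nat.totient_prime_pow hp (Nat.succ_pos _)] at h1
  exact cycLD_pow_dvd_of_le hp h1 (cycLD_pow_le_finrank q p j hζ')

/-- the level of `cycLD_exists` is a member of `famS S`. -/
theorem cycLD_exists_famS (S : Finset Nat.Primes) (hpS : pPrime p ∈ S) (j : ℕ) :
    ∃ K : IntermediateField ℚ Qb, K.fixingSubgroup ∈ (famS S).sets ∧
      K.IsUnramifiedOutside S ∧ Normal ℚ K ∧
      p ^ j ∣ Module.finrank ℚ_[q] (localLevel q K) := by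
  obtain ⟨K, hK, hnor, hn, hdvd⟩ := cycLD_exists q p S hpS j
  exact ⟨K, ⟨K, hK, hn, rfl⟩, hK, hnor, hdvd⟩

/-- arithmetic: `d₀ ∣ d` and `p^(j + d₀) ∣ d` imply `p^j * d₀ ∣ d`. -/
theorem cycLD_mul_dvd {d₀ d j : ℕ} (hd₀ : 0 < d₀) (h0 : d₀ ∣ d) (h1 : p ^ (j + d₀) ∣ d) :
    p ^ j * d₀ ∣ d := by
  have hp : p.Prime := Fact.out
  obtain ⟨a, d', hd', rfl⟩ := Nat.exists_eq_pow_mul_and_not_dvd hd₀.ne' p hp.ne_one
  have ha : a < p ^ a * d' := by
    have h2 : a < p ^ a := Nat.lt_pow_self hp.one_lt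
    have h3 : 0 < d' := by
      rcases Nat.eq_zero_or_pos d' with h | h
      · rw [h, mul_zero] at hd₀; omega
      · exact h
    calc a < p ^ a := h2
      _ ≤ p ^ a * d' := Nat.le_mul_of_pos_right _ h3
  have h4 : p ^ (j + a) ∣ d := (pow_dvd_pow p (by omega)).trans h1
  have h5 : d' ∣ d := (Dvd.intro_left _ rfl).trans h0
  have hcop : Nat.Coprime (p ^ (j + a)) d' :=
    Nat.Coprime.pow_left _ ((Nat.Prime.coprime_iff_not_dvd hp).2 hd')
  have h6 := hcop.mul_dvd_of_dvd_of_dvd h4 h5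
  have e : p ^ j * (p ^ a * d') = p ^ (j + a) * d' := by rw [pow_add]; ring
  rw [e]
  exact h6

/-- **(J5), relative form**: above every finite level `K₀` there is a level `K ∈ famS S`,
`K₀ ≤ K`, such that `p ^ j * [ℚ_q·ι(K₀) : ℚ_q]` divides `[ℚ_q·ι(K) : ℚ_q]`, i.e. `p ^ j` divides the
relative local degree. -/
theorem cycLD_exists_above (S : Finset Nat.Primes) (hpS : pPrime p ∈ S)
    (K₀ : IntermediateField ℚ Qb) (hK₀ : K₀.IsUnramifiedOutside S) [hnor₀ : Normal ℚ K₀] (j : ℕ) :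
    ∃ K : IntermediateField ℚ Qb, K₀ ≤ K ∧ K.fixingSubgroup ∈ (famS S).sets ∧
      K.IsUnramifiedOutside S ∧ Normal ℚ K ∧
      p ^ j * Module.finrank ℚ_[q] (localLevel q K₀) ∣
        Module.finrank ℚ_[q] (localLevel q K) := by
  haveI := hK₀.1
  have hd₀ : 0 < Module.finrank ℚ_[q] (localLevel q K₀) := Module.finrank_pos
  obtain ⟨K₁, hK₁, hnor₁, -, hdvd⟩ :=
    cycLD_exists q p S hpS (j + Module.finrank ℚ_[q] (localLevel q K₀))
  haveI := hnor₁
  haveI := hK₁.1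
  have hsup : (K₀ ⊔ K₁).IsUnramifiedOutside S := hK₀.sup hK₁
  haveI := hsup.1
  have hnor : Normal ℚ ↥(K₀ ⊔ K₁) := @IntermediateField.normal_sup ℚ Qb _ _ _ K₀ K₁ hnor₀ hnor₁
  refine ⟨K₀ ⊔ K₁, le_sup_left,
    ⟨K₀ ⊔ K₁, hsup, @fixingSubgroup_normal_of_normal ℚ Qb _ _ _ (K₀ ⊔ K₁) hnor, rfl⟩,
    hsup, hnor, ?_⟩
  apply cycLD_mul_dvd p hd₀
  · exact IntermediateField.finrank_dvd_of_le_right (localLevel_mono q le_sup_left)
  · exact hdvd.trans
      (IntermediateField.finrank_dvd_of_le_right (localLevel_mono q le_sup_right))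

end Main

end Fermat.Agent.CFT
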