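import Mathlib
import Fermat.Agent.CFT.Idele.CycloDegP
import Fermat.Agent.CFT.Bridge.CycloLocalDegree
import Fermat.Agent.CFT.PT.SmoothBridge
import Fermat.Agent.CFT.S14.CycloField

set_option autoImplicit false
set_option linter.unusedSectionVars false

/-!
# S55, (C-W): the subfield of degree `p` of `ℚ(ζ_{p²})` inside `AlgebraicClosure ℚ`

* `zetaSqQbar p`, `cycSqKf p = ℚ(ζ_{p²}) ≤ Qb`;
* `cycDegPQb p hp2 : IntermediateField ℚ Qb` : the subfield of degree `p` (`p` odd): a number
  field, Galois and cyclic of degree `p` over `ℚ`, unramified outside every `S ∋ p`, its fixing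
  subgroup is a member of `famS S` of index `p`;
* `pcycW_of_le` / `pcycW_cycDegPQb` : **(W)**, the idele `(1 + p at p, 1 elsewhere)` of `ℚ` is
  not in `ℚˣ · N J_{L₁}`.
-/

open NumberField IsDedekindDomain Rat.HeightOneSpectrum IntermediateField Fermat.Agent.PT
  ExtCitation

namespace Fermat.Agent.CFT

local notation "Qb" => AlgebraicClosure ℚ

variable (p : ℕ) [hp : Fact p.Prime]

/-- a chosen primitive `p ^ 2`-th root of unity in `AlgebraicClosure ℚ`. -/
noncomputable def zetaSqQbar : Qb :=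
  (HasEnoughRootsOfUnity.exists_primitiveRoot Qb (p ^ 2)).choose

theorem zetaSqQbar_spec : IsPrimitiveRoot (zetaSqQbar p) (p ^ 2) :=
  (HasEnoughRootsOfUnity.exists_primitiveRoot Qb (p ^ 2)).choose_spec

/-- `ℚ(ζ_{p²})` inside `AlgebraicClosure ℚ`. -/
noncomputable def cycSqKf : IntermediateField ℚ Qb := ℚ⟮zetaSqQbar p⟯

instance cycSqKf_isCyclotomicExtension : IsCyclotomicExtension {p ^ 2} ℚ (cycSqKf p) :=
  (zetaSqQbar_spec p).intermediateField_adjoin_isCyclotomicExtension ℚ

instance cycSqKf_finiteDimensional : FiniteDimensional ℚ (cycSqKf p) :=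
  IsCyclotomicExtension.finiteDimensional {p ^ 2} ℚ (cycSqKf p)

instance cycSqKf_numberField : NumberField (cycSqKf p) :=
  IsCyclotomicExtension.numberField {p ^ 2} ℚ (cycSqKf p)

instance cycSqKf_isGalois : IsGalois ℚ (cycSqKf p) :=
  IsCyclotomicExtension.isGalois {p ^ 2} ℚ (cycSqKf p)

section General

variable (L : IntermediateField ℚ Qb) [NumberField L] [IsGalois ℚ L]

/-- **(W)** for any subfield `L ≤ ℚ(ζ_{p²})` of `AlgebraicClosure ℚ`, Galois of degree `p` over
`ℚ` (`p` odd): the idele `(1 + p at p, 1 elsewhere)` is not in `ℚˣ · N_{L/ℚ} J_L`. -/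
theorem pcycW_of_le (hp2 : p ≠ 2) (hle : L ≤ cycSqKf p) (hdeg : Module.finrank ℚ L = p) :
    baseIdeleSingle ℚ (pcycPlace p hp.out)
        (pcycNat (pcycPlace p hp.out) (1 + p) (by omega)) ∉
      (diagBase ℚ).range ⊔ (ideleNorm ℚ L).range := by
  let _ : Algebra L (cycSqKf p) := (IntermediateField.inclusion hle).toRingHom.toAlgebra
  have : IsScalarTower ℚ L (cycSqKf p) := IsScalarTower.of_algebraMap_eq fun x => rfl
  exact pcycW_of_finrank p L (cycSqKf p) hp2 hdeg

end General

section DegP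

variable (hp2 : p ≠ 2)

/-- **the subfield of degree `p` of `ℚ(ζ_{p²})`** inside `AlgebraicClosure ℚ`. -/
noncomputable def cycDegPQb : IntermediateField ℚ Qb :=
  IntermediateField.lift (cycDegP p (cycSqKf p) hp2)

theorem cycDegPQb_le : cycDegPQb p hp2 ≤ cycSqKf p := IntermediateField.lift_le _

/-- the identification with the abstract model. -/
noncomputable def cycDegPQbEquiv : cycDegP p (cycSqKf p) hp2 ≃ₐ[ℚ] cycDegPQb p hp2 :=
  IntermediateField.liftAlgEquiv _

theorem finrank_cycDegPQb : Module.finrank ℚ (cycDegPQb p hp2) = p := by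
  rw [← (cycDegPQbEquiv p hp2).toLinearEquiv.finrank_eq, finrank_cycDegP]

instance cycDegPQb_finiteDimensional : FiniteDimensional ℚ (cycDegPQb p hp2) :=
  Module.finite_of_finrank_pos (by rw [finrank_cycDegPQb]; exact hp.out.pos)

instance cycDegPQb_numberField : NumberField (cycDegPQb p hp2) where
  to_charZero := inferInstance
  to_finiteDimensional := inferInstance

instance cycDegPQb_isGalois : IsGalois ℚ (cycDegPQb p hp2) :=
  IsGalois.of_algEquiv (cycDegPQbEquiv p hp2)

theorem isCyclic_gal_cycDegPQb : IsCyclic Gal((cycDegPQb p hp2)/ℚ) := by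
  have := isCyclic_gal_cycDegP p (cycSqKf p) hp2
  exact isCyclic_of_surjective (cycDegPQbEquiv p hp2).autCongr
    (cycDegPQbEquiv p hp2).autCongr.surjective

theorem card_gal_cycDegPQb : Nat.card Gal((cycDegPQb p hp2)/ℚ) = p := by
  rw [IsGalois.card_aut_eq_finrank, finrank_cycDegPQb]

/-- `L₁` is unramified outside `S ∋ p`. -/
theorem isUnramifiedOutside_cycDegPQb (S : Finset Nat.Primes) (hpS : pPrime p ∈ S) :
    (cycDegPQb p hp2).IsUnramifiedOutside S :=
  IntermediateField.IsUnramifiedOutside.of_le (cycDegPQb_le p hp2)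
    (cycLD_isUnramifiedOutside p S hpS 2 (zetaSqQbar_spec p).pow_eq_one)

instance cycDegPQb_fixingSubgroup_normal : (cycDegPQb p hp2).fixingSubgroup.Normal :=
  @IsGalois.fixingSubgroup_normal_of_isGalois ℚ Qb _ _ _ (cycDegPQb p hp2) _
    (cycDegPQb_isGalois p hp2)

/-- the fixing subgroup of `L₁` is a level of `famS S`. -/
theorem fixingSubgroup_cycDegPQb_mem_famS (S : Finset Nat.Primes) (hpS : pPrime p ∈ S) :
    (cycDegPQb p hp2).fixingSubgroup ∈ (famS S).sets :=
  ⟨cycDegPQb p hp2, isUnramifiedOutside_cycDegPQb p hp2 S hpS, inferInstance, rfl⟩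

/-- **(W)** for the subfield of degree `p` of `ℚ(ζ_{p²})`. -/
theorem pcycW_cycDegPQb :
    baseIdeleSingle ℚ (pcycPlace p hp.out)
        (pcycNat (pcycPlace p hp.out) (1 + p) (by omega)) ∉
      (diagBase ℚ).range ⊔ (ideleNorm ℚ (cycDegPQb p hp2)).range :=
  pcycW_of_le p (cycDegPQb p hp2) hp2 (cycDegPQb_le p hp2) (finrank_cycDegPQb p hp2)

end DegP

end Fermat.Agent.CFT
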