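import Mathlib
import Fermat.Agent.CFT.Bridge.CycloLocalDegree
import Fermat.Agent.CFT.PT.SmoothCoind

/-!
# (J5), family form: `p^∞` divides the relative indices of the levels pulled back from `famS S`

For `q : Nat.Primes`, `FS := (famS S).comap (primeLocalToGlobal q)` (the levels of the local Galois
group at `q` coming from the extensions of `ℚ` unramified outside `S ∋ p`) and `H` open for `FS`:
for every `j` there is `U ∈ FS`, `U ≤ H`, with `p ^ j ∣ U.relIndex H` (`cycLD_relIndex`).
-/

set_option autoImplicit false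
set_option linter.style.haveILetI false
set_option linter.unusedSectionVars false

namespace Fermat.Agent.CFT

open IntermediateField Fermat.Agent.PT ExtCitation

local notation "Qb" => AlgebraicClosure ℚ

local instance cycLDF_isAlgebraicQbar : Algebra.IsAlgebraic ℚ (AlgebraicClosure ℚ) :=
  AlgebraicClosure.isAlgebraic ℚ

section

variable (q p : ℕ) [Fact q.Prime] [Fact p.Prime]

/-- **(J5), relative form with normal fixing subgroups** (no `Normal ℚ K₀` hypothesis): above
every level `K₀` of `famS S` there is a level `K` of `famS S` with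
`p ^ j * [ℚ_q·ι(K₀) : ℚ_q] ∣ [ℚ_q·ι(K) : ℚ_q]`. -/
theorem cycLD_exists_above' (S : Finset Nat.Primes) (hpS : pPrime p ∈ S)
    (K₀ : IntermediateField ℚ Qb) (hK₀ : K₀.IsUnramifiedOutside S)
    (hn₀ : K₀.fixingSubgroup.Normal) (j : ℕ) :
    ∃ K : IntermediateField ℚ Qb, K₀ ≤ K ∧ K.IsUnramifiedOutside S ∧ K.fixingSubgroup.Normal ∧
      p ^ j * Module.finrank ℚ_[q] (localLevel q K₀) ∣
        Module.finrank ℚ_[q] (localLevel q K) := by
  haveI := hK₀.1
  have hd₀ : 0 < Module.finrank ℚ_[q] (localLevel q K₀) := Module.finrank_pos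
  obtain ⟨K₁, hK₁, -, hn₁, hdvd⟩ :=
    cycLD_exists q p S hpS (j + Module.finrank ℚ_[q] (localLevel q K₀))
  haveI := hK₁.1
  have hsup : (K₀ ⊔ K₁).IsUnramifiedOutside S := hK₀.sup hK₁
  haveI := hsup.1
  have hnor : (K₀ ⊔ K₁).fixingSubgroup.Normal := by
    rw [IntermediateField.fixingSubgroup_sup]
    infer_instance
  refine ⟨K₀ ⊔ K₁, le_sup_left, hsup, hnor, ?_⟩
  apply cycLD_mul_dvd p hd₀
  · exact IntermediateField.finrank_dvd_of_le_right (localLevel_mono q le_sup_left)
  · exact hdvd.trans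
      (IntermediateField.finrank_dvd_of_le_right (localLevel_mono q le_sup_right))

local instance cycLDF_isGaloisPadicAlgCl : IsGalois ℚ_[q] (PadicAlgCl q) where

/-- index form: `p ^ j` divides the relative index of the pulled-back level of `K` in that of
`K₀`. -/
theorem cycLD_exists_relIndex (S : Finset Nat.Primes) (hpS : pPrime p ∈ S)
    (K₀ : IntermediateField ℚ Qb) (hK₀ : K₀.IsUnramifiedOutside S)
    (hn₀ : K₀.fixingSubgroup.Normal) (j : ℕ) :
    ∃ K : IntermediateField ℚ Qb, K₀ ≤ K ∧ K.IsUnramifiedOutside S ∧ K.fixingSubgroup.Normal ∧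
      p ^ j ∣ (K.fixingSubgroup.comap (localGaloisToGlobal q)).relIndex
        (K₀.fixingSubgroup.comap (localGaloisToGlobal q)) := by
  obtain ⟨K, hle, hK, hn, hdvd⟩ := cycLD_exists_above' q p S hpS K₀ hK₀ hn₀ j
  refine ⟨K, hle, hK, hn, ?_⟩
  haveI := hK₀.1
  haveI := hK.1
  rw [← localLevel_fixingSubgroup_eq_comap, ← localLevel_fixingSubgroup_eq_comap]
  have hUW : (localLevel q K).fixingSubgroup ≤ (localLevel q K₀).fixingSubgroup :=
    IntermediateField.fixingSubgroup_antitone (localLevel_mono q hle)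
  have h1 := Subgroup.relIndex_mul_index hUW
  rw [← IntermediateField.finrank_eq_fixingSubgroup_index,
    ← IntermediateField.finrank_eq_fixingSubgroup_index] at h1
  have hd₀ : 0 < Module.finrank ℚ_[q] (localLevel q K₀) := Module.finrank_pos
  rw [← h1] at hdvd
  exact Nat.dvd_of_mul_dvd_mul_right hd₀ hdvd

end

section Primes

variable (p : ℕ) [Fact p.Prime]

/-- **(J5), family form**: for `H` open for the family `(famS S).comap (primeLocalToGlobal q)` of
the local Galois group at `q`, the relative indices of the members of the family inside `H` are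
divisible by arbitrarily high powers of `p`. -/
theorem cycLD_relIndex (S : Finset Nat.Primes) (hpS : pPrime p ∈ S) (q : Nat.Primes)
    (H : Subgroup (primeLocalGaloisGroup q))
    (hH : IsOpenFor ((famS S).comap (primeLocalToGlobal q)) H) (j : ℕ) :
    ∃ U ∈ ((famS S).comap (primeLocalToGlobal q)).sets, U ≤ H ∧ p ^ j ∣ U.relIndex H := by
  haveI : Fact (q : ℕ).Prime := ⟨q.2⟩
  obtain ⟨W, ⟨V₀, ⟨K₀, hK₀, hn₀, rfl⟩, rfl⟩, hWH⟩ := hH
  obtain ⟨K, hle, hK, hn, hdvd⟩ := cycLD_exists_relIndex (q : ℕ) p S hpS K₀ hK₀ hn₀ j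
  have hUW : K.fixingSubgroup.comap (primeLocalToGlobal q) ≤
      K₀.fixingSubgroup.comap (primeLocalToGlobal q) :=
    Subgroup.comap_mono (IntermediateField.fixingSubgroup_antitone hle)
  refine ⟨K.fixingSubgroup.comap (primeLocalToGlobal q), ⟨_, ⟨K, hK, hn, rfl⟩, rfl⟩,
    hUW.trans hWH, ?_⟩
  rw [← Subgroup.relIndex_mul_relIndex _ _ _ hUW hWH]
  exact Dvd.dvd.mul_right hdvd _

end Primes

end Fermat.Agent.CFT
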