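import Mathlib
import Fermat.Prelude.Def_GaloisRep_CompletionBridge
import Fermat.Agent.CFT.Bridge.LocalLevel

set_option autoImplicit false

/-!
# CFT S55 bridge (GB-D): decomposition groups are local Galois groups

`ι = padicEmbedding q : Q̄ → PadicAlgCl q`, `r = localGaloisToGlobal q : Gal(Q̄_q/ℚ_q) → Gal(Q̄/ℚ)`.

* `norm_rigidity` : an automorphism of a field which preserves `{N ≤ 1}` for a multiplicative
  real-valued function `N` and fixes an element `c` with `0 < N c < 1` preserves `N`.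
* `sum_smul_eq_zero_of_norm_preserving` : `ℚ_q`-linear relations between the `ι x_i` are preserved
  by a norm-preserving `σ` (density of `ℚ` in `ℚ_q`).
* `exists_local_lift` : if `σ ∈ Gal(Q̄/ℚ)` preserves `{‖ι ·‖ ≤ 1}` on a finite subextension `K`
  (stable under `σ`), there is `τ ∈ Gal(Q̄_q/ℚ_q)` with `r τ = σ` on `K`.
-/

namespace Fermat.Agent.CFT

open IntermediateField

section Rigidity

/-- Squeeze: for `0 < a < b` and `1 < Y` there are `n, m` with `a ^ n < Y ^ m < b ^ n`. -/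
theorem exists_pow_lt_zpow_lt_pow {a b Y : ℝ} (ha : 0 < a) (hab : a < b) (hY : 1 < Y) :
    ∃ (n : ℕ) (m : ℤ), a ^ n < Y ^ m ∧ Y ^ m < b ^ n := by
  have hb : 0 < b := ha.trans hab
  have h1 : 1 < b / a := (one_lt_div ha).2 hab
  obtain ⟨n, hn⟩ := pow_unbounded_of_one_lt Y h1
  have han : 0 < a ^ n := pow_pos ha n
  obtain ⟨m, hm1, hm2⟩ := exists_mem_Ico_zpow han hY
  refine ⟨n, m + 1, hm2, ?_⟩
  have hY0 : 0 < Y := zero_lt_one.trans hY
  calc Y ^ (m + 1) = Y ^ m * Y := by rw [zpow_add_one₀ hY0.ne']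
    _ ≤ a ^ n * Y := mul_le_mul_of_nonneg_right hm1 hY0.le
    _ < a ^ n * (b / a) ^ n := mul_lt_mul_of_pos_left hn han
    _ = b ^ n := by rw [div_pow, mul_div_cancel₀ _ han.ne']

variable {F : Type*} [Field F]

/-- **Norm rigidity.** -/
theorem norm_rigidity (N : F →*₀ ℝ) (hN : ∀ x, 0 ≤ N x) (σ : F →+* F) (c : F)
    (hc0 : 0 < N c) (hc1 : N c < 1) (hσc : σ c = c)
    (h : ∀ y, N y ≤ 1 ↔ N (σ y) ≤ 1) (x : F) : N (σ x) = N x := by
  by_cases hx : x = 0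
  · rw [hx, map_zero]
  have hc : c ≠ 0 := by
    rintro rfl
    rw [map_zero] at hc0
    exact lt_irrefl _ hc0
  have hσx : σ x ≠ 0 := (map_ne_zero σ).2 hx
  have hNx : 0 < N x := lt_of_le_of_ne (hN x) (Ne.symm ((map_ne_zero N).2 hx))
  have hNσx : 0 < N (σ x) := lt_of_le_of_ne (hN _) (Ne.symm ((map_ne_zero N).2 hσx))
  set Y : ℝ := (N c)⁻¹ with hYdef
  have hY : 1 < Y := (one_lt_inv₀ hc0).2 hc1
  -- the test elements `x ^ n * c ^ m`
  have key : ∀ (n : ℕ) (m : ℤ), N (x ^ n * c ^ m) = N x ^ n / Y ^ m ∧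
      N (σ (x ^ n * c ^ m)) = N (σ x) ^ n / Y ^ m := by
    intro n m
    have h1 : N (c ^ m) = (Y ^ m)⁻¹ := by
      rw [map_zpow₀, hYdef, inv_zpow, inv_inv]
    constructor
    · rw [map_mul, map_pow, h1, div_eq_mul_inv]
    · rw [map_mul, map_pow, map_zpow₀, hσc, map_mul, map_pow, h1, div_eq_mul_inv]
  rcases lt_trichotomy (N (σ x)) (N x) with hlt | heq | hgt
  · exfalso
    obtain ⟨n, m, h1, h2⟩ := exists_pow_lt_zpow_lt_pow hNσx hlt hY
    have hYm : 0 < Y ^ m := zpow_pos (zero_lt_one.trans hY) m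
    obtain ⟨k1, k2⟩ := key n m
    have h3 : N (σ (x ^ n * c ^ m)) ≤ 1 := by
      rw [k2, div_le_one hYm]
      exact h1.le
    have h4 := (h _).2 h3
    rw [k1, div_le_one hYm] at h4
    exact absurd h2 (not_lt.2 h4)
  · exact heq
  · exfalso
    obtain ⟨n, m, h1, h2⟩ := exists_pow_lt_zpow_lt_pow hNx hgt hY
    have hYm : 0 < Y ^ m := zpow_pos (zero_lt_one.trans hY) m
    obtain ⟨k1, k2⟩ := key n m
    have h3 : N (x ^ n * c ^ m) ≤ 1 := by
      rw [k1, div_le_one hYm]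
      exact h1.le
    have h4 := (h _).1 h3
    rw [k2, div_le_one hYm] at h4
    exact absurd h2 (not_lt.2 h4)

end Rigidity

section Density

variable (q : ℕ) [Fact q.Prime]

/-- **Relations are preserved.**  Two `ℚ`-linear maps `j₀ j₁ : E → PadicAlgCl q` with the same norms
satisfy the same `ℚ_q`-linear relations (density of `ℚ` in `ℚ_q`). -/
theorem sum_smul_eq_zero_of_norm_eq {E : Type*} [AddCommGroup E] [Module ℚ E]
    (j₀ j₁ : E →ₗ[ℚ] PadicAlgCl q) (hnorm : ∀ y, ‖j₁ y‖ = ‖j₀ y‖) {n : ℕ}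
    (a : Fin n → ℚ_[q]) (x : Fin n → E) (h : ∑ i, a i • j₀ (x i) = 0) :
    ∑ i, a i • j₁ (x i) = 0 := by
  set C : ℝ := ∑ i, ‖j₀ (x i)‖ + ∑ i, ‖j₁ (x i)‖ with hC
  have hC0 : 0 ≤ C := add_nonneg (Finset.sum_nonneg fun _ _ => norm_nonneg _)
    (Finset.sum_nonneg fun _ _ => norm_nonneg _)
  rw [← norm_le_zero_iff]
  refine le_of_forall_pos_le_add fun ε hε => ?_
  rw [zero_add]
  -- choose rational approximations
  set δ : ℝ := ε / (C + 1) with hδ
  have hδ0 : 0 < δ := div_pos hε (by linarith)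
  choose r hr using fun i => Padic.rat_dense q (a i) hδ0
  set y : E := ∑ i, r i • x i with hy
  have hsmul : ∀ (j : E →ₗ[ℚ] PadicAlgCl q) (i : Fin n),
      j (r i • x i) = ((r i : ℚ) : ℚ_[q]) • j (x i) := by
    intro j i
    rw [map_smul]
    exact (algebraMap_smul ℚ_[q] (r i) (j (x i))).symm
  have hj₀ : j₀ y = ∑ i, (((r i : ℚ) : ℚ_[q]) - a i) • j₀ (x i) := by
    rw [hy, map_sum]
    simp_rw [hsmul, sub_smul]
    rw [Finset.sum_sub_distrib, h, sub_zero]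
  have hj₁ : ∑ i, a i • j₁ (x i) = j₁ y + ∑ i, (a i - ((r i : ℚ) : ℚ_[q])) • j₁ (x i) := by
    rw [hy, map_sum]
    simp_rw [hsmul, sub_smul]
    rw [Finset.sum_sub_distrib]
    abel
  have hb₀ : ‖j₀ y‖ ≤ δ * ∑ i, ‖j₀ (x i)‖ := by
    rw [hj₀, Finset.mul_sum]
    refine (norm_sum_le _ _).trans (Finset.sum_le_sum fun i _ => ?_)
    rw [norm_smul]
    refine mul_le_mul_of_nonneg_right ?_ (norm_nonneg _)
    rw [← norm_neg, neg_sub]
    exact (hr i).le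
  have hb₁ : ‖∑ i, (a i - ((r i : ℚ) : ℚ_[q])) • j₁ (x i)‖ ≤ δ * ∑ i, ‖j₁ (x i)‖ := by
    rw [Finset.mul_sum]
    refine (norm_sum_le _ _).trans (Finset.sum_le_sum fun i _ => ?_)
    rw [norm_smul]
    exact mul_le_mul_of_nonneg_right (hr i).le (norm_nonneg _)
  calc ‖∑ i, a i • j₁ (x i)‖ ≤ ‖j₁ y‖ + ‖∑ i, (a i - ((r i : ℚ) : ℚ_[q])) • j₁ (x i)‖ := by
        rw [hj₁]; exact norm_add_le _ _
    _ ≤ δ * ∑ i, ‖j₀ (x i)‖ + δ * ∑ i, ‖j₁ (x i)‖ := by
        rw [hnorm]; exact add_le_add hb₀ hb₁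
    _ = δ * C := by rw [hC, mul_add]
    _ ≤ ε := by
        rw [hδ, div_mul_eq_mul_div, div_le_iff₀ (by linarith)]
        nlinarith

end Density

section Lift

variable (q : ℕ) [Fact q.Prime]

local notation "Qb" => AlgebraicClosure ℚ

theorem norm_padicEmbedding_prime : ‖padicEmbedding q ((q : ℕ) : Qb)‖ = (q : ℝ)⁻¹ := by
  rw [map_natCast]
  have h : ((q : ℕ) : PadicAlgCl q) = algebraMap ℚ_[q] (PadicAlgCl q) ((q : ℕ) : ℚ_[q]) := by
    rw [map_natCast]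
  rw [h]
  exact (PadicAlgCl.norm_extends q _).trans Padic.norm_p

/-- the multiplicative function `x ↦ ‖ι x‖` on `Q̄` -/
noncomputable def padicNormHom : Qb →*₀ ℝ where
  toFun x := ‖padicEmbedding q x‖
  map_zero' := by rw [map_zero, norm_zero]
  map_one' := by rw [map_one, norm_one]
  map_mul' x y := by rw [map_mul, norm_mul]

@[simp] theorem padicNormHom_apply (x : Qb) : padicNormHom q x = ‖padicEmbedding q x‖ := rfl

/-- **Norm rigidity for subfields of `Q̄`**: an automorphism `σ` mapping a subfield `K` into itself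
and preserving `{x ∈ K | ‖ι x‖ ≤ 1}` preserves `‖ι ·‖` on `K`. -/
theorem norm_padicEmbedding_eq_of_forall_le_one_iff (K : IntermediateField ℚ Qb)
    (σ : Qb ≃ₐ[ℚ] Qb) (hσK : ∀ x ∈ K, σ x ∈ K)
    (h : ∀ y ∈ K, ‖padicEmbedding q y‖ ≤ 1 ↔ ‖padicEmbedding q (σ y)‖ ≤ 1) (x : Qb) (hx : x ∈ K) :
    ‖padicEmbedding q (σ x)‖ = ‖padicEmbedding q x‖ := by
  let σK : K →+* K :=
    { toFun := fun y => ⟨σ (y : Qb), hσK y y.2⟩
      map_one' := Subtype.ext (map_one σ)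
      map_mul' := fun a b => Subtype.ext (map_mul σ (a : Qb) (b : Qb))
      map_zero' := Subtype.ext (map_zero σ)
      map_add' := fun a b => Subtype.ext (map_add σ (a : Qb) (b : Qb)) }
  let N : K →*₀ ℝ := (padicNormHom q).comp (algebraMap K Qb : K →+* Qb).toMonoidWithZeroHom
  have hq : 1 < (q : ℝ) := by exact_mod_cast (Fact.out : q.Prime).one_lt
  have hc : N ((q : ℕ) : K) = (q : ℝ)⁻¹ := by
    change ‖padicEmbedding q (algebraMap K Qb ((q : ℕ) : K))‖ = _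
    rw [map_natCast]
    exact norm_padicEmbedding_prime q
  have := norm_rigidity N (fun y => norm_nonneg (padicEmbedding q (y : Qb))) σK ((q : ℕ) : K)
    (by rw [hc]; exact inv_pos.2 (by linarith)) (by rw [hc]; exact inv_lt_one_of_one_lt₀ hq)
    (map_natCast σK q) (fun y => h y y.2) ⟨x, hx⟩
  exact this

local instance isAlgebraicQbar_dc : Algebra.IsAlgebraic ℚ (AlgebraicClosure ℚ) :=
  AlgebraicClosure.isAlgebraic ℚ
local instance isAlgClosureQbar_dc : IsAlgClosure ℚ (AlgebraicClosure ℚ) :=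
  ⟨inferInstance, inferInstance⟩
local instance normalQbar_dc : Normal ℚ (AlgebraicClosure ℚ) :=
  IsAlgClosure.normal ℚ (AlgebraicClosure ℚ)
local instance normalPadicAlgCl_dc : Normal ℚ_[q] (PadicAlgCl q) :=
  IsAlgClosure.normal ℚ_[q] (PadicAlgCl q)

/-- **Local lift, simple extension**: if `σ` preserves `‖ι ·‖` on `ℚ(β)` there is
`τ ∈ Gal(Q̄_q/ℚ_q)` with `r τ = σ` on `ℚ(β)`. -/
theorem exists_local_lift_simple (β : Qb) (σ : Qb ≃ₐ[ℚ] Qb)
    (hnorm : ∀ x ∈ ℚ⟮β⟯, ‖padicEmbedding q (σ x)‖ = ‖padicEmbedding q x‖) :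
    ∃ τ : PadicAlgCl q ≃ₐ[ℚ_[q]] PadicAlgCl q,
      ∀ x ∈ ℚ⟮β⟯, localGaloisToGlobal q τ x = σ x := by
  set g := minpoly ℚ_[q] (padicEmbedding q β) with hg
  have halg : IsAlgebraic ℚ_[q] (padicEmbedding q β) := Algebra.IsAlgebraic.isAlgebraic _
  let j₀ : ℚ⟮β⟯ →ₗ[ℚ] PadicAlgCl q :=
    (padicEmbedding q).toLinearMap ∘ₗ (ℚ⟮β⟯).val.toLinearMap
  let j₁ : ℚ⟮β⟯ →ₗ[ℚ] PadicAlgCl q :=
    (padicEmbedding q).toLinearMap ∘ₗ σ.toLinearMap ∘ₗ (ℚ⟮β⟯).val.toLinearMap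
  let b : ℚ⟮β⟯ := ⟨β, mem_adjoin_simple_self ℚ β⟩
  have hj₀ : ∀ i : ℕ, j₀ (b ^ i) = padicEmbedding q β ^ i := fun i => by
    change padicEmbedding q ((b ^ i : ℚ⟮β⟯) : Qb) = _
    rw [SubmonoidClass.coe_pow, map_pow]
  have hj₁ : ∀ i : ℕ, j₁ (b ^ i) = padicEmbedding q (σ β) ^ i := fun i => by
    change padicEmbedding q (σ ((b ^ i : ℚ⟮β⟯) : Qb)) = _
    rw [SubmonoidClass.coe_pow, map_pow, map_pow]
  have h0 : ∑ i : Fin (g.natDegree + 1), g.coeff i • j₀ (b ^ (i : ℕ)) = 0 := by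
    have h1 := minpoly.aeval ℚ_[q] (padicEmbedding q β)
    rw [Polynomial.aeval_eq_sum_range, ← Fin.sum_univ_eq_sum_range
      (fun i => g.coeff i • padicEmbedding q β ^ i)] at h1
    simp_rw [hj₀]
    exact h1
  have h1 := sum_smul_eq_zero_of_norm_eq q j₀ j₁ (fun y => hnorm y y.2)
    (fun i : Fin (g.natDegree + 1) => g.coeff i) (fun i => b ^ (i : ℕ)) h0
  simp_rw [hj₁] at h1
  rw [Fin.sum_univ_eq_sum_range (fun i => g.coeff i • padicEmbedding q (σ β) ^ i),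
    ← Polynomial.aeval_eq_sum_range] at h1
  obtain ⟨τ, hτ⟩ := minpoly.exists_algEquiv_of_root' halg h1
  refine ⟨τ, fun x hx => ?_⟩
  have hβ : localGaloisToGlobal q τ β = σ β := by
    apply (padicEmbedding q).toRingHom.injective
    change padicEmbedding q _ = padicEmbedding q _
    rw [padicEmbedding_localGaloisToGlobal, hτ]
  have hmem : σ⁻¹ * localGaloisToGlobal q τ ∈ (adjoin ℚ {β}).fixingSubgroup := by
    rw [mem_fixingSubgroup_adjoin_iff]
    intro a ha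
    rw [Set.mem_singleton_iff] at ha
    rw [ha, AlgEquiv.mul_apply, hβ]
    exact σ.symm_apply_apply β
  have h2 := (IntermediateField.mem_fixingSubgroup_iff _ _).mp hmem x hx
  rw [AlgEquiv.mul_apply] at h2
  have h3 := congrArg σ h2
  rwa [show σ (σ⁻¹ (localGaloisToGlobal q τ x)) = localGaloisToGlobal q τ x from
    σ.apply_symm_apply _] at h3

/-- **Local lift**: if `σ ∈ Gal(Q̄/ℚ)` maps a finite subextension `K` into itself and preserves
`{x ∈ K | ‖ι x‖ ≤ 1}`, there is `τ ∈ Gal(Q̄_q/ℚ_q)` with `r τ = σ` on `K`. -/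
theorem exists_local_lift (K : IntermediateField ℚ Qb) [FiniteDimensional ℚ K]
    (σ : Qb ≃ₐ[ℚ] Qb) (hσK : ∀ x ∈ K, σ x ∈ K)
    (h : ∀ y ∈ K, ‖padicEmbedding q y‖ ≤ 1 ↔ ‖padicEmbedding q (σ y)‖ ≤ 1) :
    ∃ τ : PadicAlgCl q ≃ₐ[ℚ_[q]] PadicAlgCl q, ∀ x ∈ K, localGaloisToGlobal q τ x = σ x := by
  have hnorm := norm_padicEmbedding_eq_of_forall_le_one_iff q K σ hσK h
  obtain ⟨β, rfl⟩ := exists_eq_adjoin_simple_of_finiteDimensional K
  exact exists_local_lift_simple q β σ hnorm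

/-- `r τ` preserves `‖ι ·‖`. -/
theorem norm_padicEmbedding_localGaloisToGlobal (τ : PadicAlgCl q ≃ₐ[ℚ_[q]] PadicAlgCl q)
    (x : Qb) : ‖padicEmbedding q (localGaloisToGlobal q τ x)‖ = ‖padicEmbedding q x‖ := by
  rw [padicEmbedding_localGaloisToGlobal]
  exact congrArg NNReal.toReal (nnnorm_padicAlgCl_algEquiv q τ _)

/-- a normal subextension is stable under every automorphism (instance-agnostic form) -/
theorem apply_mem_of_normal (K : IntermediateField ℚ Qb) [Normal ℚ K] (ρ : Qb ≃ₐ[ℚ] Qb) {x : Qb}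
    (hx : x ∈ K) : ρ x ∈ K :=
  (normal_iff_forall_map_le' (F := ℚ) (K := K)).mp ‹Normal ℚ K› ρ ⟨x, hx, rfl⟩

theorem fixingSubgroup_normal_of_normal_rat (K : IntermediateField ℚ Qb) [Normal ℚ K] :
    K.fixingSubgroup.Normal :=
  ⟨fun v hv g => by
    rw [IntermediateField.mem_fixingSubgroup_iff] at hv ⊢
    intro x hx
    rw [AlgEquiv.mul_apply, AlgEquiv.mul_apply, hv _ (apply_mem_of_normal K g⁻¹ hx)]
    exact g.apply_symm_apply x⟩

/-- elements of `G_K · D_q` preserve `‖ι ·‖` on `K` -/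
theorem norm_padicEmbedding_eq_of_mem_sup_range (K : IntermediateField ℚ Qb) [Normal ℚ K]
    {σ : Qb ≃ₐ[ℚ] Qb} (hσ : σ ∈ K.fixingSubgroup ⊔ (localGaloisToGlobal q).range)
    {y : Qb} (hy : y ∈ K) : ‖padicEmbedding q (σ y)‖ = ‖padicEmbedding q y‖ := by
  have hVn : K.fixingSubgroup.Normal := fixingSubgroup_normal_of_normal_rat K
  rw [Subgroup.mem_sup_of_normal_left] at hσ
  obtain ⟨v, hv, _, ⟨τ, rfl⟩, rfl⟩ := hσ
  have h1 : (v * localGaloisToGlobal q τ) y = localGaloisToGlobal q τ y := by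
    rw [AlgEquiv.mul_apply]
    exact (IntermediateField.mem_fixingSubgroup_iff _ _).mp hv _ (apply_mem_of_normal K _ hy)
  rw [h1, norm_padicEmbedding_localGaloisToGlobal]

/-- **`G_K · D_q` is the stabiliser of the place of `K` induced by `ι`** (`K/ℚ` finite normal):
`σ ∈ G_K · r(Gal(Q̄_q/ℚ_q))` iff `σ` preserves `{x ∈ K | ‖ι x‖ ≤ 1}`. -/
theorem mem_fixingSubgroup_sup_range_iff (K : IntermediateField ℚ Qb) [FiniteDimensional ℚ K]
    [Normal ℚ K] (σ : Qb ≃ₐ[ℚ] Qb) :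
    σ ∈ K.fixingSubgroup ⊔ (localGaloisToGlobal q).range ↔
      ∀ y ∈ K, ‖padicEmbedding q y‖ ≤ 1 ↔ ‖padicEmbedding q (σ y)‖ ≤ 1 := by
  constructor
  · intro hσ y hy
    rw [norm_padicEmbedding_eq_of_mem_sup_range q K hσ hy]
  · intro h
    obtain ⟨τ, hτ⟩ := exists_local_lift q K σ (fun x hx => apply_mem_of_normal K σ hx) h
    have hv : σ * (localGaloisToGlobal q τ)⁻¹ ∈ K.fixingSubgroup := by
      rw [IntermediateField.mem_fixingSubgroup_iff]
      intro x hx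
      have hx' : (localGaloisToGlobal q τ)⁻¹ x ∈ K := apply_mem_of_normal K _ hx
      rw [AlgEquiv.mul_apply, ← hτ _ hx']
      exact (localGaloisToGlobal q τ).apply_symm_apply x
    have : σ = (σ * (localGaloisToGlobal q τ)⁻¹) * localGaloisToGlobal q τ := by group
    rw [this]
    exact Subgroup.mul_mem_sup hv ⟨τ, rfl⟩

/-- one-sided form: it suffices that `σ` and `σ⁻¹` map `{‖ι ·‖ ≤ 1} ∩ K` into itself -/
theorem mem_fixingSubgroup_sup_range_of_forall_le (K : IntermediateField ℚ Qb)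
    [FiniteDimensional ℚ K] [Normal ℚ K] (σ : Qb ≃ₐ[ℚ] Qb)
    (h₁ : ∀ y ∈ K, ‖padicEmbedding q y‖ ≤ 1 → ‖padicEmbedding q (σ y)‖ ≤ 1)
    (h₂ : ∀ y ∈ K, ‖padicEmbedding q y‖ ≤ 1 → ‖padicEmbedding q (σ⁻¹ y)‖ ≤ 1) :
    σ ∈ K.fixingSubgroup ⊔ (localGaloisToGlobal q).range := by
  rw [mem_fixingSubgroup_sup_range_iff]
  intro y hy
  refine ⟨h₁ y hy, fun h => ?_⟩
  have := h₂ (σ y) (apply_mem_of_normal K σ hy) h
  rwa [show σ⁻¹ (σ y) = y from σ.symm_apply_apply y] at this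

end Lift

end Fermat.Agent.CFT
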