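import Mathlib
import Fermat.Agent.CFT.S14.FieldL
import Fermat.Agent.CFT.S14.CycloField
import Fermat.Agent.CFT.PT.SmoothShapiro
import Fermat.Agent.CFT.PT.SmoothBridge
import Fermat.Agent.CFT.PT.SUnitsRep

set_option autoImplicit false

/-!
# S55 GLOBAL bridge (K6), group side: the finite layer of a pair of levels `U ≤ V` of `famS S`

(helper10)  `V` open for `famS S` (`IsOpenFor (famS S) V`), `U ∈ (famS S).sets`, `U ≤ V`;
`M := fixedField V`, `L := fixedField U` (number fields, unramified outside `S`, `L / ℚ` Galois,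
`M ≤ L ≤ QS S`).  This file wraps the Krull-topology statements of `S14/FieldL.lean`
(`subgroupRestrict`) for the levels of `famS S`:

* `lvq_pi hU hUV : ↥V →* Gal(L/M)` (restriction), `lvq_pi_apply`, `lvq_pi_ker`
  (`= U.subgroupOf V`), `lvq_pi_surjective`, `lvq_card_gal` (`= U.relIndex V`), `lvq_isGalois`.
-/

namespace Fermat.Agent.PT

open CategoryTheory Fermat.Agent.CFT Fermat.Agent.CFT.S14 IntermediateField ExtCitation

local notation "Qb" => AlgebraicClosure ℚ
local notation "Γℚ" => (AlgebraicClosure ℚ ≃ₐ[ℚ] AlgebraicClosure ℚ)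

variable (S : Finset Nat.Primes)

section Open

/-- the levels of `famS S` are open in the Krull topology. -/
theorem lvq_isOpen_of_mem {U : Subgroup Γℚ} (hU : U ∈ (famS S).sets) :
    IsOpen (U : Set Γℚ) := by
  obtain ⟨K, hK, -, rfl⟩ := hU
  haveI := hK.1
  exact K.fixingSubgroup_isOpen

/-- the open subgroups for `famS S` are open in the Krull topology. -/
theorem lvq_isOpen_of_isOpenFor {V : Subgroup Γℚ} (hV : IsOpenFor (famS S) V) :
    IsOpen (V : Set Γℚ) := by
  obtain ⟨U, hU, hUV⟩ := hV
  exact Subgroup.isOpen_mono hUV (lvq_isOpen_of_mem S hU)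

theorem lvq_fixingSubgroup_fixedField {V : Subgroup Γℚ} (hV : IsOpenFor (famS S) V) :
    (fixedField V).fixingSubgroup = V :=
  fixingSubgroup_fixedField_of_isOpen V (lvq_isOpen_of_isOpenFor S hV)

theorem lvq_finiteDimensional_fixedField {V : Subgroup Γℚ} (hV : IsOpenFor (famS S) V) :
    FiniteDimensional ℚ (fixedField V) :=
  finiteDimensional_fixedField_of_isOpen V (lvq_isOpen_of_isOpenFor S hV)

theorem lvq_numberField_fixedField {V : Subgroup Γℚ} (hV : IsOpenFor (famS S) V) :
    NumberField (fixedField V) :=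
  haveI := lvq_finiteDimensional_fixedField S hV
  { to_charZero := inferInstance, to_finiteDimensional := inferInstance }

/-- the fixed field of a level `U = G_K` of `famS S` is `K`. -/
theorem lvq_fixedField_fixingSubgroup (K : IntermediateField ℚ Qb) :
    fixedField K.fixingSubgroup = K :=
  InfiniteGalois.fixedField_fixingSubgroup K

theorem lvq_isUnramifiedOutside_of_mem {U : Subgroup Γℚ} (hU : U ∈ (famS S).sets) :
    (fixedField U).IsUnramifiedOutside S := by
  obtain ⟨K, hK, -, rfl⟩ := hU
  rw [lvq_fixedField_fixingSubgroup]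
  exact hK

/-- the fixed field of an open subgroup for `famS S` is unramified outside `S`. -/
theorem lvq_isUnramifiedOutside_fixedField {V : Subgroup Γℚ} (hV : IsOpenFor (famS S) V) :
    (fixedField V).IsUnramifiedOutside S := by
  obtain ⟨U, hU, hUV⟩ := hV
  exact (lvq_isUnramifiedOutside_of_mem S hU).of_le (fixedField_antitone hUV)

theorem lvq_fixedField_le_QS {V : Subgroup Γℚ} (hV : IsOpenFor (famS S) V) :
    fixedField V ≤ QS S :=
  le_QS_of_isUnramifiedOutside S (lvq_isUnramifiedOutside_fixedField S hV)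

theorem lvq_isOpenFor_of_mem {U : Subgroup Γℚ} (hU : U ∈ (famS S).sets) :
    IsOpenFor (famS S) U := ⟨U, hU, le_rfl⟩

theorem lvq_isGalois_of_mem {U : Subgroup Γℚ} (hU : U ∈ (famS S).sets) :
    IsGalois ℚ (fixedField U) :=
  haveI := (famS S).normal U hU
  isGalois_fixedField_of_isOpen U (lvq_isOpen_of_mem S hU)

/-- conversely: the absolute Galois group of a finite extension of `ℚ` unramified outside `S`
is open for `famS S`. -/
theorem lvq_isOpenFor_fixingSubgroup {K : IntermediateField ℚ Qb} (hK : K.IsUnramifiedOutside S) :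
    IsOpenFor (famS S) K.fixingSubgroup := by
  obtain ⟨F', hle, hF', hn⟩ := hasNormalEnlargement S K hK
  exact ⟨F'.fixingSubgroup, ⟨F', hF', hn, rfl⟩, IntermediateField.fixingSubgroup_antitone hle⟩

end Open

section Layer

variable {S} {U V : Subgroup Γℚ}

theorem lvq_fixedField_le (hUV : U ≤ V) : fixedField V ≤ fixedField U :=
  fixedField_antitone hUV

/-- **the restriction `V → Gal(L/M)`**, `M = fixedField V`, `L = fixedField U`
(for the algebra structure `algebraOfLE`). -/
noncomputable def lvq_pi (hU : U ∈ (famS S).sets) (hUV : U ≤ V) :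
    ↥V →* (letI := algebraOfLE (lvq_fixedField_le hUV);
      fixedField U ≃ₐ[fixedField V] fixedField U) :=
  haveI := (famS S).normal U hU
  subgroupRestrict hUV (lvq_isOpen_of_mem S hU)

theorem lvq_pi_apply (hU : U ∈ (famS S).sets) (hUV : U ≤ V) (v : ↥V) (x : fixedField U) :
    letI := algebraOfLE (lvq_fixedField_le hUV)
    ((lvq_pi hU hUV v x : fixedField U) : Qb) = (v : Γℚ) (x : Qb) :=
  haveI := (famS S).normal U hU
  subgroupRestrict_apply hUV (lvq_isOpen_of_mem S hU) v x

theorem lvq_pi_eq_one_iff (hU : U ∈ (famS S).sets) (hUV : U ≤ V) (v : ↥V) :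
    lvq_pi hU hUV v = 1 ↔ (v : Γℚ) ∈ U :=
  haveI := (famS S).normal U hU
  subgroupRestrict_eq_one_iff hUV (lvq_isOpen_of_mem S hU) v

theorem lvq_pi_ker (hU : U ∈ (famS S).sets) (hUV : U ≤ V) :
    (lvq_pi hU hUV).ker = U.subgroupOf V :=
  haveI := (famS S).normal U hU
  subgroupRestrict_ker hUV (lvq_isOpen_of_mem S hU)

theorem lvq_pi_surjective (hU : U ∈ (famS S).sets) (hUV : U ≤ V) :
    Function.Surjective (lvq_pi hU hUV) :=
  haveI := (famS S).normal U hU
  subgroupRestrict_surjective hUV (lvq_isOpen_of_mem S hU)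

theorem lvq_card_gal (hU : U ∈ (famS S).sets) (hUV : U ≤ V) :
    letI := algebraOfLE (lvq_fixedField_le hUV)
    Nat.card (fixedField U ≃ₐ[fixedField V] fixedField U) = U.relIndex V :=
  haveI := (famS S).normal U hU
  card_gal_fixedField hUV (lvq_isOpen_of_mem S hU)

theorem lvq_isGalois (hU : U ∈ (famS S).sets) (hUV : U ≤ V) :
    letI := algebraOfLE (lvq_fixedField_le hUV)
    IsGalois (fixedField V) (fixedField U) :=
  haveI := (famS S).normal U hU
  isGalois_fixedField_fixedField hUV (lvq_isOpen_of_mem S hU)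

theorem lvq_finrank (hU : U ∈ (famS S).sets) (hUV : U ≤ V) :
    letI := algebraOfLE (lvq_fixedField_le hUV)
    Module.finrank (fixedField V) (fixedField U) = U.relIndex V := by
  letI := algebraOfLE (lvq_fixedField_le hUV)
  haveI := lvq_isGalois hU hUV
  haveI : FiniteDimensional ℚ (fixedField U) :=
    lvq_finiteDimensional_fixedField S (lvq_isOpenFor_of_mem S hU)
  haveI := isScalarTower_of_le (lvq_fixedField_le hUV)
  haveI : FiniteDimensional (fixedField V) (fixedField U) :=
    FiniteDimensional.right ℚ (fixedField V) (fixedField U)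
  rw [← lvq_card_gal hU hUV, IsGalois.card_aut_eq_finrank]

end Layer

end Fermat.Agent.PT
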