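import Mathlib
import Fermat.Prelude.Def_GaloisRep_CompletionBridge
import Fermat.Agent.CFT.Bridge.LocalLevel
import Fermat.Agent.CFT.Bridge.Decomp

set_option autoImplicit false
set_option linter.unusedSectionVars false

/-!
# CFT S55 bridge (GB-D), places dictionary

`K ⊆ Q̄` a finite Galois extension of `ℚ`, `q` a prime, `ι = padicEmbedding q`,
`r = localGaloisToGlobal q`.

* `embPrime q K : Ideal (𝓞 K)` `= {x | ‖ι x‖ < 1}`, `embPlace q K : HeightOneSpectrum (𝓞 K)`.
* `levelNorm_le_one_of_smul_embPrime_eq` : an element of `Gal(K/ℚ)` fixing this prime preserves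
  the valuation ring `{‖ι ·‖ ≤ 1}` of `K`.
* `restrictNormalHom_mem_stabilizer_iff` : `ρ|_K ∈ Stab(embPrime) ↔ ρ ∈ G_K · r(Gal(Q̄_q/ℚ_q))`.
* `placesEquiv q K : Gal(Q̄/ℚ) ⧸ (G_K ⊔ range r) ≃ {w : HeightOneSpectrum (𝓞 K) // (q : 𝓞 K) ∈ w}`.
* `index_comap_fixingSubgroup`, `index_fixingSubgroup_eq_mul`, `finrank_eq_localDegree_mul_places`
  (`[K : ℚ] = r · [K_w : ℚ_q]`), `range_localLevelRestrict` (decomposition group = local Galois
  group), `natCard_stabilizer_embPrime`.
-/

namespace Fermat.Agent.CFT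

open IntermediateField NumberField IsDedekindDomain
open scoped Pointwise

section Primes

variable (q : ℕ) [Fact q.Prime]

local notation "Qb" => AlgebraicClosure ℚ

theorem norm_padicEmbedding_le_one_of_isIntegral {x : Qb} (hx : IsIntegral ℤ x) :
    ‖padicEmbedding q x‖ ≤ 1 := by
  have hy : IsIntegral ℤ (padicEmbedding q x) := map_isIntegral_int (padicEmbedding q) hx
  have hy' : IsIntegral (Valued.v : Valuation (PadicAlgCl q) NNReal).integer (padicEmbedding q x) :=
    hy.tower_top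
  have := (Valuation.integer.integers (Valued.v : Valuation (PadicAlgCl q) NNReal)).mem_of_integral hy'
  rw [Valuation.mem_integer_iff, PadicAlgCl.valuation_def] at this
  exact_mod_cast this

variable (K : IntermediateField ℚ Qb)

/-- `𝓞 K → K → Q̄ → Q̄_q` -/
noncomputable def integerEmb : 𝓞 K →+* PadicAlgCl q :=
  (padicEmbedding q).toRingHom.comp ((algebraMap K Qb).comp (algebraMap (𝓞 K) K))

theorem integerEmb_apply (x : 𝓞 K) : integerEmb q K x = padicEmbedding q ((x : K) : Qb) := rfl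

theorem norm_integerEmb_le_one (x : 𝓞 K) : ‖integerEmb q K x‖ ≤ 1 := by
  apply norm_padicEmbedding_le_one_of_isIntegral
  have h : IsIntegral ℤ (x : K) := x.2
  exact map_isIntegral_int (algebraMap K Qb) h

/-- the prime of `𝓞 K` cut out by `ι`: `{x | ‖ι x‖ < 1}` -/
noncomputable def embPrime : Ideal (𝓞 K) where
  carrier := {x | ‖integerEmb q K x‖ < 1}
  add_mem' := by
    intro a b ha hb
    change ‖_‖ < 1 at ha hb ⊢
    rw [map_add]
    exact lt_of_le_of_lt (PadicAlgCl.isNonarchimedean q _ _) (max_lt ha hb)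
  zero_mem' := by
    change ‖_‖ < 1
    rw [map_zero, norm_zero]
    exact zero_lt_one
  smul_mem' := by
    intro c x hx
    change ‖_‖ < 1 at hx ⊢
    rw [smul_eq_mul, map_mul, norm_mul]
    calc _ ≤ 1 * ‖integerEmb q K x‖ :=
          mul_le_mul_of_nonneg_right (norm_integerEmb_le_one q K c) (norm_nonneg _)
      _ < 1 := by rwa [one_mul]

theorem mem_embPrime_iff (x : 𝓞 K) :
    x ∈ embPrime q K ↔ ‖padicEmbedding q ((x : K) : Qb)‖ < 1 := Iff.rfl

theorem mem_embPrime_iff' (x : 𝓞 K) :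
    x ∈ embPrime q K ↔ ‖integerEmb q K x‖ < 1 := Iff.rfl

theorem not_mem_embPrime_iff (x : 𝓞 K) :
    x ∉ embPrime q K ↔ ‖integerEmb q K x‖ = 1 := by
  rw [mem_embPrime_iff', not_lt]
  exact ⟨fun h => le_antisymm (norm_integerEmb_le_one q K x) h, fun h => h.ge⟩

theorem natCast_mem_embPrime : ((q : ℕ) : 𝓞 K) ∈ embPrime q K := by
  rw [mem_embPrime_iff', map_natCast]
  have h : ((q : ℕ) : PadicAlgCl q) = algebraMap ℚ_[q] (PadicAlgCl q) ((q : ℕ) : ℚ_[q]) := by
    rw [map_natCast]
  rw [h, PadicAlgCl.norm_extends, Padic.norm_p]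
  exact inv_lt_one_of_one_lt₀ (by exact_mod_cast (Fact.out : q.Prime).one_lt)

instance embPrime_isPrime : (embPrime q K).IsPrime := by
  refine ⟨?_, ?_⟩
  · rw [Ne, Ideal.eq_top_iff_one, mem_embPrime_iff', map_one, norm_one]
    exact lt_irrefl 1
  · intro x y hxy
    rw [mem_embPrime_iff', map_mul, norm_mul] at hxy
    by_contra hcon
    rw [not_or, mem_embPrime_iff', mem_embPrime_iff', not_lt, not_lt] at hcon
    exact absurd hxy (not_lt.2 (by nlinarith [hcon.1, hcon.2]))

/-- the place of `K` cut out by `ι` -/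
noncomputable def embPlace : HeightOneSpectrum (𝓞 K) where
  asIdeal := embPrime q K
  isPrime := inferInstance
  ne_bot := by
    intro h
    have h1 := natCast_mem_embPrime q K
    rw [h, Ideal.mem_bot] at h1
    exact (Fact.out : q.Prime).ne_zero (by exact_mod_cast h1)

/-- the multiplicative function `y ↦ ‖ι y‖` on `K` -/
noncomputable def levelNorm : K →*₀ ℝ where
  toFun y := ‖padicEmbedding q (y : Qb)‖
  map_zero' := by rw [IntermediateField.coe_zero, map_zero, norm_zero]
  map_one' := by rw [IntermediateField.coe_one, map_one, norm_one]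
  map_mul' x y := by rw [IntermediateField.coe_mul, map_mul, norm_mul]

theorem levelNorm_apply (y : K) : levelNorm q K y = ‖padicEmbedding q (y : Qb)‖ := rfl

theorem levelNorm_integer (x : 𝓞 K) : levelNorm q K (x : K) = ‖integerEmb q K x‖ := rfl

variable [NumberField K] [IsGalois ℚ K]

/-- An element of `Gal(K/ℚ)` fixing the prime `embPrime` preserves the valuation ring
`{y ∈ K | ‖ι y‖ ≤ 1}`. -/
theorem levelNorm_le_one_of_smul_embPrime_eq (g : K ≃ₐ[ℚ] K)
    (hg : g • embPrime q K = embPrime q K) (y : K) (hy : levelNorm q K y ≤ 1) :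
    levelNorm q K (g y) ≤ 1 := by
  have hmem : ∀ d : 𝓞 K, g • d ∈ embPrime q K ↔ d ∈ embPrime q K := by
    intro d
    conv_lhs => rw [← hg]
    rw [Ideal.smul_mem_pointwise_smul_iff]
  have hN : ∀ d : 𝓞 K, levelNorm q K (g (d : K)) = ‖integerEmb q K (g • d)‖ := fun d => rfl
  have hunit : ∀ d : 𝓞 K, d ∉ embPrime q K → levelNorm q K (g (d : K)) = 1 := by
    intro d hd
    rw [hN, ← not_mem_embPrime_iff, hmem]
    exact hd
  have hint : ∀ n : 𝓞 K, levelNorm q K (g (n : K)) ≤ 1 := fun n => by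
    rw [hN]; exact norm_integerEmb_le_one q K _
  obtain ⟨n, d, h | h⟩ := (embPlace q K).exists_primeCompl_mul_eq_or_mul_eq (K := K) y
  · have hd : (d : 𝓞 K) ∉ embPrime q K := d.2
    have h1 := congrArg (fun z => levelNorm q K (g z)) h
    simp only [map_mul] at h1
    have h2 : levelNorm q K (g ((d : 𝓞 K) : K)) = 1 := hunit d hd
    have h3 : levelNorm q K (g ((n : 𝓞 K) : K)) ≤ 1 := hint n
    change levelNorm q K (g y) * levelNorm q K (g ((d : 𝓞 K) : K)) =
      levelNorm q K (g ((n : 𝓞 K) : K)) at h1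
    rw [h2, mul_one] at h1
    rw [h1]; exact h3
  · have hd : (d : 𝓞 K) ∉ embPrime q K := d.2
    have h0 := congrArg (levelNorm q K) h
    rw [map_mul] at h0
    change levelNorm q K y * ‖integerEmb q K n‖ = ‖integerEmb q K d‖ at h0
    rw [(not_mem_embPrime_iff q K d).1 hd] at h0
    have hn1 : ‖integerEmb q K n‖ = 1 := by
      have hle := norm_integerEmb_le_one q K n
      have hy0 : 0 ≤ levelNorm q K y := norm_nonneg (padicEmbedding q (y : Qb))
      nlinarith [norm_nonneg (integerEmb q K n)]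
    have hn : n ∉ embPrime q K := (not_mem_embPrime_iff q K n).2 hn1
    have h1 := congrArg (fun z => levelNorm q K (g z)) h
    simp only [map_mul] at h1
    change levelNorm q K (g y) * levelNorm q K (g ((n : 𝓞 K) : K)) =
      levelNorm q K (g ((d : 𝓞 K) : K)) at h1
    rw [hunit n hn, mul_one] at h1
    rw [h1]; exact hint d

local instance isAlgebraicQbar_pl : Algebra.IsAlgebraic ℚ (AlgebraicClosure ℚ) :=
  AlgebraicClosure.isAlgebraic ℚ
local instance isAlgClosureQbar_pl : IsAlgClosure ℚ (AlgebraicClosure ℚ) :=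
  ⟨inferInstance, inferInstance⟩
local instance normalQbar_pl : Normal ℚ (AlgebraicClosure ℚ) :=
  IsAlgClosure.normal ℚ (AlgebraicClosure ℚ)

theorem coe_restrictNormalHom_apply (ρ : Qb ≃ₐ[ℚ] Qb) (y : K) :
    ((AlgEquiv.restrictNormalHom K ρ y : K) : Qb) = ρ (y : Qb) :=
  AlgEquiv.restrictNormal_commutes ρ K y

theorem levelNorm_restrictNormalHom (ρ : Qb ≃ₐ[ℚ] Qb) (y : K) :
    levelNorm q K (AlgEquiv.restrictNormalHom K ρ y) = ‖padicEmbedding q (ρ (y : Qb))‖ := by
  rw [levelNorm_apply, coe_restrictNormalHom_apply]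

/-- **(★)** `ρ|_K` stabilises the prime `embPrime` iff `ρ ∈ G_K · D_q`. -/
theorem restrictNormalHom_mem_stabilizer_iff (ρ : Qb ≃ₐ[ℚ] Qb) :
    AlgEquiv.restrictNormalHom K ρ ∈ MulAction.stabilizer (K ≃ₐ[ℚ] K) (embPrime q K) ↔
      ρ ∈ K.fixingSubgroup ⊔ (localGaloisToGlobal q).range := by
  have hfd : FiniteDimensional ℚ K := NumberField.to_finiteDimensional
  constructor
  · intro h
    rw [MulAction.mem_stabilizer_iff] at h
    have hinv : (AlgEquiv.restrictNormalHom K ρ)⁻¹ • embPrime q K = embPrime q K := by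
      rw [inv_smul_eq_iff, h]
    apply mem_fixingSubgroup_sup_range_of_forall_le q K ρ
    · intro y hy hle
      have := levelNorm_le_one_of_smul_embPrime_eq q K _ h ⟨y, hy⟩ hle
      rwa [levelNorm_restrictNormalHom] at this
    · intro y hy hle
      have := levelNorm_le_one_of_smul_embPrime_eq q K _ hinv ⟨y, hy⟩ hle
      rwa [← map_inv, levelNorm_restrictNormalHom] at this
  · intro h
    rw [MulAction.mem_stabilizer_iff]
    ext x
    rw [Ideal.mem_pointwise_smul_iff_inv_smul_mem, mem_embPrime_iff, mem_embPrime_iff]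
    have hinv : ρ⁻¹ ∈ K.fixingSubgroup ⊔ (localGaloisToGlobal q).range := inv_mem h
    have h1 : (((AlgEquiv.restrictNormalHom K ρ)⁻¹ • x : 𝓞 K) : K) =
        AlgEquiv.restrictNormalHom K ρ⁻¹ (x : K) := by
      rw [map_inv]; rfl
    rw [h1, coe_restrictNormalHom_apply,
      norm_padicEmbedding_eq_of_mem_sup_range q K hinv (x : K).2]

theorem natCast_mem_smul_embPrime (g : K ≃ₐ[ℚ] K) : ((q : ℕ) : 𝓞 K) ∈ g • embPrime q K := by
  rw [Ideal.mem_pointwise_smul_iff_inv_smul_mem]
  have : g⁻¹ • ((q : ℕ) : 𝓞 K) = ((q : ℕ) : 𝓞 K) :=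
    map_natCast (MulSemiringAction.toRingHom (K ≃ₐ[ℚ] K) (𝓞 K) g⁻¹) q
  rw [this]
  exact natCast_mem_embPrime q K

/-- the place `σ • w₀` of `K` over `q` attached to `σ ∈ Gal(Q̄/ℚ)` -/
noncomputable def placeOfAut (σ : Qb ≃ₐ[ℚ] Qb) :
    {w : HeightOneSpectrum (𝓞 K) // ((q : ℕ) : 𝓞 K) ∈ w.asIdeal} :=
  ⟨⟨AlgEquiv.restrictNormalHom K σ • embPrime q K, (embPrime_isPrime q K).smul _, by
      intro h
      have h1 := natCast_mem_smul_embPrime q K (AlgEquiv.restrictNormalHom K σ)
      rw [h, Ideal.mem_bot] at h1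
      exact (Fact.out : q.Prime).ne_zero (by exact_mod_cast h1)⟩,
    natCast_mem_smul_embPrime q K _⟩

theorem placeOfAut_asIdeal (σ : Qb ≃ₐ[ℚ] Qb) :
    (placeOfAut q K σ).1.asIdeal = AlgEquiv.restrictNormalHom K σ • embPrime q K := rfl

theorem placeOfAut_eq_iff (σ σ' : Qb ≃ₐ[ℚ] Qb) :
    placeOfAut q K σ = placeOfAut q K σ' ↔
      σ⁻¹ * σ' ∈ K.fixingSubgroup ⊔ (localGaloisToGlobal q).range := by
  rw [← restrictNormalHom_mem_stabilizer_iff, MulAction.mem_stabilizer_iff, map_mul, map_inv,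
    mul_smul, inv_smul_eq_iff, Subtype.ext_iff, HeightOneSpectrum.ext_iff, placeOfAut_asIdeal,
    placeOfAut_asIdeal]
  exact eq_comm

/-- a prime of `𝓞 K` containing `q` lies over `(q) ⊆ ℤ` -/
theorem under_eq_span_of_natCast_mem (P : Ideal (𝓞 K)) [P.IsPrime]
    (hq : ((q : ℕ) : 𝓞 K) ∈ P) : P.under ℤ = Ideal.span {(q : ℤ)} := by
  have hmax : (Ideal.span {(q : ℤ)}).IsMaximal :=
    (Ideal.isPrime_of_prime (Ideal.prime_span_singleton_iff.mpr
      (Nat.prime_iff_prime_int.mp (Fact.out : q.Prime)))).isMaximal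
      (by simp [(Fact.out : q.Prime).ne_zero])
  symm
  apply hmax.eq_of_le (Ideal.IsPrime.under ℤ P).ne_top
  rw [Ideal.span_singleton_le_iff_mem, Ideal.under_def, Ideal.mem_comap]
  simpa using hq

theorem placeOfAut_surjective : Function.Surjective (placeOfAut q K) := by
  rintro ⟨w, hw⟩
  have h1 : (embPrime q K).under ℤ = w.asIdeal.under ℤ := by
    rw [under_eq_span_of_natCast_mem q K _ (natCast_mem_embPrime q K),
      under_eq_span_of_natCast_mem q K _ hw]
  obtain ⟨g, hg⟩ := Algebra.IsInvariant.exists_smul_of_under_eq ℤ (𝓞 K) (K ≃ₐ[ℚ] K)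
    (embPrime q K) w.asIdeal h1
  obtain ⟨σ, rfl⟩ := AlgEquiv.restrictNormalHom_surjective (F := ℚ) (K₁ := K) Qb g
  refine ⟨σ, ?_⟩
  rw [Subtype.ext_iff, HeightOneSpectrum.ext_iff]
  exact hg.symm

/-- **Places dictionary**: the double cosets `Gal(Q̄/ℚ) ⧸ (G_K · D_q)` are the primes of `𝓞 K`
over `q`. -/
noncomputable def placesEquiv :
    ((Qb ≃ₐ[ℚ] Qb) ⧸ (K.fixingSubgroup ⊔ (localGaloisToGlobal q).range)) ≃
      {w : HeightOneSpectrum (𝓞 K) // ((q : ℕ) : 𝓞 K) ∈ w.asIdeal} :=
  Equiv.ofBijective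
    (Quotient.lift (placeOfAut q K) (fun σ σ' h => by
      rw [placeOfAut_eq_iff]
      exact QuotientGroup.leftRel_apply.mp h))
    ⟨by
      intro a b
      induction a using Quotient.inductionOn with | _ σ => ?_
      induction b using Quotient.inductionOn with | _ σ' => ?_
      intro h
      apply Quotient.sound
      rw [Quotient.lift_mk, Quotient.lift_mk, placeOfAut_eq_iff] at h
      exact QuotientGroup.leftRel_apply.mpr h,
     fun w => by
      obtain ⟨σ, hσ⟩ := placeOfAut_surjective q K w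
      exact ⟨Quotient.mk _ σ, hσ⟩⟩

theorem placesEquiv_mk (σ : Qb ≃ₐ[ℚ] Qb) :
    placesEquiv q K (QuotientGroup.mk σ) = placeOfAut q K σ := rfl

end Primes

section Degree

variable (q : ℕ) [Fact q.Prime]

local notation "Qb" => AlgebraicClosure ℚ

local instance isAlgebraicQbar_dg : Algebra.IsAlgebraic ℚ (AlgebraicClosure ℚ) :=
  AlgebraicClosure.isAlgebraic ℚ
local instance isAlgClosureQbar_dg : IsAlgClosure ℚ (AlgebraicClosure ℚ) :=
  ⟨inferInstance, inferInstance⟩
local instance isGaloisQbar_dg : IsGalois ℚ (AlgebraicClosure ℚ) :=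
  ⟨⟩
local instance isGaloisPadicAlgCl_dg : IsGalois ℚ_[q] (PadicAlgCl q) :=
  ⟨⟩

variable (K : IntermediateField ℚ Qb)

/-- the local group at a place of `K` over `q` has index `[ℚ_q · ι K : ℚ_q]` -/
theorem index_comap_fixingSubgroup :
    (K.fixingSubgroup.comap (localGaloisToGlobal q)).index =
      Module.finrank ℚ_[q] (localLevel q K) := by
  rw [← localLevel_fixingSubgroup_eq_comap, ← IntermediateField.finrank_eq_fixingSubgroup_index]

variable [NumberField K] [IsGalois ℚ K]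

/-- **`[K : ℚ] = r · [K_w : ℚ_q]`** in group-index form. -/
theorem index_fixingSubgroup_eq_mul :
    K.fixingSubgroup.index = Module.finrank ℚ_[q] (localLevel q K) *
      Nat.card {w : HeightOneSpectrum (𝓞 K) // ((q : ℕ) : 𝓞 K) ∈ w.asIdeal} := by
  have hVn : K.fixingSubgroup.Normal := fixingSubgroup_normal_of_normal_rat K
  rw [← Nat.card_congr (placesEquiv q K), ← index_comap_fixingSubgroup, ← Subgroup.index_eq_card,
    ← Subgroup.relIndex_mul_index (le_sup_left : K.fixingSubgroup ≤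
      K.fixingSubgroup ⊔ (localGaloisToGlobal q).range), Subgroup.relIndex_sup_left,
    Subgroup.index_comap]

/-- **`[K : ℚ] = r · [K_w : ℚ_q]`**. -/
theorem finrank_eq_localDegree_mul_places :
    Module.finrank ℚ K = Module.finrank ℚ_[q] (localLevel q K) *
      Nat.card {w : HeightOneSpectrum (𝓞 K) // ((q : ℕ) : 𝓞 K) ∈ w.asIdeal} := by
  rw [← index_fixingSubgroup_eq_mul, IntermediateField.finrank_eq_fixingSubgroup_index]

local instance normalQbar_dg : Normal ℚ (AlgebraicClosure ℚ) :=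
  IsAlgClosure.normal ℚ (AlgebraicClosure ℚ)
local instance normalPadicAlgCl_dg : Normal ℚ_[q] (PadicAlgCl q) :=
  IsAlgClosure.normal ℚ_[q] (PadicAlgCl q)

/-- **Decomposition group = local Galois group** (finite level): the image of
`Gal(K_w/ℚ_q) ↪ Gal(K/ℚ)` is the stabiliser of the prime `embPrime q K`. -/
theorem range_localLevelRestrict :
    (localLevelRestrict q K).range = MulAction.stabilizer (K ≃ₐ[ℚ] K) (embPrime q K) := by
  have hVn : K.fixingSubgroup.Normal := fixingSubgroup_normal_of_normal_rat K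
  ext g
  obtain ⟨σ, rfl⟩ := AlgEquiv.restrictNormalHom_surjective (F := ℚ) (K₁ := K) Qb g
  rw [restrictNormalHom_mem_stabilizer_iff]
  constructor
  · rintro ⟨τ', hτ'⟩
    obtain ⟨τ, rfl⟩ := AlgEquiv.restrictNormalHom_surjective (F := ℚ_[q])
      (K₁ := localLevel q K) (PadicAlgCl q) τ'
    rw [localLevelRestrict_restrictNormalHom] at hτ'
    have hv : σ * (localGaloisToGlobal q τ)⁻¹ ∈ K.fixingSubgroup := by
      rw [← restrictNormalHom_eq_one_iff, map_mul, map_inv, hτ', mul_inv_cancel]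
    have : σ = (σ * (localGaloisToGlobal q τ)⁻¹) * localGaloisToGlobal q τ := by group
    rw [this]
    exact Subgroup.mul_mem_sup hv ⟨τ, rfl⟩
  · intro hσ
    rw [Subgroup.mem_sup_of_normal_left] at hσ
    obtain ⟨v, hv, _, ⟨τ, rfl⟩, rfl⟩ := hσ
    refine ⟨AlgEquiv.restrictNormalHom (localLevel q K) τ, ?_⟩
    rw [localLevelRestrict_restrictNormalHom, map_mul,
      (restrictNormalHom_eq_one_iff K v).2 hv, one_mul]

/-- the decomposition group of `embPrime q K` has order `[K_w : ℚ_q]` -/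
theorem natCard_stabilizer_embPrime :
    Nat.card (MulAction.stabilizer (K ≃ₐ[ℚ] K) (embPrime q K)) =
      Module.finrank ℚ_[q] (localLevel q K) := by
  have hfd : FiniteDimensional ℚ K := NumberField.to_finiteDimensional
  have hgal : IsGalois ℚ_[q] (localLevel q K) := ⟨⟩
  rw [← range_localLevelRestrict, ← IsGalois.card_aut_eq_finrank]
  exact Nat.card_congr (Equiv.ofInjective _ (localLevelRestrict_injective q K)).symm

end Degree

end Fermat.Agent.CFT
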