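/-
S55 GLOBAL bridge, (K6)/(K7) finite-level inputs in the `lvq_` vocabulary (helper4).

`V` open for `famS S` with trivial mod-`p` cyclotomic character, `U ∈ (famS S).sets`, `U ≤ V`;
`M := fixedField V`, `L := fixedField U` (helper10's `Bridge/LevelQuot.lean`, algebra structure
`algebraOfLE (lvq_fixedField_le hUV)`).  For `C_L = idClassRep ℚ M L`, `p` odd:

* `fcLv_H1_eq_zero` : `H¹(Gal(L/M), C_L)[p] = 0`;
* `fcLv_natCard_torsion_H2_le` : `H²(Gal(L/M), C_L)[p]` is finite with at most `p` elements;
* `fcLv_H3_eq_zero_of_pow_nsmul` : `H³(Gal(L/M), C_L)` has no `p`-torsion.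

These are the properties `P A'` of helper15's `lvP_eq_zero_of_nsmul` / `lvP_card_le`
(`PT/LevelPlug.lean`) for `A' := idClassRep ℚ (fixedField V) (fixedField U)`, `π := lvq_pi hU hUV`.
-/
import Mathlib
import Fermat.Agent.CFT.Bridge.LevelQuot
import Fermat.Agent.CFT.Idele.FundClassFinal
import Fermat.Agent.CFT.PT.PlacesGlue

set_option autoImplicit false
set_option linter.unusedSectionVars false
set_option linter.style.haveILetI false

open CategoryTheory groupCohomology Rep Fermat.Agent.CFT Fermat.Agent.CFT.S14 IntermediateField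
  ExtCitation

namespace Fermat.Agent.PT

local notation "Qb" => AlgebraicClosure ℚ
local notation "Γℚ" => (AlgebraicClosure ℚ ≃ₐ[ℚ] AlgebraicClosure ℚ)

attribute [local instance] additiveDistribMulAction ideleGroupActionOf ideleClassActionOf
  idClassCommGroup

variable (p : ℕ) [hp : Fact p.Prime] (S : Finset Nat.Primes) {U V : Subgroup Γℚ}

/-- a cyclo-trivial open `V` has `ζ_p` in its fixed field. -/
theorem fcLv_cycloKf_le (hV : IsOpenFor (famS S) V) (hcyc : ∀ s ∈ V, cycloChar p s = 1) :
    cycloKf p ≤ fixedField V := by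
  have hfix : (fixedField V).fixingSubgroup = V := lvq_fixingSubgroup_fixedField S hV
  have hmem : zetaQbar p ∈ fixedField V :=
    plg_zetaQbar_mem p (fixedField V) (fun s hs => hcyc s (hfix ▸ hs))
  unfold cycloKf
  rw [adjoin_le_iff]
  rintro x hx
  rw [Set.mem_singleton_iff] at hx
  rw [hx]
  exact hmem

theorem fcLv_exists_primitiveRoot (hV : IsOpenFor (famS S) V)
    (hcyc : ∀ s ∈ V, cycloChar p s = 1) : ∃ ζ : fixedField V, IsPrimitiveRoot ζ p := by
  have hfix : (fixedField V).fixingSubgroup = V := lvq_fixingSubgroup_fixedField S hV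
  exact plg_exists_primitiveRoot p (fixedField V) (fun s hs => hcyc s (hfix ▸ hs))

/-- **finite-level (C-A1)**: `H¹(Gal(L/M), C_L)[p] = 0`, `M = fixedField V`, `L = fixedField U`. -/
theorem fcLv_H1_eq_zero (hp2 : p ≠ 2) (hV : IsOpenFor (famS S) V)
    (hcyc : ∀ s ∈ V, cycloChar p s = 1) (hU : U ∈ (famS S).sets) (hUV : U ≤ V) :
    letI := algebraOfLE (lvq_fixedField_le hUV)
    haveI := isScalarTower_of_le (lvq_fixedField_le hUV)
    haveI := lvq_numberField_fixedField S hV
    haveI := lvq_numberField_fixedField S (lvq_isOpenFor_of_mem S hU)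
    ∀ x : groupCohomology (idClassRep ℚ (fixedField V) (fixedField U)) 1, p • x = 0 → x = 0 := by
  letI := algebraOfLE (lvq_fixedField_le hUV)
  haveI := isScalarTower_of_le (lvq_fixedField_le hUV)
  haveI := lvq_numberField_fixedField S hV
  haveI := lvq_numberField_fixedField S (lvq_isOpenFor_of_mem S hU)
  haveI := lvq_isGalois hU hUV
  intro x hx
  exact idClassF_H1_eq_zero_of_nsmul ℚ (fixedField V) (fixedField U) p hp2
    (fcLv_exists_primitiveRoot p S hV hcyc) x hx

section H2

variable (hp2 : p ≠ 2) (hV : IsOpenFor (famS S) V) (hcyc : ∀ s ∈ V, cycloChar p s = 1)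
  (hU : U ∈ (famS S).sets) (hUV : U ≤ V)

include hp2 hV hcyc hU hUV

/-- **finite-level (C-A5a)**: `H²(Gal(L/M), C_L)[p]` is finite with at most `p` elements,
`M = fixedField V`, `L = fixedField U`. -/
theorem fcLv_natCard_torsion_H2_le :
    letI := algebraOfLE (lvq_fixedField_le hUV)
    haveI := isScalarTower_of_le (lvq_fixedField_le hUV)
    haveI := lvq_numberField_fixedField S hV
    haveI := lvq_numberField_fixedField S (lvq_isOpenFor_of_mem S hU)
    Finite (nsmulAddMonoidHom
        (α := groupCohomology (idClassRep ℚ (fixedField V) (fixedField U)) 2) p).ker ∧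
      Nat.card (nsmulAddMonoidHom
        (α := groupCohomology (idClassRep ℚ (fixedField V) (fixedField U)) 2) p).ker ≤ p := by
  have h0 : cycloKf p ≤ fixedField V := fcLv_cycloKf_le p S hV hcyc
  have h1 : fixedField V ≤ fixedField U := lvq_fixedField_le hUV
  letI := algebraOfLE h1
  haveI := isScalarTower_of_le h1
  haveI := lvq_numberField_fixedField S hV
  haveI := lvq_numberField_fixedField S (lvq_isOpenFor_of_mem S hU)
  haveI := lvq_isGalois hU hUV
  letI a0 : Algebra (cycloKf p) (fixedField V) := algebraOfLE h0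
  letI a1 : Algebra (cycloKf p) (fixedField U) := algebraOfLE (h0.trans h1)
  haveI : IsScalarTower (cycloKf p) (fixedField V) (fixedField U) :=
    IsScalarTower.of_algebraMap_eq fun _ => rfl
  haveI : IsScalarTower ℚ (cycloKf p) (fixedField U) := isScalarTower_of_le (h0.trans h1)
  haveI : IsGalois ℚ (fixedField U) := lvq_isGalois_of_mem S hU
  haveI : IsGalois (cycloKf p) (fixedField U) :=
    IsGalois.tower_top_of_isGalois ℚ (cycloKf p) (fixedField U)
  exact fcFin_natCard_torsion_H2_le (cycloKf p) (fixedField V) (fixedField U) p hp2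
    ⟨zetaKf p, zetaKf_spec p⟩

/-- `H³(Gal(L/M), C_L)` has no `p`-torsion, `M = fixedField V`, `L = fixedField U`. -/
theorem fcLv_H3_eq_zero_of_pow_nsmul :
    letI := algebraOfLE (lvq_fixedField_le hUV)
    haveI := isScalarTower_of_le (lvq_fixedField_le hUV)
    haveI := lvq_numberField_fixedField S hV
    haveI := lvq_numberField_fixedField S (lvq_isOpenFor_of_mem S hU)
    ∀ (x : groupCohomology (idClassRep ℚ (fixedField V) (fixedField U)) 3) (j : ℕ),
      p ^ j • x = 0 → x = 0 := by
  have h0 : cycloKf p ≤ fixedField V := fcLv_cycloKf_le p S hV hcyc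
  have h1 : fixedField V ≤ fixedField U := lvq_fixedField_le hUV
  letI := algebraOfLE h1
  haveI := isScalarTower_of_le h1
  haveI := lvq_numberField_fixedField S hV
  haveI := lvq_numberField_fixedField S (lvq_isOpenFor_of_mem S hU)
  haveI := lvq_isGalois hU hUV
  letI a0 : Algebra (cycloKf p) (fixedField V) := algebraOfLE h0
  letI a1 : Algebra (cycloKf p) (fixedField U) := algebraOfLE (h0.trans h1)
  haveI : IsScalarTower (cycloKf p) (fixedField V) (fixedField U) :=
    IsScalarTower.of_algebraMap_eq fun _ => rfl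
  haveI : IsScalarTower ℚ (cycloKf p) (fixedField U) := isScalarTower_of_le (h0.trans h1)
  haveI : IsGalois ℚ (fixedField U) := lvq_isGalois_of_mem S hU
  haveI : IsGalois (cycloKf p) (fixedField U) :=
    IsGalois.tower_top_of_isGalois ℚ (cycloKf p) (fixedField U)
  intro x j hx
  exact fcFin_H3_eq_zero_of_pow_nsmul (cycloKf p) (fixedField V) (fixedField U) p hp2
    ⟨zetaKf p, zetaKf_spec p⟩ x hx

end H2

end Fermat.Agent.PT
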