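import Mathlib
import Fermat.Agent.CFT.S14.FieldL

set_option autoImplicit false
set_option linter.unusedSectionVars false
set_option linter.style.haveILetI false

/-!
# S55 (K9) bridge, group side: the finite layer of a RELATIVELY normal pair `N ⊴ H`

(helper20)  Generic infinite Galois theory (Mathlib + `S14/FieldL.lean`).  `E / k` Galois,
`N ≤ H` subgroups of `Gal(E/k)`, `N` open, `N` normal **in `H`** only (`(N.subgroupOf H).Normal`),
so `L := fixedField N` is in general NOT normal over `k`, but it is Galois over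
`M := fixedField H`:

* `lvqR_map_mem` : `h ∈ H`, `x ∈ L` ⟹ `h x ∈ L`;
* `lvqR_pi hNH hn : ↥H →* Gal(L/M)` (restriction), `lvqR_pi_apply`, `lvqR_pi_eq_one_iff`,
  `lvqR_pi_ker` (`= N.subgroupOf H`), `lvqR_pi_surjective`, `lvqR_card_gal` (`= N.relIndex H`),
  `lvqR_finrank`, `lvqR_isGalois`;
* `lvqR_toBase hNH hn h : L ≃ₐ[k] L` (the same map, as a `k`-automorphism of `L`);
* prime index: `lvqR_mem_zpowers`, `lvqR_pow_bijective`, `lvqR_prod_eq_prod_range`.
-/

namespace Fermat.Agent.PT

open IntermediateField Fermat.Agent.CFT.S14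

section Generic

variable {k E : Type*} [Field k] [Field E] [Algebra k E] [IsGalois k E]
variable {N H : Subgroup (E ≃ₐ[k] E)}

/-- `H` normalises `N` ⟹ `H` preserves `fixedField N`. -/
theorem lvqR_map_mem (hNH : N ≤ H) (hn : (N.subgroupOf H).Normal) {h : E ≃ₐ[k] E} (hh : h ∈ H)
    {x : E} (hx : x ∈ fixedField N) : h x ∈ fixedField N := by
  rw [IntermediateField.mem_fixedField_iff] at hx ⊢
  intro u hu
  have h1 : (⟨h⁻¹, H.inv_mem hh⟩ : H) * ⟨u, hNH hu⟩ * (⟨h⁻¹, H.inv_mem hh⟩ : H)⁻¹ ∈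
      N.subgroupOf H := hn.conj_mem ⟨u, hNH hu⟩ (by rwa [Subgroup.mem_subgroupOf]) _
  rw [Subgroup.mem_subgroupOf] at h1
  have h2 : (h⁻¹ * u * h⁻¹⁻¹) x = x := hx _ h1
  rw [inv_inv] at h2
  have h3 : h ((h⁻¹ * u * h) x) = h x := congrArg h h2
  rw [AlgEquiv.mul_apply, AlgEquiv.mul_apply] at h3
  rwa [show h (h⁻¹ (u (h x))) = u (h x) from (h.apply_symm_apply _)] at h3

/-- restriction `H → Gal(fixedField N / fixedField H)` for `N` normal in `H`. -/
noncomputable def lvqR_pi (hNH : N ≤ H) (hn : (N.subgroupOf H).Normal) :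
    H →* (letI := algebraOfLE (fixedField_le_of_le hNH);
      fixedField N ≃ₐ[fixedField H] fixedField N) :=
  letI := algebraOfLE (fixedField_le_of_le hNH)
  { toFun := fun h =>
      { toFun := fun x => ⟨h.1 x.1, lvqR_map_mem hNH hn h.2 x.2⟩
        invFun := fun x => ⟨h.1⁻¹ x.1, lvqR_map_mem hNH hn (H.inv_mem h.2) x.2⟩
        left_inv := fun x => Subtype.ext (h.1.symm_apply_apply x.1)
        right_inv := fun x => Subtype.ext (h.1.apply_symm_apply x.1)
        map_mul' := fun x y => Subtype.ext (map_mul h.1 x.1 y.1)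
        map_add' := fun x y => Subtype.ext (map_add h.1 x.1 y.1)
        commutes' := fun r => Subtype.ext
          ((IntermediateField.mem_fixedField_iff _ _).1 r.2 h.1 h.2) }
    map_one' := AlgEquiv.ext fun x => Subtype.ext rfl
    map_mul' := fun h h' => AlgEquiv.ext fun x => Subtype.ext rfl }

theorem lvqR_pi_apply (hNH : N ≤ H) (hn : (N.subgroupOf H).Normal) (h : H)
    (x : fixedField N) :
    letI := algebraOfLE (fixedField_le_of_le hNH)
    ((lvqR_pi hNH hn h x : fixedField N) : E) = h.1 (x : E) := rfl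

theorem lvqR_pi_eq_one_iff (hNH : N ≤ H) (hn : (N.subgroupOf H).Normal)
    (hN : IsOpen (N : Set (E ≃ₐ[k] E))) (h : H) :
    lvqR_pi hNH hn h = 1 ↔ h.1 ∈ N := by
  letI := algebraOfLE (fixedField_le_of_le hNH)
  have hfix := fixingSubgroup_fixedField_of_isOpen N hN
  constructor
  · intro h1
    have h2 : h.1 ∈ (fixedField N).fixingSubgroup := by
      intro x
      have := congrArg
        (fun f : fixedField N ≃ₐ[fixedField H] fixedField N => ((f x : fixedField N) : E)) h1
      exact this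
    exact hfix.le h2
  · intro h1
    have h2 : h.1 ∈ (fixedField N).fixingSubgroup := hfix.ge h1
    apply AlgEquiv.ext
    intro x
    apply Subtype.ext
    exact h2 x

theorem lvqR_pi_ker (hNH : N ≤ H) (hn : (N.subgroupOf H).Normal)
    (hN : IsOpen (N : Set (E ≃ₐ[k] E))) :
    (lvqR_pi hNH hn).ker = N.subgroupOf H := by
  ext h
  rw [MonoidHom.mem_ker, lvqR_pi_eq_one_iff hNH hn hN, Subgroup.mem_subgroupOf]

theorem lvqR_pi_surjective (hNH : N ≤ H) (hn : (N.subgroupOf H).Normal)
    (hN : IsOpen (N : Set (E ≃ₐ[k] E))) :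
    Function.Surjective (lvqR_pi hNH hn) := by
  letI := algebraOfLE (fixedField_le_of_le hNH)
  haveI := isScalarTower_of_le (fixedField_le_of_le hNH)
  intro g
  let σ : E ≃ₐ[k] E := (g.restrictScalars k).liftNormal E
  have hσ : ∀ x : fixedField N, σ (x : E) = ((g x : fixedField N) : E) := fun x =>
    (g.restrictScalars k).liftNormal_commutes E x
  have hH : (fixedField H).fixingSubgroup = H :=
    fixingSubgroup_fixedField_of_isOpen H (isOpen_of_le_of_isOpen hNH hN)
  have hmem : σ ∈ H := by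
    rw [← hH]
    intro x
    have h1 := hσ (algebraMap (fixedField H) (fixedField N) x)
    rw [g.commutes] at h1
    exact h1
  refine ⟨⟨σ, hmem⟩, ?_⟩
  apply AlgEquiv.ext
  intro x
  apply Subtype.ext
  exact hσ x

/-- `Gal(fixedField N / fixedField H) ≃ H / N`. -/
noncomputable def lvqR_piEquiv (hNH : N ≤ H) (hn : (N.subgroupOf H).Normal)
    (hN : IsOpen (N : Set (E ≃ₐ[k] E))) :
    (H ⧸ (lvqR_pi hNH hn).ker) ≃*
      (letI := algebraOfLE (fixedField_le_of_le hNH);
        fixedField N ≃ₐ[fixedField H] fixedField N) :=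
  QuotientGroup.quotientKerEquivOfSurjective _ (lvqR_pi_surjective hNH hn hN)

theorem lvqR_card_gal (hNH : N ≤ H) (hn : (N.subgroupOf H).Normal)
    (hN : IsOpen (N : Set (E ≃ₐ[k] E))) :
    letI := algebraOfLE (fixedField_le_of_le hNH)
    Nat.card (fixedField N ≃ₐ[fixedField H] fixedField N) = N.relIndex H := by
  letI := algebraOfLE (fixedField_le_of_le hNH)
  rw [← Nat.card_congr (lvqR_piEquiv hNH hn hN).toEquiv, lvqR_pi_ker hNH hn hN]
  rfl

theorem lvqR_finrank (hNH : N ≤ H) (hN : IsOpen (N : Set (E ≃ₐ[k] E))) :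
    letI := algebraOfLE (fixedField_le_of_le hNH)
    Module.finrank (fixedField H) (fixedField N) = N.relIndex H := by
  letI := algebraOfLE (fixedField_le_of_le hNH)
  haveI := isScalarTower_of_le (fixedField_le_of_le hNH)
  have hH := isOpen_of_le_of_isOpen hNH hN
  haveI := finiteDimensional_fixedField_of_isOpen H hH
  have h1 := Module.finrank_mul_finrank k (fixedField H) (fixedField N)
  rw [finrank_eq_fixingSubgroup_index, finrank_eq_fixingSubgroup_index,
    fixingSubgroup_fixedField_of_isOpen N hN, fixingSubgroup_fixedField_of_isOpen H hH,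
    ← Subgroup.relIndex_mul_index hNH, mul_comm] at h1
  have h2 : H.index ≠ 0 := by
    rw [← fixingSubgroup_fixedField_of_isOpen H hH, ← finrank_eq_fixingSubgroup_index]
    exact Module.finrank_pos.ne'
  exact Nat.eq_of_mul_eq_mul_right (Nat.pos_of_ne_zero h2) h1

theorem lvqR_isGalois (hNH : N ≤ H) (hn : (N.subgroupOf H).Normal)
    (hN : IsOpen (N : Set (E ≃ₐ[k] E))) :
    letI := algebraOfLE (fixedField_le_of_le hNH)
    IsGalois (fixedField H) (fixedField N) := by
  letI := algebraOfLE (fixedField_le_of_le hNH)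
  haveI := isScalarTower_of_le (fixedField_le_of_le hNH)
  haveI := finiteDimensional_fixedField_of_isOpen N hN
  haveI : FiniteDimensional (fixedField H) (fixedField N) :=
    FiniteDimensional.right k (fixedField H) (fixedField N)
  apply IsGalois.of_card_aut_eq_finrank
  rw [lvqR_card_gal hNH hn hN, lvqR_finrank hNH hN]

end Generic

section PrimeCard

variable {Q : Type*} [Group Q]

/-- in a group of prime order every element is a power of any non-trivial element. -/
theorem lvqR_mem_zpowers_of_card {p : ℕ} (hp : p.Prime) (hcard : Nat.card Q = p) {g : Q}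
    (hg : g ≠ 1) (τ : Q) : τ ∈ Subgroup.zpowers g := by
  haveI : Fact p.Prime := ⟨hp⟩
  rw [zpowers_eq_top_of_prime_card hcard hg]
  exact Subgroup.mem_top τ

/-- the powers `g⁰, …, g^{p-1}` of a non-trivial element enumerate a group of prime order `p`. -/
theorem lvqR_pow_bijective_of_card {p : ℕ} (hp : p.Prime) (hcard : Nat.card Q = p) {g : Q}
    (hg : g ≠ 1) : Function.Bijective fun l : Fin p => g ^ (l : ℕ) := by
  have hfin : Finite Q := Nat.finite_of_card_ne_zero (hcard ▸ hp.ne_zero)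
  have hord : orderOf g = p := by
    have h1 : orderOf g ∣ p := hcard ▸ orderOf_dvd_natCard _
    rcases (Nat.dvd_prime hp).1 h1 with h | h
    · exact absurd (orderOf_eq_one_iff.1 h) hg
    · exact h
  have hinj : Function.Injective fun l : Fin p => g ^ (l : ℕ) := by
    intro a b hab
    apply Fin.ext
    exact pow_injOn_Iio_orderOf (by rw [Set.mem_Iio, hord]; exact a.2)
      (by rw [Set.mem_Iio, hord]; exact b.2) hab
  refine hinj.bijective_of_nat_card_le ?_
  rw [hcard, Nat.card_eq_fintype_card, Fintype.card_fin]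

/-- a product over a group of prime order `p` is the product over the powers `g^i`, `i < p`. -/
theorem lvqR_prod_eq_prod_range_of_card {p : ℕ} (hp : p.Prime) (hcard : Nat.card Q = p) {g : Q}
    (hg : g ≠ 1) [Fintype Q] {A : Type*} [CommMonoid A] (F : Q → A) :
    ∏ t : Q, F t = ∏ i ∈ Finset.range p, F (g ^ i) := by
  rw [← Fin.prod_univ_eq_prod_range (fun i => F (g ^ i)) p]
  exact (Fintype.prod_bijective _ (lvqR_pow_bijective_of_card hp hcard hg) _ _
    (fun _ => rfl)).symm

end PrimeCard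

section PrimeIndex

variable {k E : Type*} [Field k] [Field E] [Algebra k E] [IsGalois k E]
variable {N H : Subgroup (E ≃ₐ[k] E)}

theorem lvqR_pi_ne_one (hNH : N ≤ H) (hn : (N.subgroupOf H).Normal)
    (hN : IsOpen (N : Set (E ≃ₐ[k] E))) {σ : E ≃ₐ[k] E} (hσH : σ ∈ H) (hσN : σ ∉ N) :
    lvqR_pi hNH hn ⟨σ, hσH⟩ ≠ 1 := fun h =>
  hσN ((lvqR_pi_eq_one_iff hNH hn hN ⟨σ, hσH⟩).1 h)

/-- prime index: `Gal(L/M)` is generated by the restriction of any `σ ∈ H ∖ N`. -/
theorem lvqR_mem_zpowers (hNH : N ≤ H) (hn : (N.subgroupOf H).Normal)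
    (hN : IsOpen (N : Set (E ≃ₐ[k] E))) {p : ℕ} (hp : p.Prime) (hidx : N.relIndex H = p)
    {σ : E ≃ₐ[k] E} (hσH : σ ∈ H) (hσN : σ ∉ N) :
    letI := algebraOfLE (fixedField_le_of_le hNH)
    ∀ τ : fixedField N ≃ₐ[fixedField H] fixedField N,
      τ ∈ Subgroup.zpowers (lvqR_pi hNH hn ⟨σ, hσH⟩) := by
  letI := algebraOfLE (fixedField_le_of_le hNH)
  exact lvqR_mem_zpowers_of_card hp ((lvqR_card_gal hNH hn hN).trans hidx)
    (lvqR_pi_ne_one hNH hn hN hσH hσN)

theorem lvqR_pow_bijective (hNH : N ≤ H) (hn : (N.subgroupOf H).Normal)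
    (hN : IsOpen (N : Set (E ≃ₐ[k] E))) {p : ℕ} (hp : p.Prime) (hidx : N.relIndex H = p)
    {σ : E ≃ₐ[k] E} (hσH : σ ∈ H) (hσN : σ ∉ N) :
    letI := algebraOfLE (fixedField_le_of_le hNH)
    Function.Bijective fun l : Fin p => lvqR_pi hNH hn ⟨σ, hσH⟩ ^ (l : ℕ) := by
  letI := algebraOfLE (fixedField_le_of_le hNH)
  exact lvqR_pow_bijective_of_card hp ((lvqR_card_gal hNH hn hN).trans hidx)
    (lvqR_pi_ne_one hNH hn hN hσH hσN)

/-- prime index: a product over `Gal(L/M)` is the product over `σ⁰, …, σ^{p-1}` restricted. -/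
theorem lvqR_prod_eq_prod_range (hNH : N ≤ H) (hn : (N.subgroupOf H).Normal)
    (hN : IsOpen (N : Set (E ≃ₐ[k] E))) {p : ℕ} (hp : p.Prime) (hidx : N.relIndex H = p)
    {σ : E ≃ₐ[k] E} (hσH : σ ∈ H) (hσN : σ ∉ N)
    [Fintype (letI := algebraOfLE (fixedField_le_of_le hNH);
      fixedField N ≃ₐ[fixedField H] fixedField N)] {A : Type*} [CommMonoid A]
    (F : (letI := algebraOfLE (fixedField_le_of_le hNH);
      fixedField N ≃ₐ[fixedField H] fixedField N) → A) :
    ∏ t, F t = ∏ i ∈ Finset.range p, F (lvqR_pi hNH hn (⟨σ, hσH⟩ ^ i)) := by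
  letI := algebraOfLE (fixedField_le_of_le hNH)
  rw [lvqR_prod_eq_prod_range_of_card hp ((lvqR_card_gal hNH hn hN).trans hidx)
    (lvqR_pi_ne_one hNH hn hN hσH hσN) F]
  exact Finset.prod_congr rfl fun i _ => by rw [map_pow]

end PrimeIndex

end Fermat.Agent.PT
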