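import Mathlib
import Fermat.Agent.CFT.Bridge.Places

set_option autoImplicit false
set_option linter.style.haveILetI false
set_option linter.unusedSectionVars false

/-!
# CFT S55 bridge (GB-D4): the semilocal algebra `ℚ_q ⊗ L` and the `PadicAlgCl q` model

`L` a field with an embedding `j : L →ₐ[ℚ] Q̄` (e.g. `L = ↥K`, `j = K.val`), `K = j.fieldRange`,
`ι = padicEmbedding q : Q̄ → Q̄_q = PadicAlgCl q`, `r = localGaloisToGlobal q`,
`K_w = localLevel q K = ℚ_q · ι K`.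

* `slL_evalAt q j g : ℚ_q ⊗ L →ₐ[ℚ_q] Q̄_q`, `a ⊗ x ↦ a · ι (g (j x))`; `slL_eval = slL_evalAt 1`.
* `slL_range_eval`, `slL_evalLevel` (surjective onto `K_w`), `slL_quotEquiv : (ℚ_q ⊗ L) ⧸ m₀ ≃ₐ K_w`,
  `slL_ker_isMaximal`.
* `slL_act q σ₀` (action of `Aut(L/ℚ)` on the right factor), `slL_evalAt_act`,
  `slL_evalAt_local_mul`, `slL_evalAt_mul_fixing`.
* `slL_stabilizer_iff` : `σ₀` maps `m₀` into itself iff `j ∘ σ₀ = r τ ∘ j` for some local `τ`.
* `slL_eq_zero_of_forall_evalAt`, `slL_evalFun_injective` (discriminant).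
* `slL_coindFun q K` : the left-`D_q`-equivariant right-`G_K`-invariant functions
  `Gal(Q̄/ℚ) → Q̄_q`; `slL_range_evalFun`, `slL_coindEquiv : ℚ_q ⊗ L ≃ₐ slL_coindFun q K`.
* `slL_prodEquiv : ℚ_q ⊗ L ≃ₐ (Gal(Q̄/ℚ) ⧸ (G_K · D_q) → K_w)`.
* unit groups: `slL_unitFun`, `slL_unitFun_injective`, `slL_exists_unitFun_eq`.
-/

namespace Fermat.Agent.CFT

open IntermediateField NumberField TensorProduct
open scoped Pointwise

section SemiLocal

variable (q : ℕ) [Fact q.Prime]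

local notation "Qb" => AlgebraicClosure ℚ
local notation "Ω" => PadicAlgCl q

variable {L : Type} [Field L] [Algebra ℚ L] (j : L →ₐ[ℚ] Qb)

/-- `ℚ_q ⊗ L → Q̄_q`, `a ⊗ x ↦ a · ι (g (j x))`. -/
noncomputable def slL_evalAt (g : Qb ≃ₐ[ℚ] Qb) : ℚ_[q] ⊗[ℚ] L →ₐ[ℚ_[q]] Ω :=
  Algebra.TensorProduct.lift (Algebra.ofId ℚ_[q] Ω)
    (((padicEmbedding q).comp (g : Qb →ₐ[ℚ] Qb)).comp j) (fun _ _ => Commute.all _ _)

theorem slL_evalAt_tmul (g : Qb ≃ₐ[ℚ] Qb) (a : ℚ_[q]) (x : L) :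
    slL_evalAt q j g (a ⊗ₜ x) = algebraMap ℚ_[q] Ω a * padicEmbedding q (g (j x)) := by
  rw [slL_evalAt, Algebra.TensorProduct.lift_tmul]
  rfl

/-- `ℚ_q ⊗ L → Q̄_q`, `a ⊗ x ↦ a · ι (j x)`. -/
noncomputable def slL_eval : ℚ_[q] ⊗[ℚ] L →ₐ[ℚ_[q]] Ω := slL_evalAt q j 1

theorem slL_eval_tmul (a : ℚ_[q]) (x : L) :
    slL_eval q j (a ⊗ₜ x) = algebraMap ℚ_[q] Ω a * padicEmbedding q (j x) :=
  slL_evalAt_tmul q j 1 a x

local instance isAlgebraicQbar_sl : Algebra.IsAlgebraic ℚ (AlgebraicClosure ℚ) :=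
  AlgebraicClosure.isAlgebraic ℚ
local instance isAlgClosureQbar_sl : IsAlgClosure ℚ (AlgebraicClosure ℚ) :=
  ⟨inferInstance, inferInstance⟩
local instance normalQbar_sl : Normal ℚ (AlgebraicClosure ℚ) :=
  IsAlgClosure.normal ℚ (AlgebraicClosure ℚ)
local instance normalPadicAlgCl_sl : Normal ℚ_[q] (PadicAlgCl q) :=
  IsAlgClosure.normal ℚ_[q] (PadicAlgCl q)
local instance isGaloisPadicAlgCl_sl : IsGalois ℚ_[q] (PadicAlgCl q) :=
  ⟨⟩

omit [Fact q.Prime] in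
/-- the image of a normal `L` in `Q̄` is stable under `Gal(Q̄/ℚ)` -/
theorem slL_exists_apply_eq [Normal ℚ L] (g : Qb ≃ₐ[ℚ] Qb) (x : L) :
    ∃ y : L, j y = g (j x) := by
  have hs := (‹Normal ℚ L›).splits x
  have hint : IsIntegral ℚ x := (‹Normal ℚ L›).isIntegral x
  have hf0 : (minpoly ℚ x).map (algebraMap ℚ L) ≠ 0 :=
    Polynomial.map_ne_zero (minpoly.ne_zero hint)
  have hroot : (((minpoly ℚ x).map (algebraMap ℚ L)).map (j : L →+* Qb)).IsRoot (g (j x)) := by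
    rw [Polynomial.map_map, Polynomial.IsRoot.def, Polynomial.eval_map,
      show (j : L →+* Qb).comp (algebraMap ℚ L) = algebraMap ℚ Qb from Subsingleton.elim _ _,
      ← Polynomial.aeval_def]
    have h1 : Polynomial.aeval (g (j x)) (minpoly ℚ x) =
        g (j (Polynomial.aeval x (minpoly ℚ x))) := by
      rw [Polynomial.aeval_algHom_apply, Polynomial.aeval_algHom_apply]
    rw [h1, minpoly.aeval, map_zero, map_zero]
  exact hs.mem_range_of_isRoot hf0 hroot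

theorem slL_evalAt_mem [Normal ℚ L] (g : Qb ≃ₐ[ℚ] Qb) (t : ℚ_[q] ⊗[ℚ] L) :
    slL_evalAt q j g t ∈ localLevel q j.fieldRange := by
  induction t using TensorProduct.induction_on with
  | zero => rw [map_zero]; exact zero_mem _
  | tmul a x =>
    rw [slL_evalAt_tmul]
    obtain ⟨y, hy⟩ := slL_exists_apply_eq j g x
    rw [← hy]
    exact mul_mem (IntermediateField.algebraMap_mem _ a)
      (padicEmbedding_mem_localLevel ⟨y, rfl⟩)
  | add t t' ht ht' => rw [map_add]; exact add_mem ht ht'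

theorem slL_range_eval : (slL_eval q j).range = (localLevel q j.fieldRange).toSubalgebra := by
  apply le_antisymm
  · rintro _ ⟨t, rfl⟩
    induction t using TensorProduct.induction_on with
    | zero => rw [map_zero]; exact zero_mem _
    | tmul a x =>
      change slL_eval q j (a ⊗ₜ x) ∈ _
      rw [slL_eval_tmul]
      exact mul_mem (IntermediateField.algebraMap_mem _ a)
        (padicEmbedding_mem_localLevel ⟨x, rfl⟩)
    | add t t' ht ht' =>
      change slL_eval q j (t + t') ∈ _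
      rw [map_add]; exact add_mem ht ht'
  · rw [localLevel, IntermediateField.adjoin_toSubalgebra, Algebra.adjoin_le_iff]
    rintro _ ⟨_, ⟨x, rfl⟩, rfl⟩
    refine ⟨(1 : ℚ_[q]) ⊗ₜ x, ?_⟩
    change slL_eval q j _ = _
    rw [slL_eval_tmul, map_one, one_mul]
    rfl

theorem slL_eval_mem (t : ℚ_[q] ⊗[ℚ] L) : slL_eval q j t ∈ localLevel q j.fieldRange := by
  have : slL_eval q j t ∈ (slL_eval q j).range := ⟨t, rfl⟩
  rw [slL_range_eval] at this
  exact this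

/-- `ℚ_q ⊗ L ↠ L_w = ℚ_q · ι (j L)` -/
noncomputable def slL_evalLevel : ℚ_[q] ⊗[ℚ] L →ₐ[ℚ_[q]] localLevel q j.fieldRange :=
  (slL_eval q j).codRestrict (localLevel q j.fieldRange).toSubalgebra (slL_eval_mem q j)

theorem slL_evalLevel_coe (t : ℚ_[q] ⊗[ℚ] L) :
    ((slL_evalLevel q j t : localLevel q j.fieldRange) : Ω) = slL_eval q j t := rfl

theorem slL_evalLevel_surjective : Function.Surjective (slL_evalLevel q j) := by
  rintro ⟨y, hy⟩
  have : y ∈ (slL_eval q j).range := by rw [slL_range_eval]; exact hy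
  obtain ⟨t, rfl⟩ := this
  exact ⟨t, Subtype.ext rfl⟩

/-- **`(ℚ_q ⊗ L) / m₀ ≅ L_w`**, `m₀ = ker (a ⊗ x ↦ a · ι (j x))`. -/
noncomputable def slL_quotEquiv :
    ((ℚ_[q] ⊗[ℚ] L) ⧸ RingHom.ker (slL_evalLevel q j)) ≃ₐ[ℚ_[q]] localLevel q j.fieldRange :=
  Ideal.quotientKerAlgEquivOfSurjective (slL_evalLevel_surjective q j)

theorem slL_ker_isMaximal : (RingHom.ker (slL_evalLevel q j)).IsMaximal :=
  RingHom.ker_isMaximal_of_surjective _ (slL_evalLevel_surjective q j)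

theorem slL_mem_ker_iff (t : ℚ_[q] ⊗[ℚ] L) :
    t ∈ RingHom.ker (slL_evalLevel q j) ↔ slL_eval q j t = 0 := by
  rw [RingHom.mem_ker, Subtype.ext_iff]
  rfl

/-! ### the action of `Aut(L/ℚ)` and the stabiliser of `m₀` -/

/-- the action of `σ₀ ∈ Aut(L/ℚ)` on `ℚ_q ⊗ L` through the right factor -/
noncomputable def slL_act (σ₀ : L ≃ₐ[ℚ] L) : ℚ_[q] ⊗[ℚ] L →ₐ[ℚ_[q]] ℚ_[q] ⊗[ℚ] L :=
  Algebra.TensorProduct.map (AlgHom.id ℚ_[q] ℚ_[q]) (σ₀ : L →ₐ[ℚ] L)

theorem slL_act_tmul (σ₀ : L ≃ₐ[ℚ] L) (a : ℚ_[q]) (x : L) :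
    slL_act q σ₀ (a ⊗ₜ x) = a ⊗ₜ σ₀ x := by
  rw [slL_act, Algebra.TensorProduct.map_tmul]
  rfl

/-- right translation of the evaluation point = action on the right tensor factor -/
theorem slL_evalAt_act (g g' : Qb ≃ₐ[ℚ] Qb) (σ₀ : L ≃ₐ[ℚ] L) (h : ∀ x, j (σ₀ x) = g (j x))
    (t : ℚ_[q] ⊗[ℚ] L) :
    slL_evalAt q j g' (slL_act q σ₀ t) = slL_evalAt q j (g' * g) t := by
  induction t using TensorProduct.induction_on with
  | zero => rw [map_zero, map_zero, map_zero]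
  | tmul a x => rw [slL_act_tmul, slL_evalAt_tmul, slL_evalAt_tmul, h, AlgEquiv.mul_apply]
  | add t t' ht ht' => rw [map_add, map_add, map_add, ht, ht']

/-- left equivariance: `ev_{r(h) g} = h ∘ ev_g` -/
theorem slL_evalAt_local_mul (h : Ω ≃ₐ[ℚ_[q]] Ω) (g : Qb ≃ₐ[ℚ] Qb) (t : ℚ_[q] ⊗[ℚ] L) :
    slL_evalAt q j (localGaloisToGlobal q h * g) t = h (slL_evalAt q j g t) := by
  induction t using TensorProduct.induction_on with
  | zero => rw [map_zero, map_zero, map_zero]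
  | tmul a x =>
    rw [slL_evalAt_tmul, slL_evalAt_tmul, AlgEquiv.mul_apply, padicEmbedding_localGaloisToGlobal,
      map_mul, AlgEquiv.commutes]
  | add t t' ht ht' => rw [map_add, map_add, map_add, ht, ht']

/-- right invariance under `G_K`, `K = j L` -/
theorem slL_evalAt_mul_fixing (g u : Qb ≃ₐ[ℚ] Qb) (hu : u ∈ j.fieldRange.fixingSubgroup)
    (t : ℚ_[q] ⊗[ℚ] L) :
    slL_evalAt q j (g * u) t = slL_evalAt q j g t := by
  induction t using TensorProduct.induction_on with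
  | zero => rw [map_zero, map_zero]
  | tmul a x =>
    rw [slL_evalAt_tmul, slL_evalAt_tmul, AlgEquiv.mul_apply,
      (IntermediateField.mem_fixingSubgroup_iff _ _).mp hu (j x) ⟨x, rfl⟩]
  | add t t' ht ht' => rw [map_add, map_add, ht, ht']

theorem slL_eval_act_of_local (σ₀ : L ≃ₐ[ℚ] L) (τ : Ω ≃ₐ[ℚ_[q]] Ω)
    (h : ∀ x, j (σ₀ x) = localGaloisToGlobal q τ (j x)) (t : ℚ_[q] ⊗[ℚ] L) :
    slL_eval q j (slL_act q σ₀ t) = τ (slL_eval q j t) := by
  rw [slL_eval, slL_evalAt_act q j (localGaloisToGlobal q τ) 1 σ₀ h, one_mul,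
    ← mul_one (localGaloisToGlobal q τ), slL_evalAt_local_mul]

/-- `Σ c_i ⊗ β^i ↦ p(ι (g (j β)))` -/
theorem slL_evalAt_sum_pow (g : Qb ≃ₐ[ℚ] Qb) (p : Polynomial ℚ_[q]) (β : L) :
    slL_evalAt q j g (∑ i ∈ Finset.range (p.natDegree + 1), p.coeff i ⊗ₜ[ℚ] (β ^ i)) =
      Polynomial.aeval (padicEmbedding q (g (j β))) p := by
  rw [map_sum, Polynomial.aeval_eq_sum_range]
  refine Finset.sum_congr rfl fun i _ => ?_
  rw [slL_evalAt_tmul, map_pow, map_pow, map_pow, Algebra.smul_def]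

/-- **Stabiliser of `m₀`**: `σ₀ ∈ Aut(L/ℚ)` maps `m₀ = ker (a ⊗ x ↦ a · ι (j x))` into itself iff it
is induced by an element of the local Galois group. -/
theorem slL_stabilizer_iff [FiniteDimensional ℚ L] (σ₀ : L ≃ₐ[ℚ] L) :
    (∀ t, slL_eval q j t = 0 → slL_eval q j (slL_act q σ₀ t) = 0) ↔
      ∃ τ : Ω ≃ₐ[ℚ_[q]] Ω, ∀ x, j (σ₀ x) = localGaloisToGlobal q τ (j x) := by
  constructor
  · intro h
    obtain ⟨β, hβ⟩ := Field.exists_primitive_element ℚ L
    set y : Ω := padicEmbedding q (j β) with hy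
    have halg : IsAlgebraic ℚ_[q] y := Algebra.IsAlgebraic.isAlgebraic _
    set p := minpoly ℚ_[q] y with hp
    have h0 : slL_eval q j (∑ i ∈ Finset.range (p.natDegree + 1), p.coeff i ⊗ₜ[ℚ] (β ^ i)) = 0 := by
      rw [slL_eval, slL_evalAt_sum_pow, AlgEquiv.one_apply]
      exact minpoly.aeval _ _
    have h1 := h _ h0
    rw [map_sum] at h1
    simp_rw [slL_act_tmul, map_pow] at h1
    rw [slL_eval, slL_evalAt_sum_pow, AlgEquiv.one_apply] at h1
    obtain ⟨τ, hτ⟩ := minpoly.exists_algEquiv_of_root' halg h1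
    refine ⟨τ, ?_⟩
    -- two embeddings of `L` agreeing at the primitive element
    have hsplit : ∀ x : L, ((minpoly ℚ x).map (algebraMap ℚ Ω)).Splits := fun x =>
      IsAlgClosed.splits _
    have hinj := (Field.primitive_element_iff_algHom_eq_of_eval' ℚ Ω hsplit β).mp hβ
    let φ₁ : L →ₐ[ℚ] Ω := ((padicEmbedding q).comp j).comp (σ₀ : L →ₐ[ℚ] L)
    let φ₂ : L →ₐ[ℚ] Ω :=
      ((padicEmbedding q).comp (localGaloisToGlobal q τ : Qb →ₐ[ℚ] Qb)).comp j
    have h12 : φ₁ = φ₂ := by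
      apply hinj
      change padicEmbedding q (j (σ₀ β)) = padicEmbedding q (localGaloisToGlobal q τ (j β))
      rw [padicEmbedding_localGaloisToGlobal, hτ]
    intro x
    have := DFunLike.congr_fun h12 x
    exact (padicEmbedding q).toRingHom.injective this
  · rintro ⟨τ, hτ⟩ t ht
    rw [slL_eval_act_of_local q j σ₀ τ hτ, ht, map_zero]

end SemiLocal

section SemiLocal2

variable (q : ℕ) [Fact q.Prime]

local notation "Qb" => AlgebraicClosure ℚ
local notation "Ω" => PadicAlgCl q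

variable {L : Type} [Field L] [Algebra ℚ L] (j : L →ₐ[ℚ] Qb)

local instance isAlgebraicQbar_sl2 : Algebra.IsAlgebraic ℚ (AlgebraicClosure ℚ) :=
  AlgebraicClosure.isAlgebraic ℚ
local instance isAlgClosureQbar_sl2 : IsAlgClosure ℚ (AlgebraicClosure ℚ) :=
  ⟨inferInstance, inferInstance⟩
local instance normalQbar_sl2 : Normal ℚ (AlgebraicClosure ℚ) :=
  IsAlgClosure.normal ℚ (AlgebraicClosure ℚ)

omit [Fact q.Prime] in
/-- every automorphism of `L` extends to `Q̄` along `j` -/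
theorem slL_exists_lift (σ₀ : L ≃ₐ[ℚ] L) : ∃ g : Qb ≃ₐ[ℚ] Qb, ∀ x, j (σ₀ x) = g (j x) := by
  letI : Algebra L Qb := j.toRingHom.toAlgebra
  haveI : IsScalarTower ℚ L Qb := IsScalarTower.of_algebraMap_eq (fun x => (j.commutes x).symm)
  exact ⟨σ₀.liftNormal Qb, fun x => (AlgEquiv.liftNormal_commutes σ₀ Qb x).symm⟩

omit [Fact q.Prime] in
/-- every automorphism of `Q̄` restricts to a normal `L` along `j` -/
theorem slL_exists_restrict [Normal ℚ L] (g : Qb ≃ₐ[ℚ] Qb) :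
    ∃ σ₀ : L ≃ₐ[ℚ] L, ∀ x, j (σ₀ x) = g (j x) := by
  letI : Algebra L Qb := j.toRingHom.toAlgebra
  haveI : IsScalarTower ℚ L Qb := IsScalarTower.of_algebraMap_eq (fun x => (j.commutes x).symm)
  exact ⟨g.restrictNormal L, fun x => AlgEquiv.restrictNormal_commutes g L x⟩

/-- for `L/ℚ` finite Galois every embedding `L → Q̄_q` is `ι ∘ g ∘ j` for some `g ∈ Gal(Q̄/ℚ)` -/
theorem slL_exists_eq_comp [FiniteDimensional ℚ L] [IsGalois ℚ L] (φ : L →ₐ[ℚ] Ω) :
    ∃ g : Qb ≃ₐ[ℚ] Qb, ∀ x, φ x = padicEmbedding q (g (j x)) := by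
  classical
  let F : (L ≃ₐ[ℚ] L) → (L →ₐ[ℚ] Ω) := fun σ₀ =>
    ((padicEmbedding q).comp j).comp (σ₀ : L →ₐ[ℚ] L)
  have hinj : Function.Injective F := by
    intro σ₀ σ₁ h
    ext x
    have h1 := DFunLike.congr_fun h x
    exact j.toRingHom.injective ((padicEmbedding q).toRingHom.injective h1)
  have hcard : Fintype.card (L ≃ₐ[ℚ] L) = Fintype.card (L →ₐ[ℚ] Ω) := by
    rw [AlgHom.card ℚ L Ω, ← IsGalois.card_aut_eq_finrank ℚ L, Nat.card_eq_fintype_card]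
  have hbij := (Fintype.bijective_iff_injective_and_card F).2 ⟨hinj, hcard⟩
  obtain ⟨σ₀, rfl⟩ := hbij.2 φ
  obtain ⟨g, hg⟩ := slL_exists_lift j σ₀
  exact ⟨g, fun x => congrArg (padicEmbedding q) (hg x)⟩

/-- **Injectivity of the evaluation map** `ℚ_q ⊗ L → Fun(Gal(Q̄/ℚ), Q̄_q)`. -/
theorem slL_eq_zero_of_forall_evalAt [FiniteDimensional ℚ L] [IsGalois ℚ L]
    (t : ℚ_[q] ⊗[ℚ] L) (h : ∀ g, slL_evalAt q j g t = 0) : t = 0 := by
  classical
  let b : Module.Basis (Fin (Module.finrank ℚ L)) ℚ L := Module.finBasis ℚ L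
  let B : Module.Basis (Fin (Module.finrank ℚ L)) ℚ_[q] (ℚ_[q] ⊗[ℚ] L) :=
    Algebra.TensorProduct.basis ℚ_[q] b
  have hcard : Fintype.card (Fin (Module.finrank ℚ L)) = Fintype.card (L →ₐ[ℚ] Ω) := by
    rw [Fintype.card_fin, AlgHom.card ℚ L Ω]
  let e : Fin (Module.finrank ℚ L) ≃ (L →ₐ[ℚ] Ω) := Fintype.equivOfCardEq hcard
  set M := Algebra.embeddingsMatrixReindex ℚ Ω b e with hM
  have hdet : M.det ≠ 0 := by
    intro h0
    have h1 := Algebra.discr_eq_det_embeddingsMatrixReindex_pow_two ℚ Ω b e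
    rw [← hM, h0, zero_pow two_ne_zero] at h1
    exact Algebra.discr_not_zero_of_basis ℚ b
      ((map_eq_zero_iff _ (algebraMap ℚ Ω).injective).1 h1)
  -- the coordinates of `t`
  set a : Fin (Module.finrank ℚ L) → Ω := fun i => algebraMap ℚ_[q] Ω (B.repr t i) with ha
  have hev : ∀ g, slL_evalAt q j g t = ∑ i, a i * padicEmbedding q (g (j (b i))) := by
    intro g
    conv_lhs => rw [← B.sum_repr t]
    rw [map_sum]
    refine Finset.sum_congr rfl fun i _ => ?_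
    rw [map_smul, Algebra.TensorProduct.basis_apply, slL_evalAt_tmul, map_one, one_mul,
      Algebra.smul_def]
  have hvec : Matrix.vecMul a M = 0 := by
    ext k
    obtain ⟨g, hg⟩ := slL_exists_eq_comp q j (e k)
    rw [Matrix.vecMul, dotProduct, Pi.zero_apply, ← h g, hev g]
    refine Finset.sum_congr rfl fun i _ => ?_
    rw [hM, Algebra.embeddingsMatrixReindex, Matrix.reindex_apply, Matrix.submatrix_apply,
      Algebra.embeddingsMatrix_apply, Equiv.symm_symm, Equiv.refl_symm, Equiv.refl_apply, hg]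
  have ha0 : a = 0 := Matrix.eq_zero_of_vecMul_eq_zero hdet hvec
  have hrepr : B.repr t = 0 := by
    ext i
    have := congrFun ha0 i
    rw [ha] at this
    exact (map_eq_zero_iff _ (algebraMap ℚ_[q] Ω).injective).1 this
  exact (LinearEquiv.map_eq_zero_iff _).1 hrepr

/-! ### the function model -/

/-- `t ↦ (g ↦ ev_g t)` -/
noncomputable def slL_evalFun : ℚ_[q] ⊗[ℚ] L →ₐ[ℚ_[q]] ((Qb ≃ₐ[ℚ] Qb) → Ω) :=
  AlgHom.pi (fun g => slL_evalAt q j g)

theorem slL_evalFun_apply (t : ℚ_[q] ⊗[ℚ] L) (g : Qb ≃ₐ[ℚ] Qb) :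
    slL_evalFun q j t g = slL_evalAt q j g t := rfl

theorem slL_evalFun_injective [FiniteDimensional ℚ L] [IsGalois ℚ L] :
    Function.Injective (slL_evalFun q j) := by
  rw [injective_iff_map_eq_zero]
  intro t ht
  exact slL_eq_zero_of_forall_evalAt q j t (fun g => congrFun ht g)

/-- the functions `f : Gal(Q̄/ℚ) → Q̄_q` which are left-equivariant for the local Galois group
and right-invariant under `G_K` (`= (smCoind ψ_q Q̄_q)^{G_K}`) -/
def slL_coindFun (K : IntermediateField ℚ Qb) : Subalgebra ℚ_[q] ((Qb ≃ₐ[ℚ] Qb) → Ω) where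
  carrier := {f | (∀ (h : Ω ≃ₐ[ℚ_[q]] Ω) (g : Qb ≃ₐ[ℚ] Qb),
      f (localGaloisToGlobal q h * g) = h (f g)) ∧
    ∀ (g u : Qb ≃ₐ[ℚ] Qb), u ∈ K.fixingSubgroup → f (g * u) = f g}
  mul_mem' := by
    rintro f f' ⟨h1, h2⟩ ⟨h1', h2'⟩
    exact ⟨fun h g => by rw [Pi.mul_apply, Pi.mul_apply, h1, h1', map_mul],
      fun g u hu => by rw [Pi.mul_apply, Pi.mul_apply, h2 g u hu, h2' g u hu]⟩
  add_mem' := by
    rintro f f' ⟨h1, h2⟩ ⟨h1', h2'⟩
    exact ⟨fun h g => by rw [Pi.add_apply, Pi.add_apply, h1, h1', map_add],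
      fun g u hu => by rw [Pi.add_apply, Pi.add_apply, h2 g u hu, h2' g u hu]⟩
  algebraMap_mem' := by
    intro a
    exact ⟨fun h g => by rw [Pi.algebraMap_apply, Pi.algebraMap_apply, AlgEquiv.commutes],
      fun g u _ => by rw [Pi.algebraMap_apply, Pi.algebraMap_apply]⟩

theorem mem_slL_coindFun {K : IntermediateField ℚ Qb} {f : (Qb ≃ₐ[ℚ] Qb) → Ω} :
    f ∈ slL_coindFun q K ↔ (∀ (h : Ω ≃ₐ[ℚ_[q]] Ω) (g : Qb ≃ₐ[ℚ] Qb),
      f (localGaloisToGlobal q h * g) = h (f g)) ∧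
    ∀ (g u : Qb ≃ₐ[ℚ] Qb), u ∈ K.fixingSubgroup → f (g * u) = f g := Iff.rfl

theorem slL_evalFun_mem (t : ℚ_[q] ⊗[ℚ] L) : slL_evalFun q j t ∈ slL_coindFun q j.fieldRange :=
  ⟨fun h g => slL_evalAt_local_mul q j h g t, fun g u hu => slL_evalAt_mul_fixing q j g u hu t⟩

local instance isGaloisQbar_sl2 : IsGalois ℚ (AlgebraicClosure ℚ) := ⟨⟩
local instance normalPadicAlgCl_sl2 : Normal ℚ_[q] (PadicAlgCl q) :=
  IsAlgClosure.normal ℚ_[q] (PadicAlgCl q)
local instance isGaloisPadicAlgCl_sl2 : IsGalois ℚ_[q] (PadicAlgCl q) := ⟨⟩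

omit [Fact q.Prime] in
theorem slL_fixingSubgroup_normal [Normal ℚ L] : j.fieldRange.fixingSubgroup.Normal :=
  ⟨fun v hv g => by
    rw [IntermediateField.mem_fixingSubgroup_iff] at hv ⊢
    rintro _ ⟨x, rfl⟩
    obtain ⟨y, hy⟩ := slL_exists_apply_eq j g⁻¹ x
    rw [AlgEquiv.mul_apply, AlgEquiv.mul_apply]
    change g (v (g⁻¹ (j x))) = j x
    rw [← hy, hv (j y) ⟨y, rfl⟩, hy]
    exact g.apply_symm_apply (j x)⟩

/-- the index set of the places: `Gal(Q̄/ℚ) ⧸ (G_K · D_q)`, `K = j L` -/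
abbrev slL_Places : Type :=
  (Qb ≃ₐ[ℚ] Qb) ⧸ (j.fieldRange.fixingSubgroup ⊔ (localGaloisToGlobal q).range)

/-- the representative `g_c = (out c)⁻¹` of the double coset `D_q g_c G_K` -/
noncomputable def slL_rep (c : slL_Places q j) : Qb ≃ₐ[ℚ] Qb := (Quotient.out c)⁻¹

/-- every `g` is `r(h) · g_c · u` with `u ∈ G_K` -/
theorem slL_exists_decomp [Normal ℚ L] (g : Qb ≃ₐ[ℚ] Qb) :
    ∃ (c : slL_Places q j) (h : Ω ≃ₐ[ℚ_[q]] Ω) (u : Qb ≃ₐ[ℚ] Qb),
      u ∈ j.fieldRange.fixingSubgroup ∧ g = localGaloisToGlobal q h * slL_rep q j c * u := by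
  have hVn : j.fieldRange.fixingSubgroup.Normal := slL_fixingSubgroup_normal j
  set c : slL_Places q j := QuotientGroup.mk g⁻¹ with hc
  have h1 : (Quotient.out c)⁻¹ * g⁻¹ ∈
      j.fieldRange.fixingSubgroup ⊔ (localGaloisToGlobal q).range := by
    rw [← QuotientGroup.leftRel_apply]
    exact Quotient.exact' (Quotient.out_eq' c)
  rw [Subgroup.mem_sup_of_normal_left] at h1
  obtain ⟨v, hv, _, ⟨h, rfl⟩, hvh⟩ := h1
  -- g⁻¹ = out c * v * r h, so g = r h⁻¹ * v⁻¹ * (out c)⁻¹ = r h⁻¹ * g_c * (g_c⁻¹ v⁻¹ g_c)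
  refine ⟨c, h⁻¹, (Quotient.out c) * v⁻¹ * (Quotient.out c)⁻¹,
    hVn.conj_mem _ (inv_mem hv) _, ?_⟩
  have h2 : g = (localGaloisToGlobal q h)⁻¹ * v⁻¹ * (Quotient.out c)⁻¹ := by
    have : g⁻¹ = Quotient.out c * (v * localGaloisToGlobal q h) := by
      rw [hvh]; group
    rw [← inv_inv g, this]; group
  rw [h2, slL_rep, map_inv]
  group

/-- a function of the coinduced module is determined by its values at the representatives -/
theorem slL_coindFun_ext [Normal ℚ L] {f f' : (Qb ≃ₐ[ℚ] Qb) → Ω}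
    (hf : f ∈ slL_coindFun q j.fieldRange) (hf' : f' ∈ slL_coindFun q j.fieldRange)
    (h : ∀ c : slL_Places q j, f (slL_rep q j c) = f' (slL_rep q j c)) : f = f' := by
  funext g
  obtain ⟨c, τ, u, hu, rfl⟩ := slL_exists_decomp q j g
  rw [hf.2 _ u hu, hf'.2 _ u hu, hf.1, hf'.1, h c]

/-- the values of a function of the coinduced module lie in `K_w = ℚ_q · ι K` -/
theorem slL_coindFun_apply_mem [Normal ℚ L] {f : (Qb ≃ₐ[ℚ] Qb) → Ω}
    (hf : f ∈ slL_coindFun q j.fieldRange) (g : Qb ≃ₐ[ℚ] Qb) :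
    f g ∈ localLevel q j.fieldRange := by
  have hVn : j.fieldRange.fixingSubgroup.Normal := slL_fixingSubgroup_normal j
  rw [← InfiniteGalois.fixedField_fixingSubgroup (localLevel q j.fieldRange),
    IntermediateField.mem_fixedField_iff]
  intro τ hτ
  rw [localLevel_fixingSubgroup_eq_comap, Subgroup.mem_comap] at hτ
  rw [← hf.1]
  have : localGaloisToGlobal q τ * g = g * (g⁻¹ * localGaloisToGlobal q τ * g) := by group
  rw [this]
  refine hf.2 g _ ?_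
  have := hVn.conj_mem _ hτ g⁻¹
  rwa [inv_inv] at this

/-- `ℚ_q ⊗ L → K_w`, `a ⊗ x ↦ a · ι (g (j x))` (`L` normal) -/
noncomputable def slL_evalLevelAt [Normal ℚ L] (g : Qb ≃ₐ[ℚ] Qb) :
    ℚ_[q] ⊗[ℚ] L →ₐ[ℚ_[q]] localLevel q j.fieldRange :=
  (slL_evalAt q j g).codRestrict (localLevel q j.fieldRange).toSubalgebra (slL_evalAt_mem q j g)

theorem slL_evalLevelAt_coe [Normal ℚ L] (g : Qb ≃ₐ[ℚ] Qb) (t : ℚ_[q] ⊗[ℚ] L) :
    ((slL_evalLevelAt q j g t : localLevel q j.fieldRange) : Ω) = slL_evalAt q j g t := rfl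

/-- **`ℚ_q ⊗ L → ∏_{w | q} L_w`** -/
noncomputable def slL_prodHom [Normal ℚ L] :
    ℚ_[q] ⊗[ℚ] L →ₐ[ℚ_[q]] (slL_Places q j → localLevel q j.fieldRange) :=
  AlgHom.pi (fun c => slL_evalLevelAt q j (slL_rep q j c))

theorem slL_prodHom_apply [Normal ℚ L] (t : ℚ_[q] ⊗[ℚ] L) (c : slL_Places q j) :
    ((slL_prodHom q j t c : localLevel q j.fieldRange) : Ω) =
      slL_evalAt q j (slL_rep q j c) t := rfl

theorem slL_prodHom_injective [FiniteDimensional ℚ L] [IsGalois ℚ L] :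
    Function.Injective (slL_prodHom q j) := by
  rw [injective_iff_map_eq_zero]
  intro t ht
  apply slL_evalFun_injective q j
  rw [map_zero]
  refine slL_coindFun_ext q j (slL_evalFun_mem q j t) (Subalgebra.zero_mem _) (fun c => ?_)
  have := congrArg (fun y : localLevel q j.fieldRange => (y : Ω)) (congrFun ht c)
  exact this

theorem slL_finiteIndex [FiniteDimensional ℚ L] :
    (j.fieldRange.fixingSubgroup ⊔ (localGaloisToGlobal q).range).FiniteIndex := by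
  have hfd : FiniteDimensional ℚ j.fieldRange :=
    (AlgEquiv.ofInjectiveField j).toLinearEquiv.finiteDimensional
  have h1 : j.fieldRange.fixingSubgroup.FiniteIndex := by
    constructor
    rw [← IntermediateField.finrank_eq_fixingSubgroup_index]
    exact Module.finrank_pos.ne'
  exact Subgroup.finiteIndex_of_le le_sup_left

/-- `[L : ℚ] = (number of places) · [L_w : ℚ_q]` in the form needed for the dimension count -/
theorem slL_natCard_mul_finrank [FiniteDimensional ℚ L] [Normal ℚ L] :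
    Nat.card (slL_Places q j) * Module.finrank ℚ_[q] (localLevel q j.fieldRange) =
      Module.finrank ℚ L := by
  have hVn : j.fieldRange.fixingSubgroup.Normal := slL_fixingSubgroup_normal j
  have hfr : Module.finrank ℚ L = Module.finrank ℚ j.fieldRange :=
    (AlgEquiv.ofInjectiveField j).toLinearEquiv.finrank_eq
  rw [hfr, IntermediateField.finrank_eq_fixingSubgroup_index Qb j.fieldRange,
    ← index_comap_fixingSubgroup q j.fieldRange,
    ← Subgroup.index_eq_card,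
    ← Subgroup.relIndex_mul_index (le_sup_left : j.fieldRange.fixingSubgroup ≤
      j.fieldRange.fixingSubgroup ⊔ (localGaloisToGlobal q).range), Subgroup.relIndex_sup_left,
    Subgroup.index_comap, mul_comm]

theorem slL_prodHom_bijective [FiniteDimensional ℚ L] [IsGalois ℚ L] :
    Function.Bijective (slL_prodHom q j) := by
  classical
  have hfi := slL_finiteIndex q j
  haveI : Finite (slL_Places q j) := Subgroup.finite_quotient_of_finiteIndex
  haveI : Fintype (slL_Places q j) := Fintype.ofFinite _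
  haveI : FiniteDimensional ℚ j.fieldRange :=
    (AlgEquiv.ofInjectiveField j).toLinearEquiv.finiteDimensional
  have hdim : Module.finrank ℚ_[q] (ℚ_[q] ⊗[ℚ] L) =
      Module.finrank ℚ_[q] (slL_Places q j → localLevel q j.fieldRange) := by
    rw [Module.finrank_baseChange, Module.finrank_pi_fintype, Finset.sum_const, Finset.card_univ,
      smul_eq_mul, ← Nat.card_eq_fintype_card, slL_natCard_mul_finrank]
  have hinj := slL_prodHom_injective q j
  exact ⟨hinj, (LinearMap.injective_iff_surjective_of_finrank_eq_finrank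
    (f := (slL_prodHom q j).toLinearMap) hdim).1 hinj⟩

/-- **`ℚ_q ⊗ L ≅ ∏_{w | q} L_w`** (index set `Gal(Q̄/ℚ) ⧸ (G_K · D_q)`, all factors equal to
`ℚ_q · ι K ⊆ Q̄_q`, the `c`-th projection being `a ⊗ x ↦ a · ι (g_c (j x))`). -/
noncomputable def slL_prodEquiv [FiniteDimensional ℚ L] [IsGalois ℚ L] :
    ℚ_[q] ⊗[ℚ] L ≃ₐ[ℚ_[q]] (slL_Places q j → localLevel q j.fieldRange) :=
  AlgEquiv.ofBijective (slL_prodHom q j) (slL_prodHom_bijective q j)

/-- **the range of the evaluation map is the coinduced module** -/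
theorem slL_exists_evalFun_eq [FiniteDimensional ℚ L] [IsGalois ℚ L]
    {f : (Qb ≃ₐ[ℚ] Qb) → Ω} (hf : f ∈ slL_coindFun q j.fieldRange) :
    ∃ t : ℚ_[q] ⊗[ℚ] L, slL_evalFun q j t = f := by
  obtain ⟨t, ht⟩ := (slL_prodHom_bijective q j).2
    (fun c => ⟨f (slL_rep q j c), slL_coindFun_apply_mem q j hf _⟩)
  refine ⟨t, slL_coindFun_ext q j (slL_evalFun_mem q j t) hf (fun c => ?_)⟩
  have := congrArg (fun y : localLevel q j.fieldRange => (y : Ω)) (congrFun ht c)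
  exact this

theorem slL_range_evalFun [FiniteDimensional ℚ L] [IsGalois ℚ L] :
    (slL_evalFun q j).range = slL_coindFun q j.fieldRange := by
  apply le_antisymm
  · rintro _ ⟨t, rfl⟩
    exact slL_evalFun_mem q j t
  · intro f hf
    exact slL_exists_evalFun_eq q j hf

/-- **`ℚ_q ⊗ L ≅ (coind_{D_q}^{Gal(Q̄/ℚ)} Q̄_q)^{G_K}`** as `ℚ_q`-algebras -/
noncomputable def slL_coindEquiv [FiniteDimensional ℚ L] [IsGalois ℚ L] :
    ℚ_[q] ⊗[ℚ] L ≃ₐ[ℚ_[q]] slL_coindFun q j.fieldRange :=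
  AlgEquiv.ofBijective
    ((slL_evalFun q j).codRestrict (slL_coindFun q j.fieldRange) (slL_evalFun_mem q j))
    ⟨fun t t' h => slL_evalFun_injective q j (congrArg Subtype.val h),
     fun f => by
      obtain ⟨t, ht⟩ := slL_exists_evalFun_eq q j f.2
      exact ⟨t, Subtype.ext ht⟩⟩

theorem slL_coindEquiv_apply [FiniteDimensional ℚ L] [IsGalois ℚ L] (t : ℚ_[q] ⊗[ℚ] L)
    (g : Qb ≃ₐ[ℚ] Qb) :
    (slL_coindEquiv q j t : (Qb ≃ₐ[ℚ] Qb) → Ω) g = slL_evalAt q j g t := rfl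

/-! ### naturality in `L` and the unit groups -/

/-- naturality for `L ⊆ L'` -/
theorem slL_evalAt_map {L' : Type} [Field L'] [Algebra ℚ L'] (j' : L' →ₐ[ℚ] Qb)
    (i : L →ₐ[ℚ] L') (hi : ∀ x, j' (i x) = j x) (g : Qb ≃ₐ[ℚ] Qb) (t : ℚ_[q] ⊗[ℚ] L) :
    slL_evalAt q j' g (Algebra.TensorProduct.map (AlgHom.id ℚ_[q] ℚ_[q]) i t) =
      slL_evalAt q j g t := by
  induction t using TensorProduct.induction_on with
  | zero => rw [map_zero, map_zero, map_zero]
  | tmul a x =>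
    rw [Algebra.TensorProduct.map_tmul, slL_evalAt_tmul, slL_evalAt_tmul, hi]
    rfl
  | add t t' ht ht' => rw [map_add, map_add, map_add, ht, ht']

/-- the unit-valued function attached to a unit of `ℚ_q ⊗ L` -/
noncomputable def slL_unitFun (u : (ℚ_[q] ⊗[ℚ] L)ˣ) (g : Qb ≃ₐ[ℚ] Qb) : Ωˣ :=
  Units.map (slL_evalAt q j g : ℚ_[q] ⊗[ℚ] L →* Ω) u

theorem slL_unitFun_coe (u : (ℚ_[q] ⊗[ℚ] L)ˣ) (g : Qb ≃ₐ[ℚ] Qb) :
    ((slL_unitFun q j u g : Ωˣ) : Ω) = slL_evalAt q j g (u : ℚ_[q] ⊗[ℚ] L) := rfl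

theorem slL_unitFun_mul (u u' : (ℚ_[q] ⊗[ℚ] L)ˣ) (g : Qb ≃ₐ[ℚ] Qb) :
    slL_unitFun q j (u * u') g = slL_unitFun q j u g * slL_unitFun q j u' g :=
  map_mul _ u u'

theorem slL_unitFun_local_mul (u : (ℚ_[q] ⊗[ℚ] L)ˣ) (h : Ω ≃ₐ[ℚ_[q]] Ω) (g : Qb ≃ₐ[ℚ] Qb) :
    slL_unitFun q j u (localGaloisToGlobal q h * g) =
      Units.map (h : Ω →* Ω) (slL_unitFun q j u g) :=
  Units.ext (slL_evalAt_local_mul q j h g _)

theorem slL_unitFun_mul_fixing (u : (ℚ_[q] ⊗[ℚ] L)ˣ) (g v : Qb ≃ₐ[ℚ] Qb)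
    (hv : v ∈ j.fieldRange.fixingSubgroup) :
    slL_unitFun q j u (g * v) = slL_unitFun q j u g :=
  Units.ext (slL_evalAt_mul_fixing q j g v hv _)

theorem slL_unitFun_act (g g' : Qb ≃ₐ[ℚ] Qb) (σ₀ : L ≃ₐ[ℚ] L) (h : ∀ x, j (σ₀ x) = g (j x))
    (u : (ℚ_[q] ⊗[ℚ] L)ˣ) :
    slL_unitFun q j (Units.map (slL_act q σ₀ : ℚ_[q] ⊗[ℚ] L →* ℚ_[q] ⊗[ℚ] L) u) g' =
      slL_unitFun q j u (g' * g) :=
  Units.ext (slL_evalAt_act q j g g' σ₀ h _)

theorem slL_unitFun_injective [FiniteDimensional ℚ L] [IsGalois ℚ L] :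
    Function.Injective (slL_unitFun q j) := by
  intro u u' h
  apply Units.ext
  apply slL_evalFun_injective q j
  funext g
  exact congrArg Units.val (congrFun h g)

/-- **units**: every unit-valued function which is left-equivariant for the local Galois group
and right-invariant under `G_K` comes from a unique unit of `ℚ_q ⊗ L`. -/
theorem slL_exists_unitFun_eq [FiniteDimensional ℚ L] [IsGalois ℚ L]
    (F : (Qb ≃ₐ[ℚ] Qb) → Ωˣ)
    (h1 : ∀ (h : Ω ≃ₐ[ℚ_[q]] Ω) (g : Qb ≃ₐ[ℚ] Qb),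
      F (localGaloisToGlobal q h * g) = Units.map (h : Ω →* Ω) (F g))
    (h2 : ∀ (g v : Qb ≃ₐ[ℚ] Qb), v ∈ j.fieldRange.fixingSubgroup → F (g * v) = F g) :
    ∃ u : (ℚ_[q] ⊗[ℚ] L)ˣ, slL_unitFun q j u = F := by
  have hf : (fun g => ((F g : Ωˣ) : Ω)) ∈ slL_coindFun q j.fieldRange :=
    ⟨fun h g => by beta_reduce; rw [h1]; rfl, fun g v hv => by beta_reduce; rw [h2 g v hv]⟩
  have hf' : (fun g => (((F g)⁻¹ : Ωˣ) : Ω)) ∈ slL_coindFun q j.fieldRange :=
    ⟨fun h g => by beta_reduce; rw [h1, ← map_inv]; rfl,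
      fun g v hv => by beta_reduce; rw [h2 g v hv]⟩
  obtain ⟨t, ht⟩ := slL_exists_evalFun_eq q j hf
  obtain ⟨t', ht'⟩ := slL_exists_evalFun_eq q j hf'
  have hmul : t * t' = 1 := by
    apply slL_evalFun_injective q j
    rw [map_mul, ht, ht', map_one]
    funext g
    exact Units.mul_inv (F g)
  refine ⟨⟨t, t', hmul, by rw [mul_comm]; exact hmul⟩, ?_⟩
  funext g
  exact Units.ext (congrFun ht g)

end SemiLocal2

end Fermat.Agent.CFT
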