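import Mathlib

/-!
# S55 bridge: Galois descent in `A ⊗[K] M̃`

`M̃ / K` a (possibly infinite) Galois extension, `A` any `K`-vector space (or `K`-algebra), `F` any
intermediate field.  An element of `A ⊗[K] M̃` fixed by `Gal(M̃/F)` (acting on the second factor)
comes from `A ⊗[K] F`, and the map `A ⊗[K] F → A ⊗[K] M̃` is injective; units descend to units.
(`A = ℚ_v`, `M̃ = Q̄`: the `U`-invariants of the semilocal algebra `ℚ_v ⊗ Q̄` are `ℚ_v ⊗ Q̄^U`.)
-/

set_option autoImplicit false
set_option linter.style.haveILetI false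

namespace Fermat.Agent.CFT

open scoped TensorProduct

section Module

variable {K A N N' ι : Type} [Field K] [AddCommGroup A] [Module K A]
  [AddCommGroup N] [Module K N] [AddCommGroup N'] [Module K N'] [DecidableEq ι]

/-- naturality of the coordinates `A ⊗[K] N ≃ (ι →₀ N)` in `N`. -/
theorem tnD_equivFinsupp_lTensor (b : Module.Basis ι K A) (φ : N →ₗ[K] N') (t : A ⊗[K] N)
    (i : ι) :
    TensorProduct.equivFinsuppOfBasisLeft b (LinearMap.lTensor A φ t) i =
      φ (TensorProduct.equivFinsuppOfBasisLeft b t i) := by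
  induction t using TensorProduct.induction_on with
  | zero => simp
  | tmul a n =>
    rw [LinearMap.lTensor_tmul, TensorProduct.equivFinsuppOfBasisLeft_apply_tmul_apply,
      TensorProduct.equivFinsuppOfBasisLeft_apply_tmul_apply, map_smul]
  | add x y hx hy => rw [map_add, map_add, Finsupp.add_apply, hx, hy, map_add, Finsupp.add_apply,
      map_add]

end Module

section Descent

variable {K A Mt : Type} [Field K] [Field Mt] [Algebra K Mt] [IsGalois K Mt]
  [AddCommGroup A] [Module K A]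

/-- **Galois descent** (module form): an element of `A ⊗[K] M̃` fixed by `Gal(M̃/F)` comes from
`A ⊗[K] F`. -/
theorem tnD_exists_of_fixed (F : IntermediateField K Mt) (t : A ⊗[K] Mt)
    (ht : ∀ u ∈ F.fixingSubgroup,
      LinearMap.lTensor A (u : Mt ≃ₐ[K] Mt).toLinearMap t = t) :
    ∃ s : A ⊗[K] ↥F, LinearMap.lTensor A F.val.toLinearMap s = t := by
  classical
  set b := Module.Free.chooseBasis K A with hb
  set e := TensorProduct.equivFinsuppOfBasisLeft (N := Mt) b with he
  set eF := TensorProduct.equivFinsuppOfBasisLeft (N := ↥F) b with heF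
  have hmem : ∀ i, e t i ∈ F := by
    intro i
    rw [← InfiniteGalois.fixedField_fixingSubgroup F, IntermediateField.mem_fixedField_iff]
    intro u hu
    have h1 := tnD_equivFinsupp_lTensor b (u : Mt ≃ₐ[K] Mt).toLinearMap t i
    rw [ht u hu] at h1
    exact h1.symm
  let c : Module.Free.ChooseBasisIndex K A →₀ ↥F :=
    Finsupp.onFinset (e t).support (fun i => ⟨e t i, hmem i⟩) (by
      intro i hi
      rw [Finsupp.mem_support_iff]
      intro h0
      exact hi (Subtype.ext h0))
  refine ⟨eF.symm c, e.injective ?_⟩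
  ext i
  rw [he, tnD_equivFinsupp_lTensor b F.val.toLinearMap (eF.symm c) i, ← heF,
    LinearEquiv.apply_symm_apply]
  rfl

omit [IsGalois K Mt] in
/-- the level map `A ⊗[K] F → A ⊗[K] M̃` is injective. -/
theorem tnD_lTensor_val_injective (F : IntermediateField K Mt) :
    Function.Injective (LinearMap.lTensor A F.val.toLinearMap) :=
  Module.Flat.lTensor_preserves_injective_linearMap (M := A) F.val.toLinearMap
    F.val.injective

omit [IsGalois K Mt] in
/-- elements coming from `A ⊗[K] F` are fixed by `Gal(M̃/F)`. -/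
theorem tnD_fixed_of_mem_range (F : IntermediateField K Mt) (s : A ⊗[K] ↥F)
    (u : Mt ≃ₐ[K] Mt) (hu : u ∈ F.fixingSubgroup) :
    LinearMap.lTensor A (u : Mt ≃ₐ[K] Mt).toLinearMap
      (LinearMap.lTensor A F.val.toLinearMap s) = LinearMap.lTensor A F.val.toLinearMap s := by
  induction s using TensorProduct.induction_on with
  | zero => simp
  | tmul a y =>
    rw [LinearMap.lTensor_tmul, LinearMap.lTensor_tmul]
    congr 1
    exact (IntermediateField.mem_fixingSubgroup_iff F u).1 hu (y : Mt) y.2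
  | add x y hx hy => rw [map_add, map_add, hx, hy]

end Descent

section Algebra

variable {K A Mt : Type} [Field K] [Field Mt] [Algebra K Mt] [IsGalois K Mt]
  [CommRing A] [Algebra K A]

omit [IsGalois K Mt] in
theorem tnD_map_eq_lTensor (u : Mt ≃ₐ[K] Mt) (t : A ⊗[K] Mt) :
    Algebra.TensorProduct.map (AlgHom.id A A) (u : Mt →ₐ[K] Mt) t =
      LinearMap.lTensor A (u : Mt ≃ₐ[K] Mt).toLinearMap t := by
  induction t using TensorProduct.induction_on with
  | zero => simp
  | tmul a y =>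
    rw [Algebra.TensorProduct.map_tmul, LinearMap.lTensor_tmul]
    rfl
  | add x y hx hy => rw [map_add, map_add, hx, hy]

omit [IsGalois K Mt] in
theorem tnD_map_val_eq_lTensor (F : IntermediateField K Mt) (s : A ⊗[K] ↥F) :
    Algebra.TensorProduct.map (AlgHom.id A A) F.val s =
      LinearMap.lTensor A F.val.toLinearMap s := by
  induction s using TensorProduct.induction_on with
  | zero => simp
  | tmul a y =>
    rw [Algebra.TensorProduct.map_tmul, LinearMap.lTensor_tmul]
    rfl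
  | add x y hx hy => rw [map_add, map_add, hx, hy]

omit [IsGalois K Mt] in
/-- the level map `A ⊗[K] F →ₐ A ⊗[K] M̃` is injective. -/
theorem tnD_map_val_injective (F : IntermediateField K Mt) :
    Function.Injective (Algebra.TensorProduct.map (AlgHom.id A A) F.val :
      A ⊗[K] ↥F →ₐ[A] A ⊗[K] Mt) := by
  intro s s' h
  rw [tnD_map_val_eq_lTensor, tnD_map_val_eq_lTensor] at h
  exact tnD_lTensor_val_injective F h

/-- **Galois descent** (algebra form): `t ∈ A ⊗[K] M̃` comes from `A ⊗[K] F` iff it is fixed by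
`Gal(M̃/F)` acting on the second factor. -/
theorem tnD_exists_map_val_eq_iff (F : IntermediateField K Mt) (t : A ⊗[K] Mt) :
    (∃ s : A ⊗[K] ↥F, Algebra.TensorProduct.map (AlgHom.id A A) F.val s = t) ↔
      ∀ u ∈ F.fixingSubgroup,
        Algebra.TensorProduct.map (AlgHom.id A A) ((u : Mt ≃ₐ[K] Mt) : Mt →ₐ[K] Mt) t = t := by
  constructor
  · rintro ⟨s, rfl⟩ u hu
    rw [tnD_map_eq_lTensor, tnD_map_val_eq_lTensor]
    exact tnD_fixed_of_mem_range F s u hu
  · intro h
    obtain ⟨s, hs⟩ := tnD_exists_of_fixed F t (fun u hu => by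
      rw [← tnD_map_eq_lTensor]
      exact h u hu)
    exact ⟨s, by rw [tnD_map_val_eq_lTensor, hs]⟩

/-- **descent of units**: a unit of `A ⊗[K] M̃` fixed by `Gal(M̃/F)` is the image of a unit of
`A ⊗[K] F`. -/
theorem tnD_exists_unit_of_fixed (F : IntermediateField K Mt) (t : (A ⊗[K] Mt)ˣ)
    (ht : ∀ u ∈ F.fixingSubgroup,
      Algebra.TensorProduct.map (AlgHom.id A A) ((u : Mt ≃ₐ[K] Mt) : Mt →ₐ[K] Mt)
        (t : A ⊗[K] Mt) = t) :
    ∃ s s' : A ⊗[K] ↥F, s * s' = 1 ∧
      Algebra.TensorProduct.map (AlgHom.id A A) F.val s = (t : A ⊗[K] Mt) ∧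
      Algebra.TensorProduct.map (AlgHom.id A A) F.val s' =
        ((t⁻¹ : (A ⊗[K] Mt)ˣ) : A ⊗[K] Mt) := by
  have ht' : ∀ u ∈ F.fixingSubgroup,
      Algebra.TensorProduct.map (AlgHom.id A A) ((u : Mt ≃ₐ[K] Mt) : Mt →ₐ[K] Mt)
        ((t⁻¹ : (A ⊗[K] Mt)ˣ) : A ⊗[K] Mt) = ((t⁻¹ : (A ⊗[K] Mt)ˣ) : A ⊗[K] Mt) := by
    intro u hu
    have h1 : Algebra.TensorProduct.map (AlgHom.id A A) ((u : Mt ≃ₐ[K] Mt) : Mt →ₐ[K] Mt)
        ((t⁻¹ : (A ⊗[K] Mt)ˣ) : A ⊗[K] Mt) * (t : A ⊗[K] Mt) = 1 := by
      conv_lhs => rw [← ht u hu]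
      rw [← map_mul, Units.inv_mul, map_one]
    exact Units.eq_inv_of_mul_eq_one_right h1
  obtain ⟨s, hs⟩ := (tnD_exists_map_val_eq_iff F (t : A ⊗[K] Mt)).2 ht
  obtain ⟨s', hs'⟩ := (tnD_exists_map_val_eq_iff F ((t⁻¹ : (A ⊗[K] Mt)ˣ) : A ⊗[K] Mt)).2 ht'
  refine ⟨s, s', tnD_map_val_injective (A := A) F ?_, hs, hs'⟩
  rw [map_mul, hs, hs', Units.mul_inv]
  exact (Algebra.TensorProduct.map (AlgHom.id A A) F.val).toRingHom.map_one.symm

end Algebra

end Fermat.Agent.CFT
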