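import Mathlib

/-!
# S55 bridge: the ring-level dictionary `F ⊗[K] M ≃ {smooth equivariant functions Gal(M̃/K) → Ω}`

`K ⊆ F ⊆ Ω` fields with `Ω` algebraically closed, `M̃ / K` Galois with group `Γ`, `ι : M̃ →ₐ[K] Ω`,
`M ≤ M̃` a normal subextension.  A group `H` acts on `Ω` with fixed field `F`, compatibly with a
homomorphism `ψ : H →* Γ` (`ι (ψ h y) = h • ι y`).  Then

`θ : F ⊗[K] M ⟶ (Γ → Ω)`, `x ⊗ y ↦ (g ↦ x * ι (g y))`

is injective, with image the functions `f` with `f (ψ h * g) = h • f g` which are right invariant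
under the fixing subgroup of a finite subextension of `M`.
(`K = ℚ`, `F = ℚ_q`, `Ω = PadicAlgCl q`, `M̃ = Q̄`, `M = ℚ_S`: the semilocal algebra `ℚ_q ⊗ ℚ_S` is
the smooth coinduction of `Ω` from the local Galois group.)
-/

set_option autoImplicit false
set_option linter.style.haveILetI false

namespace Fermat.Agent.CFT

open scoped TensorProduct

section FiniteLevel

open scoped Classical

variable {K Ω Mt : Type} [Field K] [Field Ω] [Field Mt] [Algebra K Ω] [IsAlgClosed Ω]
  [Algebra K Mt] (ι : Mt →ₐ[K] Ω) (L : IntermediateField K Mt) [FiniteDimensional K L]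
  [IsGalois K L]

/-- the embeddings of a finite Galois subextension `L` into `Ω` are the `ι ∘ τ`, `τ ∈ Gal(L/K)`. -/
noncomputable def thC_embEquiv : (L ≃ₐ[K] L) ≃ (↥L →ₐ[K] Ω) :=
  Equiv.ofBijective (fun τ => (ι.comp L.val).comp (τ : ↥L →ₐ[K] ↥L)) (by
    classical
    have hinj : Function.Injective
        (fun τ : L ≃ₐ[K] L => (ι.comp L.val).comp (τ : ↥L →ₐ[K] ↥L)) := by
      intro τ τ' h
      ext x
      have h1 := DFunLike.congr_fun h x
      have h2 : ι ((τ x : ↥L) : Mt) = ι ((τ' x : ↥L) : Mt) := h1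
      exact congrArg Subtype.val (Subtype.ext (ι.injective h2))
    refine (Fintype.bijective_iff_injective_and_card _).2 ⟨hinj, ?_⟩
    rw [AlgHom.card, ← IsGalois.card_aut_eq_finrank K L, Nat.card_eq_fintype_card])

theorem thC_embEquiv_apply (τ : L ≃ₐ[K] L) (x : L) :
    thC_embEquiv ι L τ x = ι ((τ x : ↥L) : Mt) := rfl

/-- a `K`-basis of `L` indexed by `Gal(L/K)`. -/
noncomputable def thC_basis : Module.Basis (L ≃ₐ[K] L) K ↥L :=
  (Module.finBasis K ↥L).reindex (Fintype.equivFinOfCardEq (by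
    rw [← Nat.card_eq_fintype_card, IsGalois.card_aut_eq_finrank K L])).symm

/-- the matrix `(ι (τ (b σ)))_{σ, τ}`. -/
noncomputable def thC_matrix : Matrix (L ≃ₐ[K] L) (L ≃ₐ[K] L) Ω :=
  Matrix.of fun σ τ => ι ((τ (thC_basis L σ) : ↥L) : Mt)

theorem thC_matrix_det_ne_zero : (thC_matrix ι L).det ≠ 0 := by
  have h1 := Algebra.discr_eq_det_embeddingsMatrixReindex_pow_two K Ω (thC_basis L)
    (thC_embEquiv ι L)
  have h2 : Algebra.discr K (thC_basis L) ≠ 0 := Algebra.discr_not_zero_of_basis K (thC_basis L)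
  have h3 : Algebra.embeddingsMatrixReindex K Ω (thC_basis L) (thC_embEquiv ι L) =
      thC_matrix ι L := by
    ext σ τ
    simp [Algebra.embeddingsMatrixReindex, Algebra.embeddingsMatrix, thC_matrix,
      thC_embEquiv_apply]
  rw [h3] at h1
  intro h0
  rw [h0, zero_pow two_ne_zero] at h1
  exact h2 ((map_eq_zero_iff _ (algebraMap K Ω).injective).1 h1)

end FiniteLevel

section Theta

variable {K F Ω Mt : Type} [Field K] [Field F] [Field Ω] [Field Mt]
  [Algebra K F] [Algebra F Ω] [Algebra K Ω] [IsScalarTower K F Ω]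
  [Algebra K Mt] (ι : Mt →ₐ[K] Ω) (M : IntermediateField K Mt)

/-- `y ↦ (g ↦ ι (g y))`. -/
noncomputable def thC_evalHom : ↥M →ₐ[K] ((Mt ≃ₐ[K] Mt) → Ω) :=
  AlgHom.pi (fun g => (ι.comp (g : Mt →ₐ[K] Mt)).comp M.val)

theorem thC_evalHom_apply (y : M) (g : Mt ≃ₐ[K] Mt) :
    thC_evalHom ι M y g = ι (g (y : Mt)) := rfl

/-- **the dictionary** `θ : F ⊗[K] M ⟶ (Γ → Ω)`, `x ⊗ y ↦ (g ↦ x * ι (g y))`. -/
noncomputable def thC_theta : F ⊗[K] ↥M →ₐ[F] ((Mt ≃ₐ[K] Mt) → Ω) :=
  Algebra.TensorProduct.lift (Algebra.ofId F ((Mt ≃ₐ[K] Mt) → Ω)) (thC_evalHom ι M)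
    (fun _ _ => Commute.all _ _)

theorem thC_theta_tmul (x : F) (y : M) (g : Mt ≃ₐ[K] Mt) :
    thC_theta (F := F) ι M (x ⊗ₜ[K] y) g = algebraMap F Ω x * ι (g (y : Mt)) := by
  unfold thC_theta
  rw [Algebra.TensorProduct.lift_tmul]
  rfl

theorem thC_theta_one : thC_theta (F := F) ι M 1 = 1 :=
  (thC_theta (F := F) ι M).toRingHom.map_one

/-- compatibility of `θ` with enlarging `M`. -/
theorem thC_theta_map {L M : IntermediateField K Mt} (h : L ≤ M) (t : F ⊗[K] ↥L) :
    thC_theta (F := F) ι M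
      (Algebra.TensorProduct.map (AlgHom.id F F) (IntermediateField.inclusion h) t) =
    thC_theta (F := F) ι L t := by
  induction t using TensorProduct.induction_on with
  | zero => simp
  | tmul x y =>
    funext g
    rw [Algebra.TensorProduct.map_tmul, thC_theta_tmul, thC_theta_tmul]
    rfl
  | add a b ha hb => rw [map_add, map_add, map_add, ha, hb]

/-- right translation: `θ ((1 ⊗ g₀) t) g = θ t (g * g₀)`, on pure tensors. -/
theorem thC_theta_tmul_smul (x : F) (y : M) (g g₀ : Mt ≃ₐ[K] Mt) (y' : M)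
    (hy' : (y' : Mt) = g₀ (y : Mt)) :
    thC_theta (F := F) ι M (x ⊗ₜ[K] y') g = thC_theta (F := F) ι M (x ⊗ₜ[K] y) (g * g₀) := by
  rw [thC_theta_tmul, thC_theta_tmul, hy']
  rfl

end Theta

section FiniteTheta

open scoped Classical

variable {K F Ω Mt : Type} [Field K] [Field F] [Field Ω] [Field Mt]
  [Algebra K F] [Algebra F Ω] [Algebra K Ω] [IsScalarTower K F Ω] [IsAlgClosed Ω]
  [Algebra K Mt] [IsGalois K Mt] (ι : Mt →ₐ[K] Ω)
  (L : IntermediateField K Mt) [FiniteDimensional K L] [IsGalois K L]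

/-- the `F`-basis `1 ⊗ b σ` of `F ⊗[K] L`. -/
noncomputable def thC_tensorBasis : Module.Basis (L ≃ₐ[K] L) F (F ⊗[K] ↥L) :=
  Algebra.TensorProduct.basis F (thC_basis L)

omit [IsAlgClosed Ω] [IsGalois K Mt] in
theorem thC_theta_tensorBasis (σ : L ≃ₐ[K] L) (g : Mt ≃ₐ[K] Mt) :
    thC_theta (F := F) ι L (thC_tensorBasis (F := F) L σ) g =
      thC_matrix ι L σ (AlgEquiv.restrictNormalHom L g) := by
  unfold thC_tensorBasis
  rw [Algebra.TensorProduct.basis_apply, thC_theta_tmul, map_one, one_mul]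
  unfold thC_matrix
  rw [Matrix.of_apply]
  congr 1
  exact (AlgEquiv.restrictNormal_commutes g L (thC_basis L σ)).symm

omit [IsAlgClosed Ω] [IsGalois K Mt] in
/-- `θ` at a finite Galois level, in coordinates. -/
theorem thC_theta_eq_sum (t : F ⊗[K] ↥L) (g : Mt ≃ₐ[K] Mt) :
    thC_theta (F := F) ι L t g =
      ∑ σ, algebraMap F Ω ((thC_tensorBasis (F := F) L).repr t σ) *
        thC_matrix ι L σ (AlgEquiv.restrictNormalHom L g) := by
  conv_lhs => rw [← (thC_tensorBasis (F := F) L).sum_repr t]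
  rw [map_sum, Finset.sum_apply]
  refine Finset.sum_congr rfl fun σ _ => ?_
  rw [map_smul, Pi.smul_apply, thC_theta_tensorBasis, Algebra.smul_def]

/-- **injectivity at a finite Galois level**. -/
theorem thC_theta_injective_finite : Function.Injective (thC_theta (F := F) ι L) := by
  rw [injective_iff_map_eq_zero]
  intro t ht
  have hvec : Matrix.vecMul (fun σ => algebraMap F Ω ((thC_tensorBasis (F := F) L).repr t σ))
      (thC_matrix ι L) = 0 := by
    funext τ
    obtain ⟨g, hg⟩ := AlgEquiv.restrictNormalHom_surjective Mt τ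
    have h1 := thC_theta_eq_sum (F := F) ι L t g
    rw [ht, hg] at h1
    exact h1.symm
  have h0 := Matrix.eq_zero_of_vecMul_eq_zero (thC_matrix_det_ne_zero ι L) hvec
  apply (thC_tensorBasis (F := F) L).repr.injective
  ext σ
  have h1 := congrFun h0 σ
  rw [map_zero]
  exact (map_eq_zero_iff _ (algebraMap F Ω).injective).1 h1

end FiniteTheta

section Range

open scoped Classical

variable {K F Ω Mt H : Type} [Field K] [Field F] [Field Ω] [Field Mt]
  [Algebra K F] [Algebra F Ω] [Algebra K Ω] [IsScalarTower K F Ω] [IsAlgClosed Ω]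
  [Algebra K Mt] [IsGalois K Mt] (ι : Mt →ₐ[K] Ω)
  [Group H] [MulSemiringAction H Ω] (ψ : H →* (Mt ≃ₐ[K] Mt))

/-- **surjectivity at a finite Galois level**: an equivariant function which is right invariant
under `Gal(M̃/L)` comes from `F ⊗[K] L`. -/
theorem thC_theta_surjective_finite (L : IntermediateField K Mt) [FiniteDimensional K L]
    [IsGalois K L]
    (hψ : ∀ (h : H) (y : Mt), ι (ψ h y) = h • ι y)
    (hfix : ∀ z : Ω, (∀ h : H, h • z = z) → z ∈ (algebraMap F Ω).range)
    (f : (Mt ≃ₐ[K] Mt) → Ω)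
    (hf1 : ∀ h g, f (ψ h * g) = h • f g)
    (hf2 : ∀ g, ∀ u ∈ L.fixingSubgroup, f (g * u) = f g) :
    ∃ t : F ⊗[K] ↥L, thC_theta (F := F) ι L t = f := by
  set res := AlgEquiv.restrictNormalHom (F := K) (K₁ := Mt) L with hres
  have hsurj : Function.Surjective res := AlgEquiv.restrictNormalHom_surjective Mt
  choose lift hlift using hsurj
  have hfres : ∀ g g', res g = res g' → f g = f g' := by
    intro g g' hgg
    have hu : g⁻¹ * g' ∈ L.fixingSubgroup := by
      rw [← IntermediateField.restrictNormalHom_ker, MonoidHom.mem_ker, map_mul, map_inv, hgg,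
        inv_mul_cancel]
    have := hf2 g _ hu
    rw [mul_inv_cancel_left] at this
    exact this.symm
  set fb : (L ≃ₐ[K] L) → Ω := fun τ => f (lift τ) with hfb
  have hffb : ∀ g, f g = fb (res g) := fun g => hfres _ _ (hlift (res g)).symm
  set A := thC_matrix ι L with hA
  have hdet : IsUnit A.det := isUnit_iff_ne_zero.2 (thC_matrix_det_ne_zero ι L)
  set a : (L ≃ₐ[K] L) → Ω := Matrix.vecMul fb A⁻¹ with ha
  have haA : Matrix.vecMul a A = fb := by
    rw [ha, Matrix.vecMul_vecMul, Matrix.nonsing_inv_mul _ hdet, Matrix.vecMul_one]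
  have hinv : ∀ h : H, ∀ σ, h • a σ = a σ := by
    intro h
    have hA1 : ∀ σ τ, h • A σ τ = A σ (res (ψ h) * τ) := by
      intro σ τ
      simp only [hA, thC_matrix, Matrix.of_apply]
      rw [← hψ, AlgEquiv.mul_apply]
      congr 1
      exact (AlgEquiv.restrictNormal_commutes (ψ h) L _).symm
    have h2 : Matrix.vecMul (fun σ => h • a σ) A = fb := by
      funext τ'
      obtain ⟨τ, rfl⟩ : ∃ τ, res (ψ h) * τ = τ' := ⟨(res (ψ h))⁻¹ * τ', by simp⟩
      have h21 : Matrix.vecMul (fun σ => h • a σ) A (res (ψ h) * τ) =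
          h • (Matrix.vecMul a A τ) := by
        simp only [Matrix.vecMul, dotProduct]
        rw [Finset.smul_sum]
        refine Finset.sum_congr rfl fun σ _ => ?_
        rw [smul_mul', hA1]
      rw [h21, haA]
      simp only [hfb]
      rw [← hf1]
      apply hfres
      rw [map_mul, hlift, hlift]
    have h3 : Matrix.vecMul (fun σ => h • a σ - a σ) A = 0 := by
      have h31 : (fun σ => h • a σ - a σ) = (fun σ => h • a σ) - a := rfl
      rw [h31, Matrix.sub_vecMul, h2, haA, sub_self]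
    have h4 := Matrix.eq_zero_of_vecMul_eq_zero (thC_matrix_det_ne_zero ι L) h3
    intro σ
    exact sub_eq_zero.1 (congrFun h4 σ)
  choose c hc using fun σ => RingHom.mem_range.1 (hfix (a σ) (fun h => hinv h σ))
  refine ⟨∑ σ, c σ • thC_tensorBasis (F := F) L σ, ?_⟩
  funext g
  rw [map_sum, Finset.sum_apply, hffb g, ← haA]
  simp only [Matrix.vecMul, dotProduct]
  refine Finset.sum_congr rfl fun σ _ => ?_
  rw [map_smul, Pi.smul_apply, thC_theta_tensorBasis, Algebra.smul_def, hc]

end Range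

section Global

open scoped Classical

variable {K F Ω Mt H : Type} [Field K] [Field F] [Field Ω] [Field Mt]
  [Algebra K F] [Algebra F Ω] [Algebra K Ω] [IsScalarTower K F Ω] [IsAlgClosed Ω]
  [Algebra K Mt] [IsGalois K Mt] (ι : Mt →ₐ[K] Ω)
  [Group H] [MulSemiringAction H Ω] (ψ : H →* (Mt ≃ₐ[K] Mt))
  (M : IntermediateField K Mt) [Normal K M]

omit [IsAlgClosed Ω] [Field F] [Field Ω] [Algebra K Ω] in
/-- a finite subextension of the normal extension `M` lies in a finite Galois subextension. -/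
theorem thC_exists_galois_le (L : IntermediateField K Mt) (hL : L ≤ M)
    [FiniteDimensional K L] :
    ∃ L' : IntermediateField K Mt, L ≤ L' ∧ L' ≤ M ∧ FiniteDimensional K L' ∧ IsGalois K L' := by
  refine ⟨IntermediateField.normalClosure K (↥L) Mt, L.le_normalClosure, ?_, inferInstance, ?_⟩
  · exact IntermediateField.normalClosure_le_iff_of_normal.2 hL
  · haveI : Normal K (IntermediateField.normalClosure K (↥L) Mt) := inferInstance
    exact IsGalois.mk

omit [IsAlgClosed Ω] [IsGalois K Mt] [Field Ω] [Algebra K Ω] in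
/-- transitivity of the level-change maps. -/
theorem thC_map_map {L₁ L₂ L₃ : IntermediateField K Mt} (h₁₂ : L₁ ≤ L₂) (h₂₃ : L₂ ≤ L₃)
    (s : F ⊗[K] ↥L₁) :
    Algebra.TensorProduct.map (AlgHom.id F F) (IntermediateField.inclusion h₂₃)
      (Algebra.TensorProduct.map (AlgHom.id F F) (IntermediateField.inclusion h₁₂) s) =
    Algebra.TensorProduct.map (AlgHom.id F F) (IntermediateField.inclusion (h₁₂.trans h₂₃)) s := by
  induction s using TensorProduct.induction_on with
  | zero => simp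
  | tmul x y =>
    rw [Algebra.TensorProduct.map_tmul, Algebra.TensorProduct.map_tmul,
      Algebra.TensorProduct.map_tmul]
    rfl
  | add a b ha hb => rw [map_add, map_add, map_add, ha, hb]

omit [IsAlgClosed Ω] [Field Ω] [Algebra K Ω] in
/-- every element of `F ⊗[K] M` comes from a finite Galois level. -/
theorem thC_exists_level (t : F ⊗[K] ↥M) :
    ∃ (L : IntermediateField K Mt) (h : L ≤ M), FiniteDimensional K L ∧ IsGalois K L ∧
      ∃ s : F ⊗[K] ↥L,
        Algebra.TensorProduct.map (AlgHom.id F F) (IntermediateField.inclusion h) s = t := by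
  have htmul : ∀ (x : F) (y : M), ∃ (L : IntermediateField K Mt) (h : L ≤ M),
      FiniteDimensional K L ∧ IsGalois K L ∧ ∃ s : F ⊗[K] ↥L,
        Algebra.TensorProduct.map (AlgHom.id F F) (IntermediateField.inclusion h) s =
          x ⊗ₜ[K] y := by
    intro x y
    have hL₀ : IntermediateField.adjoin K {(y : Mt)} ≤ M :=
      IntermediateField.adjoin_le_iff.2 (Set.singleton_subset_iff.2 y.2)
    haveI : FiniteDimensional K (IntermediateField.adjoin K {(y : Mt)}) :=
      IntermediateField.adjoin.finiteDimensional (Algebra.IsIntegral.isIntegral _)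
    obtain ⟨L', h1, h2, h3, h4⟩ :=
      thC_exists_galois_le M (IntermediateField.adjoin K {(y : Mt)}) hL₀
    refine ⟨L', h2, h3, h4,
      x ⊗ₜ[K] ⟨(y : Mt), h1 (IntermediateField.subset_adjoin K _ (Set.mem_singleton _))⟩, ?_⟩
    rw [Algebra.TensorProduct.map_tmul]
    rfl
  induction t using TensorProduct.induction_on with
  | zero =>
    obtain ⟨L, h, h1, h2, s, hs⟩ := htmul 0 0
    exact ⟨L, h, h1, h2, s, by rw [hs, TensorProduct.zero_tmul]⟩
  | tmul x y => exact htmul x y
  | add a b ha hb =>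
    obtain ⟨L₁, h₁, hfd₁, -, s₁, rfl⟩ := ha
    obtain ⟨L₂, h₂, hfd₂, -, s₂, rfl⟩ := hb
    haveI := hfd₁
    haveI := hfd₂
    obtain ⟨L', h1, h2, h3, h4⟩ := thC_exists_galois_le M (L₁ ⊔ L₂) (sup_le h₁ h₂)
    refine ⟨L', h2, h3, h4,
      Algebra.TensorProduct.map (AlgHom.id F F)
        (IntermediateField.inclusion (le_sup_left.trans h1)) s₁ +
      Algebra.TensorProduct.map (AlgHom.id F F)
        (IntermediateField.inclusion (le_sup_right.trans h1)) s₂, ?_⟩
    rw [map_add, thC_map_map, thC_map_map]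

/-- **injectivity of the dictionary** at an arbitrary normal level `M`. -/
theorem thC_theta_injective : Function.Injective (thC_theta (F := F) ι M) := by
  rw [injective_iff_map_eq_zero]
  intro t ht
  obtain ⟨L, h, hfd, hgal, s, rfl⟩ := thC_exists_level (F := F) M t
  haveI := hfd
  haveI := hgal
  rw [thC_theta_map] at ht
  have hs : s = 0 := thC_theta_injective_finite ι L (by rw [ht, map_zero])
  rw [hs, map_zero]

omit [IsAlgClosed Ω] [IsGalois K Mt] [Normal K M] in
/-- the functions in the image of `θ` are equivariant for the local group. -/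
theorem thC_theta_equivariant
    (hF : ∀ (h : H) (x : F), h • algebraMap F Ω x = algebraMap F Ω x)
    (hψ : ∀ (h : H) (y : Mt), ι (ψ h y) = h • ι y)
    (t : F ⊗[K] ↥M) (h : H) (g : Mt ≃ₐ[K] Mt) :
    thC_theta (F := F) ι M t (ψ h * g) = h • thC_theta (F := F) ι M t g := by
  induction t using TensorProduct.induction_on with
  | zero => simp
  | tmul x y => rw [thC_theta_tmul, thC_theta_tmul, AlgEquiv.mul_apply, hψ, smul_mul', hF]
  | add a b ha hb => rw [map_add, Pi.add_apply, Pi.add_apply, ha, hb, smul_add]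

omit [IsAlgClosed Ω] [IsGalois K Mt] in
/-- the functions in the image of `θ_L` are right invariant under `Gal(M̃/L)`. -/
theorem thC_theta_rightInvariant (L : IntermediateField K Mt) (t : F ⊗[K] ↥L)
    (g u : Mt ≃ₐ[K] Mt) (hu : u ∈ L.fixingSubgroup) :
    thC_theta (F := F) ι L t (g * u) = thC_theta (F := F) ι L t g := by
  induction t using TensorProduct.induction_on with
  | zero => simp
  | tmul x y =>
    rw [thC_theta_tmul, thC_theta_tmul, AlgEquiv.mul_apply,
      (IntermediateField.mem_fixingSubgroup_iff L u).1 hu (y : Mt) y.2]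
  | add a b ha hb => rw [map_add, Pi.add_apply, Pi.add_apply, ha, hb]

/-- **the image of the dictionary**: the equivariant functions which are right invariant under
the fixing subgroup of a finite subextension of `M`. -/
theorem thC_exists_theta_eq_iff
    (hF : ∀ (h : H) (x : F), h • algebraMap F Ω x = algebraMap F Ω x)
    (hψ : ∀ (h : H) (y : Mt), ι (ψ h y) = h • ι y)
    (hfix : ∀ z : Ω, (∀ h : H, h • z = z) → z ∈ (algebraMap F Ω).range)
    (f : (Mt ≃ₐ[K] Mt) → Ω) :
    (∃ t : F ⊗[K] ↥M, thC_theta (F := F) ι M t = f) ↔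
      (∀ h g, f (ψ h * g) = h • f g) ∧
      ∃ L : IntermediateField K Mt, L ≤ M ∧ FiniteDimensional K L ∧
        ∀ g, ∀ u ∈ L.fixingSubgroup, f (g * u) = f g := by
  constructor
  · rintro ⟨t, rfl⟩
    refine ⟨fun h g => thC_theta_equivariant ι ψ M hF hψ t h g, ?_⟩
    obtain ⟨L, h, hfd, -, s, rfl⟩ := thC_exists_level (F := F) M t
    refine ⟨L, h, hfd, fun g u hu => ?_⟩
    rw [thC_theta_map]
    exact thC_theta_rightInvariant ι L s g u hu
  · rintro ⟨hf1, L, hLM, hfd, hf2⟩
    haveI := hfd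
    obtain ⟨L', h1, h2, h3, h4⟩ := thC_exists_galois_le M L hLM
    haveI := h3
    haveI := h4
    have hf2' : ∀ g, ∀ u ∈ L'.fixingSubgroup, f (g * u) = f g := by
      intro g u hu
      refine hf2 g u ((IntermediateField.mem_fixingSubgroup_iff L u).2 fun x hx => ?_)
      exact (IntermediateField.mem_fixingSubgroup_iff L' u).1 hu x (h1 hx)
    obtain ⟨s, hs⟩ := thC_theta_surjective_finite (F := F) ι ψ L' hψ hfix f hf1 hf2'
    exact ⟨Algebra.TensorProduct.map (AlgHom.id F F) (IntermediateField.inclusion h2) s, by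
      rw [thC_theta_map, hs]⟩

omit [IsAlgClosed Ω] [IsGalois K Mt] in
/-- **`Γ`-equivariance**: the action of `g₀ ∈ Γ` on the second factor is right translation. -/
theorem thC_theta_restrictNormal (g₀ : Mt ≃ₐ[K] Mt) (t : F ⊗[K] ↥M) (g : Mt ≃ₐ[K] Mt) :
    thC_theta (F := F) ι M
      (Algebra.TensorProduct.map (AlgHom.id F F)
        ((AlgEquiv.restrictNormal g₀ M : ↥M ≃ₐ[K] ↥M) : ↥M →ₐ[K] ↥M) t) g =
    thC_theta (F := F) ι M t (g * g₀) := by
  induction t using TensorProduct.induction_on with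
  | zero => simp
  | tmul x y =>
    rw [Algebra.TensorProduct.map_tmul]
    exact thC_theta_tmul_smul ι M x y g g₀ _ (AlgEquiv.restrictNormal_commutes g₀ M y)
  | add a b ha hb => rw [map_add, map_add, Pi.add_apply, ha, hb, map_add, Pi.add_apply]

/-- **units**: `t` is a unit of `F ⊗[K] M` iff `θ t` vanishes nowhere. -/
theorem thC_isUnit_iff
    (hF : ∀ (h : H) (x : F), h • algebraMap F Ω x = algebraMap F Ω x)
    (hψ : ∀ (h : H) (y : Mt), ι (ψ h y) = h • ι y)
    (hfix : ∀ z : Ω, (∀ h : H, h • z = z) → z ∈ (algebraMap F Ω).range)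
    (t : F ⊗[K] ↥M) :
    IsUnit t ↔ ∀ g, thC_theta (F := F) ι M t g ≠ 0 := by
  constructor
  · rintro ⟨u, rfl⟩ g h0
    have h1 : thC_theta (F := F) ι M (u : F ⊗[K] ↥M) *
        thC_theta (F := F) ι M ((u⁻¹ : (F ⊗[K] ↥M)ˣ) : F ⊗[K] ↥M) = 1 := by
      rw [← map_mul, Units.mul_inv]
      exact (thC_theta (F := F) ι M).toRingHom.map_one
    have h2 := congrFun h1 g
    rw [Pi.mul_apply, h0, zero_mul] at h2
    exact zero_ne_one h2
  · intro hne
    obtain ⟨hf1, L, hLM, hfd, hf2⟩ :=
      (thC_exists_theta_eq_iff (F := F) ι ψ M hF hψ hfix _).1 ⟨t, rfl⟩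
    obtain ⟨t', ht'⟩ := (thC_exists_theta_eq_iff (F := F) ι ψ M hF hψ hfix
      (fun g => (thC_theta (F := F) ι M t g)⁻¹)).2
      ⟨fun h g => by rw [hf1, smul_inv''], L, hLM, hfd, fun g u hu => by rw [hf2 g u hu]⟩
    have h1 : t * t' = 1 := by
      apply thC_theta_injective (F := F) ι M
      rw [map_mul, ht']
      refine Eq.trans ?_ (thC_theta (F := F) ι M).toRingHom.map_one.symm
      funext g
      exact mul_inv_cancel₀ (hne g)
    exact ⟨⟨t, t', h1, (mul_comm t' t).trans h1⟩, rfl⟩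

/-- **the unit group**: nowhere vanishing equivariant smooth functions are exactly the
`θ t`, `t ∈ (F ⊗[K] M)ˣ`, for a unique `t`. -/
theorem thC_existsUnique_unit
    (hF : ∀ (h : H) (x : F), h • algebraMap F Ω x = algebraMap F Ω x)
    (hψ : ∀ (h : H) (y : Mt), ι (ψ h y) = h • ι y)
    (hfix : ∀ z : Ω, (∀ h : H, h • z = z) → z ∈ (algebraMap F Ω).range)
    (f : (Mt ≃ₐ[K] Mt) → Ωˣ)
    (hf1 : ∀ h g, (f (ψ h * g) : Ω) = h • (f g : Ω))
    (hf2 : ∃ L : IntermediateField K Mt, L ≤ M ∧ FiniteDimensional K L ∧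
        ∀ g, ∀ u ∈ L.fixingSubgroup, f (g * u) = f g) :
    ∃! t : (F ⊗[K] ↥M)ˣ, ∀ g, thC_theta (F := F) ι M (t : F ⊗[K] ↥M) g = (f g : Ω) := by
  obtain ⟨L, hLM, hfd, hf2⟩ := hf2
  obtain ⟨t, ht⟩ := (thC_exists_theta_eq_iff (F := F) ι ψ M hF hψ hfix
    (fun g => (f g : Ω))).2 ⟨hf1, L, hLM, hfd, fun g u hu => by rw [hf2 g u hu]⟩
  have htu : IsUnit t := (thC_isUnit_iff (F := F) ι ψ M hF hψ hfix t).2 fun g => by
    rw [ht]
    exact (f g).ne_zero
  refine ⟨htu.unit, fun g => by rw [IsUnit.unit_spec, ht], fun t' ht' => ?_⟩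
  apply Units.ext
  apply thC_theta_injective (F := F) ι M
  funext g
  rw [ht' g, IsUnit.unit_spec, ht]

end Global

end Fermat.Agent.CFT
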