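import Fermat.Agent.CFT.Bridge.ThetaCore

/-!
# S55 bridge: the dictionary `θ` on the full tensor product `F ⊗[K] M̃`

Same setting as `Bridge/ThetaCore.lean` (`K ⊆ F ⊆ Ω`, `M̃ / K` Galois with group `Γ`,
`ι : M̃ →ₐ[K] Ω`, a group `H` acting on `Ω` with fixed field `F`, `ψ : H →* Γ`), but for the full
tensor product `F ⊗[K] M̃` (model `ℚ_v ⊗[ℚ] Q̄`):

`θ : F ⊗[K] M̃ ⟶ (Γ → Ω)`, `x ⊗ y ↦ (g ↦ x * ι (g y))`

is injective, `t` lies in the image of `F ⊗[K] L` (`L / K` finite Galois) iff `θ t` is right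
invariant under `Gal(M̃/L)`, and the units of level `L` are the nowhere vanishing equivariant
functions of level `L`.
-/

set_option autoImplicit false
set_option linter.style.haveILetI false

namespace Fermat.Agent.CFT

open scoped TensorProduct

section Defs

variable {K F Ω Mt : Type} [Field K] [Field F] [Field Ω] [Field Mt]
  [Algebra K F] [Algebra F Ω] [Algebra K Ω] [IsScalarTower K F Ω]
  [Algebra K Mt] (ι : Mt →ₐ[K] Ω)

/-- `y ↦ (g ↦ ι (g y))` on `M̃`. -/
noncomputable def thT_evalHom : Mt →ₐ[K] ((Mt ≃ₐ[K] Mt) → Ω) :=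
  AlgHom.pi (fun g => ι.comp (g : Mt →ₐ[K] Mt))

/-- `θ : F ⊗[K] M̃ ⟶ (Γ → Ω)`, `x ⊗ y ↦ (g ↦ x * ι (g y))`. -/
noncomputable def thT_theta : F ⊗[K] Mt →ₐ[F] ((Mt ≃ₐ[K] Mt) → Ω) :=
  Algebra.TensorProduct.lift (Algebra.ofId F ((Mt ≃ₐ[K] Mt) → Ω)) (thT_evalHom ι)
    (fun _ _ => Commute.all _ _)

theorem thT_theta_tmul (x : F) (y : Mt) (g : Mt ≃ₐ[K] Mt) :
    thT_theta (F := F) ι (x ⊗ₜ[K] y) g = algebraMap F Ω x * ι (g y) := by
  unfold thT_theta
  rw [Algebra.TensorProduct.lift_tmul]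
  rfl

/-- the level map `F ⊗[K] L ⟶ F ⊗[K] M̃`. -/
noncomputable def thT_incl (L : IntermediateField K Mt) : F ⊗[K] ↥L →ₐ[F] F ⊗[K] Mt :=
  Algebra.TensorProduct.map (AlgHom.id F F) L.val

theorem thT_incl_tmul (L : IntermediateField K Mt) (x : F) (y : L) :
    thT_incl (F := F) L (x ⊗ₜ[K] y) = x ⊗ₜ[K] (y : Mt) := by
  unfold thT_incl
  rw [Algebra.TensorProduct.map_tmul]
  rfl

theorem thT_theta_incl (L : IntermediateField K Mt) (s : F ⊗[K] ↥L) :
    thT_theta (F := F) ι (thT_incl (F := F) L s) = thC_theta (F := F) ι L s := by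
  induction s using TensorProduct.induction_on with
  | zero => simp
  | tmul x y =>
    funext g
    rw [thT_incl_tmul, thT_theta_tmul, thC_theta_tmul]
  | add a b ha hb => rw [map_add, map_add, map_add, ha, hb]

theorem thT_incl_map {L₁ L₂ : IntermediateField K Mt} (h : L₁ ≤ L₂) (s : F ⊗[K] ↥L₁) :
    thT_incl (F := F) L₂
      (Algebra.TensorProduct.map (AlgHom.id F F) (IntermediateField.inclusion h) s) =
    thT_incl (F := F) L₁ s := by
  induction s using TensorProduct.induction_on with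
  | zero => simp
  | tmul x y =>
    rw [Algebra.TensorProduct.map_tmul, thT_incl_tmul, thT_incl_tmul]
    rfl
  | add a b ha hb => rw [map_add, map_add, map_add, ha, hb]

/-- **`Γ`-equivariance**: the action of `g₀ ∈ Γ` on the second factor is right translation. -/
theorem thT_theta_map_smul (g₀ : Mt ≃ₐ[K] Mt) (t : F ⊗[K] Mt) (g : Mt ≃ₐ[K] Mt) :
    thT_theta (F := F) ι
      (Algebra.TensorProduct.map (AlgHom.id F F) (g₀ : Mt →ₐ[K] Mt) t) g =
    thT_theta (F := F) ι t (g * g₀) := by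
  induction t using TensorProduct.induction_on with
  | zero => simp
  | tmul x y =>
    rw [Algebra.TensorProduct.map_tmul, thT_theta_tmul, thT_theta_tmul]
    rfl
  | add a b ha hb => rw [map_add, map_add, Pi.add_apply, ha, hb, map_add, Pi.add_apply]

end Defs

section Main

open scoped Classical

variable {K F Ω Mt H : Type} [Field K] [Field F] [Field Ω] [Field Mt]
  [Algebra K F] [Algebra F Ω] [Algebra K Ω] [IsScalarTower K F Ω] [IsAlgClosed Ω]
  [Algebra K Mt] [IsGalois K Mt] (ι : Mt →ₐ[K] Ω)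
  [Group H] [MulSemiringAction H Ω] (ψ : H →* (Mt ≃ₐ[K] Mt))

omit [IsAlgClosed Ω] [Field F] [Field Ω] [Algebra K Ω] in
/-- a finite subextension lies in a finite Galois subextension. -/
theorem thT_exists_galois_ge (L : IntermediateField K Mt) [FiniteDimensional K L] :
    ∃ L' : IntermediateField K Mt, L ≤ L' ∧ FiniteDimensional K L' ∧ IsGalois K L' := by
  refine ⟨IntermediateField.normalClosure K (↥L) Mt, L.le_normalClosure, inferInstance, ?_⟩
  haveI : Normal K (IntermediateField.normalClosure K (↥L) Mt) := inferInstance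
  exact IsGalois.mk

omit [IsAlgClosed Ω] [Field Ω] [Algebra K Ω] in
/-- every element of `F ⊗[K] M̃` comes from a finite Galois level. -/
theorem thT_exists_level (t : F ⊗[K] Mt) :
    ∃ L : IntermediateField K Mt, FiniteDimensional K L ∧ IsGalois K L ∧
      ∃ s : F ⊗[K] ↥L, thT_incl (F := F) L s = t := by
  have htmul : ∀ (x : F) (y : Mt), ∃ L : IntermediateField K Mt,
      FiniteDimensional K L ∧ IsGalois K L ∧ ∃ s : F ⊗[K] ↥L,
        thT_incl (F := F) L s = x ⊗ₜ[K] y := by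
    intro x y
    haveI : FiniteDimensional K (IntermediateField.adjoin K {y}) :=
      IntermediateField.adjoin.finiteDimensional (Algebra.IsIntegral.isIntegral _)
    obtain ⟨L', h1, h3, h4⟩ := thT_exists_galois_ge (IntermediateField.adjoin K {y})
    refine ⟨L', h3, h4,
      x ⊗ₜ[K] ⟨y, h1 (IntermediateField.subset_adjoin K _ (Set.mem_singleton _))⟩, ?_⟩
    rw [thT_incl_tmul]
  induction t using TensorProduct.induction_on with
  | zero =>
    obtain ⟨L, h1, h2, s, hs⟩ := htmul 0 0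
    exact ⟨L, h1, h2, s, by rw [hs, TensorProduct.zero_tmul]⟩
  | tmul x y => exact htmul x y
  | add a b ha hb =>
    obtain ⟨L₁, hfd₁, -, s₁, rfl⟩ := ha
    obtain ⟨L₂, hfd₂, -, s₂, rfl⟩ := hb
    haveI := hfd₁
    haveI := hfd₂
    obtain ⟨L', h1, h3, h4⟩ := thT_exists_galois_ge (L₁ ⊔ L₂)
    refine ⟨L', h3, h4,
      Algebra.TensorProduct.map (AlgHom.id F F)
        (IntermediateField.inclusion (le_sup_left.trans h1)) s₁ +
      Algebra.TensorProduct.map (AlgHom.id F F)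
        (IntermediateField.inclusion (le_sup_right.trans h1)) s₂, ?_⟩
    rw [map_add, thT_incl_map, thT_incl_map]

/-- **injectivity of `θ`** on the full tensor product. -/
theorem thT_theta_injective : Function.Injective (thT_theta (F := F) ι) := by
  rw [injective_iff_map_eq_zero]
  intro t ht
  obtain ⟨L, hfd, hgal, s, rfl⟩ := thT_exists_level (F := F) t
  haveI := hfd
  haveI := hgal
  rw [thT_theta_incl] at ht
  have hs : s = 0 := thC_theta_injective_finite ι L (by rw [ht, map_zero])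
  rw [hs, map_zero]

omit [IsAlgClosed Ω] [IsGalois K Mt] in
/-- the functions in the image of `θ` are equivariant for the local group. -/
theorem thT_theta_equivariant
    (hF : ∀ (h : H) (x : F), h • algebraMap F Ω x = algebraMap F Ω x)
    (hψ : ∀ (h : H) (y : Mt), ι (ψ h y) = h • ι y)
    (t : F ⊗[K] Mt) (h : H) (g : Mt ≃ₐ[K] Mt) :
    thT_theta (F := F) ι t (ψ h * g) = h • thT_theta (F := F) ι t g := by
  induction t using TensorProduct.induction_on with
  | zero => simp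
  | tmul x y => rw [thT_theta_tmul, thT_theta_tmul, AlgEquiv.mul_apply, hψ, smul_mul', hF]
  | add a b ha hb => rw [map_add, Pi.add_apply, Pi.add_apply, ha, hb, smul_add]

/-- **the level of an element**: `t` comes from `F ⊗[K] L` iff `θ t` is right invariant under
`Gal(M̃/L)`. -/
theorem thT_exists_incl_eq_iff
    (hF : ∀ (h : H) (x : F), h • algebraMap F Ω x = algebraMap F Ω x)
    (hψ : ∀ (h : H) (y : Mt), ι (ψ h y) = h • ι y)
    (hfix : ∀ z : Ω, (∀ h : H, h • z = z) → z ∈ (algebraMap F Ω).range)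
    (L : IntermediateField K Mt) [FiniteDimensional K L] [IsGalois K L] (t : F ⊗[K] Mt) :
    (∃ s : F ⊗[K] ↥L, thT_incl (F := F) L s = t) ↔
      ∀ g, ∀ u ∈ L.fixingSubgroup,
        thT_theta (F := F) ι t (g * u) = thT_theta (F := F) ι t g := by
  constructor
  · rintro ⟨s, rfl⟩ g u hu
    rw [thT_theta_incl]
    exact thC_theta_rightInvariant ι L s g u hu
  · intro hinv
    obtain ⟨s, hs⟩ := thC_theta_surjective_finite (F := F) ι ψ L hψ hfix
      (thT_theta (F := F) ι t) (fun h g => thT_theta_equivariant ι ψ hF hψ t h g) hinv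
    refine ⟨s, thT_theta_injective (F := F) ι ?_⟩
    rw [thT_theta_incl, hs]

/-- **the image of `θ`**: equivariant functions of some finite Galois level. -/
theorem thT_exists_theta_eq_iff
    (hF : ∀ (h : H) (x : F), h • algebraMap F Ω x = algebraMap F Ω x)
    (hψ : ∀ (h : H) (y : Mt), ι (ψ h y) = h • ι y)
    (hfix : ∀ z : Ω, (∀ h : H, h • z = z) → z ∈ (algebraMap F Ω).range)
    (L : IntermediateField K Mt) [FiniteDimensional K L] [IsGalois K L]
    (f : (Mt ≃ₐ[K] Mt) → Ω) :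
    (∃ s : F ⊗[K] ↥L, thT_theta (F := F) ι (thT_incl (F := F) L s) = f) ↔
      (∀ h g, f (ψ h * g) = h • f g) ∧ ∀ g, ∀ u ∈ L.fixingSubgroup, f (g * u) = f g := by
  constructor
  · rintro ⟨s, rfl⟩
    refine ⟨fun h g => thT_theta_equivariant ι ψ hF hψ _ h g, fun g u hu => ?_⟩
    rw [thT_theta_incl]
    exact thC_theta_rightInvariant ι L s g u hu
  · rintro ⟨hf1, hf2⟩
    obtain ⟨s, hs⟩ := thC_theta_surjective_finite (F := F) ι ψ L hψ hfix f hf1 hf2
    exact ⟨s, by rw [thT_theta_incl, hs]⟩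

/-- **units**: `t` is a unit of `F ⊗[K] M̃` iff `θ t` vanishes nowhere. -/
theorem thT_isUnit_iff
    (hF : ∀ (h : H) (x : F), h • algebraMap F Ω x = algebraMap F Ω x)
    (hψ : ∀ (h : H) (y : Mt), ι (ψ h y) = h • ι y)
    (hfix : ∀ z : Ω, (∀ h : H, h • z = z) → z ∈ (algebraMap F Ω).range)
    (t : F ⊗[K] Mt) :
    IsUnit t ↔ ∀ g, thT_theta (F := F) ι t g ≠ 0 := by
  constructor
  · rintro ⟨u, rfl⟩ g h0
    have h1 : thT_theta (F := F) ι (u : F ⊗[K] Mt) *
        thT_theta (F := F) ι ((u⁻¹ : (F ⊗[K] Mt)ˣ) : F ⊗[K] Mt) = 1 := by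
      rw [← map_mul, Units.mul_inv, map_one]
    have h2 := congrFun h1 g
    rw [Pi.mul_apply, h0, zero_mul] at h2
    exact zero_ne_one h2
  · intro hne
    obtain ⟨L, hfd, hgal, s, rfl⟩ := thT_exists_level (F := F) t
    haveI := hfd
    haveI := hgal
    obtain ⟨hf1, hf2⟩ := (thT_exists_theta_eq_iff (F := F) ι ψ hF hψ hfix L _).1 ⟨s, rfl⟩
    obtain ⟨s', hs'⟩ := (thT_exists_theta_eq_iff (F := F) ι ψ hF hψ hfix L
      (fun g => (thT_theta (F := F) ι (thT_incl (F := F) L s) g)⁻¹)).2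
      ⟨fun h g => by rw [hf1, smul_inv''], fun g u hu => by rw [hf2 g u hu]⟩
    have h1 : thT_incl (F := F) L s * thT_incl (F := F) L s' = 1 := by
      apply thT_theta_injective (F := F) ι
      rw [map_mul, map_one, hs']
      funext g
      exact mul_inv_cancel₀ (hne g)
    exact IsUnit.of_mul_eq_one _ h1

/-- the inverse of a unit of level `L` has level `L`. -/
theorem thT_units_inv_level
    (hF : ∀ (h : H) (x : F), h • algebraMap F Ω x = algebraMap F Ω x)
    (hψ : ∀ (h : H) (y : Mt), ι (ψ h y) = h • ι y)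
    (hfix : ∀ z : Ω, (∀ h : H, h • z = z) → z ∈ (algebraMap F Ω).range)
    (L : IntermediateField K Mt) [FiniteDimensional K L] [IsGalois K L] (t : (F ⊗[K] Mt)ˣ)
    (ht : ∃ s : F ⊗[K] ↥L, thT_incl (F := F) L s = (t : F ⊗[K] Mt)) :
    ∃ s : F ⊗[K] ↥L, thT_incl (F := F) L s = ((t⁻¹ : (F ⊗[K] Mt)ˣ) : F ⊗[K] Mt) := by
  rw [thT_exists_incl_eq_iff (F := F) ι ψ hF hψ hfix L] at ht ⊢
  have hmul : ∀ g, thT_theta (F := F) ι ((t⁻¹ : (F ⊗[K] Mt)ˣ) : F ⊗[K] Mt) g *
      thT_theta (F := F) ι (t : F ⊗[K] Mt) g = 1 := by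
    intro g
    have h1 : thT_theta (F := F) ι ((t⁻¹ : (F ⊗[K] Mt)ˣ) : F ⊗[K] Mt) *
        thT_theta (F := F) ι (t : F ⊗[K] Mt) = 1 := by
      rw [← map_mul, Units.inv_mul, map_one]
    exact congrFun h1 g
  intro g u hu
  rw [eq_inv_of_mul_eq_one_left (hmul (g * u)), eq_inv_of_mul_eq_one_left (hmul g), ht g u hu]

/-- **the unit group**: a nowhere vanishing equivariant function of level `L` is `θ t` for a
unique unit `t`, and `t`, `t⁻¹` have level `L`. -/
theorem thT_existsUnique_unit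
    (hF : ∀ (h : H) (x : F), h • algebraMap F Ω x = algebraMap F Ω x)
    (hψ : ∀ (h : H) (y : Mt), ι (ψ h y) = h • ι y)
    (hfix : ∀ z : Ω, (∀ h : H, h • z = z) → z ∈ (algebraMap F Ω).range)
    (L : IntermediateField K Mt) [FiniteDimensional K L] [IsGalois K L]
    (f : (Mt ≃ₐ[K] Mt) → Ωˣ)
    (hf1 : ∀ h g, (f (ψ h * g) : Ω) = h • (f g : Ω))
    (hf2 : ∀ g, ∀ u ∈ L.fixingSubgroup, f (g * u) = f g) :
    ∃! t : (F ⊗[K] Mt)ˣ, ∀ g, thT_theta (F := F) ι (t : F ⊗[K] Mt) g = (f g : Ω) := by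
  obtain ⟨s, hs⟩ := (thT_exists_theta_eq_iff (F := F) ι ψ hF hψ hfix L
    (fun g => (f g : Ω))).2 ⟨hf1, fun g u hu => by rw [hf2 g u hu]⟩
  have htu : IsUnit (thT_incl (F := F) L s) :=
    (thT_isUnit_iff (F := F) ι ψ hF hψ hfix _).2 fun g => by
      rw [hs]
      exact (f g).ne_zero
  refine ⟨htu.unit, fun g => by rw [IsUnit.unit_spec, hs], fun t' ht' => ?_⟩
  apply Units.ext
  apply thT_theta_injective (F := F) ι
  funext g
  rw [ht' g, IsUnit.unit_spec, hs]

/-- the unit attached to a function of level `L` has level `L`. -/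
theorem thT_unit_level
    (hF : ∀ (h : H) (x : F), h • algebraMap F Ω x = algebraMap F Ω x)
    (hψ : ∀ (h : H) (y : Mt), ι (ψ h y) = h • ι y)
    (hfix : ∀ z : Ω, (∀ h : H, h • z = z) → z ∈ (algebraMap F Ω).range)
    (L : IntermediateField K Mt) [FiniteDimensional K L] [IsGalois K L]
    (f : (Mt ≃ₐ[K] Mt) → Ωˣ)
    (hf2 : ∀ g, ∀ u ∈ L.fixingSubgroup, f (g * u) = f g)
    (t : (F ⊗[K] Mt)ˣ) (ht : ∀ g, thT_theta (F := F) ι (t : F ⊗[K] Mt) g = (f g : Ω)) :
    (∃ s : F ⊗[K] ↥L, thT_incl (F := F) L s = (t : F ⊗[K] Mt)) ∧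
    ∃ s : F ⊗[K] ↥L, thT_incl (F := F) L s = ((t⁻¹ : (F ⊗[K] Mt)ˣ) : F ⊗[K] Mt) := by
  have h1 : ∃ s : F ⊗[K] ↥L, thT_incl (F := F) L s = (t : F ⊗[K] Mt) := by
    rw [thT_exists_incl_eq_iff (F := F) ι ψ hF hψ hfix L]
    intro g u hu
    rw [ht, ht, hf2 g u hu]
  exact ⟨h1, thT_units_inv_level (F := F) ι ψ hF hψ hfix L t h1⟩

end Main

end Fermat.Agent.CFT
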