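import Mathlib
import Fermat.Prelude.Def_GaloisRep_CompletionBridge
import Fermat.Agent.CFT.Bridge.ThetaCore
import Fermat.Agent.CFT.Bridge.ThetaTop

set_option autoImplicit false
set_option linter.style.haveILetI false

/-!
# Instantiation of the abstract dictionary `ThetaCore` at `ℚ`, `ℚ_q`, `Q̄_q = PadicAlgCl q`
-/

namespace Fermat.Agent.CFT

open IntermediateField TensorProduct IsDedekindDomain NumberField

section Inst

variable (q : ℕ) [Fact q.Prime]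

local notation "Qb" => AlgebraicClosure ℚ


local instance isAlgebraicQbar_ti : Algebra.IsAlgebraic ℚ (AlgebraicClosure ℚ) :=
  AlgebraicClosure.isAlgebraic ℚ
local instance isAlgClosureQbar_ti : IsAlgClosure ℚ (AlgebraicClosure ℚ) :=
  ⟨inferInstance, inferInstance⟩
local instance normalQbar_ti : Normal ℚ (AlgebraicClosure ℚ) :=
  IsAlgClosure.normal ℚ (AlgebraicClosure ℚ)
local instance isGaloisQbar_ti : IsGalois ℚ (AlgebraicClosure ℚ) := ⟨⟩
local instance isAlgClosurePadic_ti : IsAlgClosure ℚ_[q] (PadicAlgCl q) :=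
  ⟨inferInstance, inferInstance⟩
local instance normalPadicAlgCl_ti : Normal ℚ_[q] (PadicAlgCl q) :=
  IsAlgClosure.normal ℚ_[q] (PadicAlgCl q)
local instance isGaloisPadicAlgCl_ti : IsGalois ℚ_[q] (PadicAlgCl q) := ⟨⟩

/-- (hF) the local Galois group fixes `ℚ_q` -/
theorem thI_hF (h : (PadicAlgCl q) ≃ₐ[ℚ_[q]] (PadicAlgCl q)) (x : ℚ_[q]) :
    h • algebraMap ℚ_[q] (PadicAlgCl q) x = algebraMap ℚ_[q] (PadicAlgCl q) x := h.commutes x

/-- (hψ) compatibility of `r = localGaloisToGlobal q` with `ι = padicEmbedding q` -/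
theorem thI_hψ (h : (PadicAlgCl q) ≃ₐ[ℚ_[q]] (PadicAlgCl q)) (y : Qb) :
    padicEmbedding q (localGaloisToGlobal q h y) = h • padicEmbedding q y :=
  padicEmbedding_localGaloisToGlobal q h y

/-- (hfix) the fixed field of `Gal(Q̄_q/ℚ_q)` is `ℚ_q` -/
theorem thI_hfix (z : (PadicAlgCl q)) (hz : ∀ h : (PadicAlgCl q) ≃ₐ[ℚ_[q]] (PadicAlgCl q), h • z = z) :
    z ∈ (algebraMap ℚ_[q] (PadicAlgCl q)).range :=
  (InfiniteGalois.mem_range_algebraMap_iff_fixed z).2 hz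

variable {F : Type} [Field F] [Algebra F (PadicAlgCl q)]

/-- (hF) for any field `F` whose image in `Q̄_q` lies in `ℚ_q` -/
theorem thI_hF_of_range (hr : (algebraMap F (PadicAlgCl q)).range ≤ (algebraMap ℚ_[q] (PadicAlgCl q)).range)
    (h : (PadicAlgCl q) ≃ₐ[ℚ_[q]] (PadicAlgCl q)) (x : F) : h • algebraMap F (PadicAlgCl q) x = algebraMap F (PadicAlgCl q) x := by
  obtain ⟨a, ha⟩ := hr ⟨x, rfl⟩
  rw [← ha]
  exact h.commutes a

/-- (hfix) for any field `F` whose image in `Q̄_q` contains `ℚ_q` -/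
theorem thI_hfix_of_range (hr : (algebraMap ℚ_[q] (PadicAlgCl q)).range ≤ (algebraMap F (PadicAlgCl q)).range)
    (z : (PadicAlgCl q)) (hz : ∀ h : (PadicAlgCl q) ≃ₐ[ℚ_[q]] (PadicAlgCl q), h • z = z) : z ∈ (algebraMap F (PadicAlgCl q)).range :=
  hr (thI_hfix q z hz)

local instance towerQqPadic_ti : IsScalarTower ℚ ℚ_[q] (PadicAlgCl q) :=
  IsScalarTower.of_algebraMap_eq' (Subsingleton.elim _ _)

/-- `ThetaCore` at `(ℚ, ℚ_q, Q̄_q, Q̄, ι, r)`: the image of the dictionary -/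
theorem thI_exists_theta_eq_iff (M : IntermediateField ℚ Qb) [Normal ℚ M]
    (f : (Qb ≃ₐ[ℚ] Qb) → PadicAlgCl q) :
    (∃ t : ℚ_[q] ⊗[ℚ] ↥M, thC_theta (F := ℚ_[q]) (padicEmbedding q) M t = f) ↔
      (∀ (h : PadicAlgCl q ≃ₐ[ℚ_[q]] PadicAlgCl q) g,
        f (localGaloisToGlobal q h * g) = h • f g) ∧
      ∃ L : IntermediateField ℚ Qb, L ≤ M ∧ FiniteDimensional ℚ L ∧
        ∀ g, ∀ u ∈ L.fixingSubgroup, f (g * u) = f g := by
  have hM : @Normal ℚ ↥M _ _ (IntermediateField.algebra' M) := ‹Normal ℚ ↥M›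
  exact thC_exists_theta_eq_iff (F := ℚ_[q]) (padicEmbedding q) (localGaloisToGlobal q) M
    (thI_hF q) (thI_hψ q) (thI_hfix q) f

/-- `ThetaCore` at `(ℚ, ℚ_q, Q̄_q, Q̄, ι, r)`: the unit group -/
theorem thI_existsUnique_unit (M : IntermediateField ℚ Qb) [Normal ℚ M]
    (f : (Qb ≃ₐ[ℚ] Qb) → (PadicAlgCl q)ˣ)
    (hf1 : ∀ (h : PadicAlgCl q ≃ₐ[ℚ_[q]] PadicAlgCl q) g,
      (f (localGaloisToGlobal q h * g) : PadicAlgCl q) = h • (f g : PadicAlgCl q))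
    (hf2 : ∃ L : IntermediateField ℚ Qb, L ≤ M ∧ FiniteDimensional ℚ L ∧
        ∀ g, ∀ u ∈ L.fixingSubgroup, f (g * u) = f g) :
    ∃! t : (ℚ_[q] ⊗[ℚ] ↥M)ˣ, ∀ g,
      thC_theta (F := ℚ_[q]) (padicEmbedding q) M (t : ℚ_[q] ⊗[ℚ] ↥M) g = (f g : PadicAlgCl q) := by
  have hM : @Normal ℚ ↥M _ _ (IntermediateField.algebra' M) := ‹Normal ℚ ↥M›
  exact thC_existsUnique_unit (F := ℚ_[q]) (padicEmbedding q) (localGaloisToGlobal q) M
    (thI_hF q) (thI_hψ q) (thI_hfix q) f hf1 hf2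

end Inst


section Units

variable (q : ℕ) [Fact q.Prime]

local notation "Qb" => AlgebraicClosure ℚ

local instance isAlgebraicQbar_ti3 : Algebra.IsAlgebraic ℚ (AlgebraicClosure ℚ) :=
  AlgebraicClosure.isAlgebraic ℚ
local instance isAlgClosureQbar_ti3 : IsAlgClosure ℚ (AlgebraicClosure ℚ) :=
  ⟨inferInstance, inferInstance⟩
local instance normalQbar_ti3 : Normal ℚ (AlgebraicClosure ℚ) :=
  IsAlgClosure.normal ℚ (AlgebraicClosure ℚ)
local instance isGaloisQbar_ti3 : IsGalois ℚ (AlgebraicClosure ℚ) := ⟨⟩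
local instance isAlgClosurePadic_ti3 : IsAlgClosure ℚ_[q] (PadicAlgCl q) :=
  ⟨inferInstance, inferInstance⟩
local instance normalPadicAlgCl_ti3 : Normal ℚ_[q] (PadicAlgCl q) :=
  IsAlgClosure.normal ℚ_[q] (PadicAlgCl q)
local instance isGaloisPadicAlgCl_ti3 : IsGalois ℚ_[q] (PadicAlgCl q) := ⟨⟩

variable {F : Type} [Field F] [Algebra ℚ F] [Algebra F (PadicAlgCl q)]
  [IsScalarTower ℚ F (PadicAlgCl q)]

/-- the dictionary on unit groups: `(F ⊗ Q̄)ˣ → (Gal(Q̄/ℚ) → Q̄_qˣ)`, `t ↦ (g ↦ θ t g)`. -/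
noncomputable def thI_unitTheta :
    (F ⊗[ℚ] Qb)ˣ →* ((Qb ≃ₐ[ℚ] Qb) → (PadicAlgCl q)ˣ) :=
  (MulEquiv.piUnits (M := fun _ : (Qb ≃ₐ[ℚ] Qb) => PadicAlgCl q)).toMonoidHom.comp
    (Units.map ((thT_theta (F := F) (padicEmbedding q) :
      F ⊗[ℚ] Qb →ₐ[F] ((Qb ≃ₐ[ℚ] Qb) → PadicAlgCl q)) : F ⊗[ℚ] Qb →* _))

theorem thI_unitTheta_apply (t : (F ⊗[ℚ] Qb)ˣ) (g : Qb ≃ₐ[ℚ] Qb) :
    ((thI_unitTheta q t g : (PadicAlgCl q)ˣ) : PadicAlgCl q) =
      thT_theta (F := F) (padicEmbedding q) (t : F ⊗[ℚ] Qb) g := rfl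

theorem thI_unitTheta_injective : Function.Injective (thI_unitTheta (F := F) q) := by
  intro t t' h
  apply Units.ext
  apply thT_theta_injective (F := F) (padicEmbedding q)
  funext g
  rw [← thI_unitTheta_apply, ← thI_unitTheta_apply, h]

/-- left equivariance for the local Galois group -/
theorem thI_unitTheta_local_mul
    (hr : (algebraMap F (PadicAlgCl q)).range ≤ (algebraMap ℚ_[q] (PadicAlgCl q)).range)
    (h : PadicAlgCl q ≃ₐ[ℚ_[q]] PadicAlgCl q) (g : Qb ≃ₐ[ℚ] Qb) (t : (F ⊗[ℚ] Qb)ˣ) :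
    thI_unitTheta q t (localGaloisToGlobal q h * g) = h • thI_unitTheta q t g := by
  apply Units.ext
  refine Eq.trans ?_ (Units.coe_smul h (thI_unitTheta q t g)).symm
  rw [thI_unitTheta_apply, thI_unitTheta_apply]
  exact thT_theta_equivariant (F := F) (padicEmbedding q) (localGaloisToGlobal q)
    (thI_hF_of_range q hr) (thI_hψ q) (t : F ⊗[ℚ] Qb) h g

/-- the action of `γ ∈ Gal(Q̄/ℚ)` on the second tensor factor is right translation -/
theorem thI_unitTheta_map (γ g : Qb ≃ₐ[ℚ] Qb) (t : (F ⊗[ℚ] Qb)ˣ) :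
    thI_unitTheta q (Units.map ((Algebra.TensorProduct.map (AlgHom.id F F)
      (γ : Qb →ₐ[ℚ] Qb) : F ⊗[ℚ] Qb →ₐ[F] F ⊗[ℚ] Qb) : F ⊗[ℚ] Qb →* F ⊗[ℚ] Qb) t) g =
      thI_unitTheta q t (g * γ) := by
  apply Units.ext
  rw [thI_unitTheta_apply, thI_unitTheta_apply]
  exact thT_theta_map_smul (F := F) (padicEmbedding q) γ (t : F ⊗[ℚ] Qb) g

/-- **level criterion**: `t` and `t⁻¹` come from `F ⊗ L` (`L` finite Galois) iff the function
of `t` is right invariant under `Gal(Q̄/L)`. -/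
theorem thI_unitTheta_level_iff
    (hr : (algebraMap F (PadicAlgCl q)).range = (algebraMap ℚ_[q] (PadicAlgCl q)).range)
    (L : IntermediateField ℚ Qb) (hfd : FiniteDimensional ℚ L) (hgal : IsGalois ℚ L)
    (t : (F ⊗[ℚ] Qb)ˣ) :
    ((∃ s : F ⊗[ℚ] ↥L, thT_incl (F := F) L s = (t : F ⊗[ℚ] Qb)) ∧
      ∃ s : F ⊗[ℚ] ↥L, thT_incl (F := F) L s = ((t⁻¹ : (F ⊗[ℚ] Qb)ˣ) : F ⊗[ℚ] Qb)) ↔
    ∀ g, ∀ u ∈ L.fixingSubgroup, thI_unitTheta q t (g * u) = thI_unitTheta q t g := by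
  have hfd' : @FiniteDimensional ℚ ↥L _ _ (IntermediateField.module' L) := hfd
  have hgal' : @IsGalois ℚ _ ↥L _ (IntermediateField.algebra' L) := hgal
  constructor
  · rintro ⟨h1, -⟩ g u hu
    apply Units.ext
    rw [thI_unitTheta_apply, thI_unitTheta_apply]
    exact (thT_exists_incl_eq_iff (F := F) (padicEmbedding q) (localGaloisToGlobal q)
      (thI_hF_of_range q hr.le) (thI_hψ q) (thI_hfix_of_range q hr.ge) L (t : F ⊗[ℚ] Qb)).1 h1
      g u hu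
  · intro h
    exact thT_unit_level (F := F) (padicEmbedding q) (localGaloisToGlobal q)
      (thI_hF_of_range q hr.le) (thI_hψ q) (thI_hfix_of_range q hr.ge) L
      (thI_unitTheta q t) h t (fun g => (thI_unitTheta_apply q t g).symm)

/-- **the unit group**: every left-equivariant, right `Gal(Q̄/L)`-invariant function
`Gal(Q̄/ℚ) → Q̄_qˣ` is the function of a unique unit. -/
theorem thI_existsUnique_unitTheta
    (hr : (algebraMap F (PadicAlgCl q)).range = (algebraMap ℚ_[q] (PadicAlgCl q)).range)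
    (L : IntermediateField ℚ Qb) (hfd : FiniteDimensional ℚ L) (hgal : IsGalois ℚ L)
    (f : (Qb ≃ₐ[ℚ] Qb) → (PadicAlgCl q)ˣ)
    (hf1 : ∀ (h : PadicAlgCl q ≃ₐ[ℚ_[q]] PadicAlgCl q) g,
      f (localGaloisToGlobal q h * g) = h • f g)
    (hf2 : ∀ g, ∀ u ∈ L.fixingSubgroup, f (g * u) = f g) :
    ∃! t : (F ⊗[ℚ] Qb)ˣ, thI_unitTheta q t = f := by
  have hfd' : @FiniteDimensional ℚ ↥L _ _ (IntermediateField.module' L) := hfd
  have hgal' : @IsGalois ℚ _ ↥L _ (IntermediateField.algebra' L) := hgal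
  obtain ⟨t, ht, hu⟩ := thT_existsUnique_unit (F := F) (padicEmbedding q) (localGaloisToGlobal q)
    (thI_hF_of_range q hr.le) (thI_hψ q) (thI_hfix_of_range q hr.ge) L f
    (fun h g => by rw [hf1 h g]; exact Units.coe_smul h (f g)) hf2
  refine ⟨t, ?_, fun t' ht' => hu t' fun g => ?_⟩
  · funext g
    apply Units.ext
    rw [thI_unitTheta_apply]
    exact ht g
  · rw [← thI_unitTheta_apply, ht']

/-- the function of a diagonal element `1 ⊗ y` is `g ↦ ι (g y)` -/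
theorem thI_unitTheta_of_eq_tmul (t : (F ⊗[ℚ] Qb)ˣ) (a : F) (y : Qb)
    (ht : (t : F ⊗[ℚ] Qb) = a ⊗ₜ[ℚ] y) (g : Qb ≃ₐ[ℚ] Qb) :
    ((thI_unitTheta q t g : (PadicAlgCl q)ˣ) : PadicAlgCl q) =
      algebraMap F (PadicAlgCl q) a * padicEmbedding q (g y) := by
  rw [thI_unitTheta_apply, ht, thT_theta_tmul]

end Units

section Adic

open Rat.HeightOneSpectrum

local instance isAlgebraicQbar_ti2 : Algebra.IsAlgebraic ℚ (AlgebraicClosure ℚ) :=
  AlgebraicClosure.isAlgebraic ℚ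
local instance isAlgClosureQbar_ti2 : IsAlgClosure ℚ (AlgebraicClosure ℚ) :=
  ⟨inferInstance, inferInstance⟩
local instance normalQbar_ti2 : Normal ℚ (AlgebraicClosure ℚ) :=
  IsAlgClosure.normal ℚ (AlgebraicClosure ℚ)
local instance isGaloisQbar_ti2 : IsGalois ℚ (AlgebraicClosure ℚ) := ⟨⟩

variable (v : HeightOneSpectrum (𝓞 ℚ)) (q : ℕ) [Fact q.Prime]
  (hvq : ((primesEquiv v : Nat.Primes) : ℕ) = q)

/-- `ℚ_v ≃ ℚ_q` for `v` the place of the prime `q` (Mathlib's `padicEquiv`, transported along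
`hvq : primesEquiv v = q`). -/
noncomputable def thI_adicEquiv : v.adicCompletion ℚ ≃+* ℚ_[q] := by
  subst hvq
  exact (adicCompletion.padicEquiv v : v.adicCompletion ℚ ≃+* ℚ_[((primesEquiv v : Nat.Primes) : ℕ)])

/-- `ℚ_v → ℚ_q → Q̄_q` -/
noncomputable def thI_adicToPadic : v.adicCompletion ℚ →+* PadicAlgCl q :=
  (algebraMap ℚ_[q] (PadicAlgCl q)).comp (thI_adicEquiv v q hvq : v.adicCompletion ℚ →+* ℚ_[q])

/-- `Q̄_q` as an algebra over Mathlib's `v`-adic completion of `ℚ` (via `padicEquiv`); use as a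
local instance -/
@[reducible] noncomputable def thI_adicAlgebra :
    Algebra (v.adicCompletion ℚ) (PadicAlgCl q) :=
  (thI_adicToPadic v q hvq).toAlgebra

theorem thI_algebraMap_adic (x : v.adicCompletion ℚ) :
    letI := thI_adicAlgebra v q hvq
    algebraMap (v.adicCompletion ℚ) (PadicAlgCl q) x =
      algebraMap ℚ_[q] (PadicAlgCl q) (thI_adicEquiv v q hvq x) := rfl

theorem thI_isScalarTower_adic :
    letI := thI_adicAlgebra v q hvq
    IsScalarTower ℚ (v.adicCompletion ℚ) (PadicAlgCl q) :=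
  letI := thI_adicAlgebra v q hvq
  IsScalarTower.of_algebraMap_eq' (Subsingleton.elim _ _)

theorem thI_range_adic :
    letI := thI_adicAlgebra v q hvq
    (algebraMap (v.adicCompletion ℚ) (PadicAlgCl q)).range =
      (algebraMap ℚ_[q] (PadicAlgCl q)).range := by
  letI := thI_adicAlgebra v q hvq
  ext z
  constructor
  · rintro ⟨x, rfl⟩
    exact ⟨thI_adicEquiv v q hvq x, rfl⟩
  · rintro ⟨a, rfl⟩
    refine ⟨(thI_adicEquiv v q hvq).symm a, ?_⟩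
    rw [thI_algebraMap_adic]
    congr 1
    exact (thI_adicEquiv v q hvq).apply_symm_apply a

/-- (hF) for `F = ℚ_v` (Mathlib's adic completion) -/
theorem thI_hF_adic (h : PadicAlgCl q ≃ₐ[ℚ_[q]] PadicAlgCl q)
    (x : v.adicCompletion ℚ) :
    letI := thI_adicAlgebra v q hvq
    h • algebraMap (v.adicCompletion ℚ) (PadicAlgCl q) x =
      algebraMap (v.adicCompletion ℚ) (PadicAlgCl q) x :=
  letI := thI_adicAlgebra v q hvq
  thI_hF_of_range q (thI_range_adic v q hvq).le h x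

/-- (hfix) for `F = ℚ_v` -/
theorem thI_hfix_adic (z : PadicAlgCl q)
    (hz : ∀ h : PadicAlgCl q ≃ₐ[ℚ_[q]] PadicAlgCl q, h • z = z) :
    letI := thI_adicAlgebra v q hvq
    z ∈ (algebraMap (v.adicCompletion ℚ) (PadicAlgCl q)).range :=
  letI := thI_adicAlgebra v q hvq
  thI_hfix_of_range q (thI_range_adic v q hvq).ge z hz

local notation "Qb" => AlgebraicClosure ℚ

/-- the dictionary on unit groups for `F = ℚ_v` (Mathlib's adic completion):
`(ℚ_v ⊗ Q̄)ˣ → (Gal(Q̄/ℚ) → Q̄_qˣ)`. -/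
noncomputable def thI_unitThetaAdic :
    ((v.adicCompletion ℚ) ⊗[ℚ] Qb)ˣ →* ((Qb ≃ₐ[ℚ] Qb) → (PadicAlgCl q)ˣ) :=
  letI := thI_adicAlgebra v q hvq
  haveI := thI_isScalarTower_adic v q hvq
  thI_unitTheta (F := v.adicCompletion ℚ) q

theorem thI_unitThetaAdic_of_eq_tmul (t : ((v.adicCompletion ℚ) ⊗[ℚ] Qb)ˣ)
    (a : v.adicCompletion ℚ) (y : Qb)
    (ht : (t : (v.adicCompletion ℚ) ⊗[ℚ] Qb) = a ⊗ₜ[ℚ] y) (g : Qb ≃ₐ[ℚ] Qb) :
    ((thI_unitThetaAdic v q hvq t g : (PadicAlgCl q)ˣ) : PadicAlgCl q) =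
      algebraMap ℚ_[q] (PadicAlgCl q) (thI_adicEquiv v q hvq a) * padicEmbedding q (g y) :=
  letI := thI_adicAlgebra v q hvq
  haveI := thI_isScalarTower_adic v q hvq
  thI_unitTheta_of_eq_tmul (F := v.adicCompletion ℚ) q t a y ht g

theorem thI_unitThetaAdic_injective : Function.Injective (thI_unitThetaAdic v q hvq) :=
  letI := thI_adicAlgebra v q hvq
  haveI := thI_isScalarTower_adic v q hvq
  thI_unitTheta_injective (F := v.adicCompletion ℚ) q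

theorem thI_unitThetaAdic_local_mul
    (h : PadicAlgCl q ≃ₐ[ℚ_[q]] PadicAlgCl q) (g : Qb ≃ₐ[ℚ] Qb)
    (t : ((v.adicCompletion ℚ) ⊗[ℚ] Qb)ˣ) :
    thI_unitThetaAdic v q hvq t (localGaloisToGlobal q h * g) =
      h • thI_unitThetaAdic v q hvq t g :=
  letI := thI_adicAlgebra v q hvq
  haveI := thI_isScalarTower_adic v q hvq
  thI_unitTheta_local_mul (F := v.adicCompletion ℚ) q (thI_range_adic v q hvq).le h g t

theorem thI_unitThetaAdic_map (γ g : Qb ≃ₐ[ℚ] Qb) (t : ((v.adicCompletion ℚ) ⊗[ℚ] Qb)ˣ) :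
    thI_unitThetaAdic v q hvq (Units.map ((Algebra.TensorProduct.map
      (AlgHom.id (v.adicCompletion ℚ) (v.adicCompletion ℚ)) (γ : Qb →ₐ[ℚ] Qb) :
        (v.adicCompletion ℚ) ⊗[ℚ] Qb →ₐ[v.adicCompletion ℚ] (v.adicCompletion ℚ) ⊗[ℚ] Qb) :
        (v.adicCompletion ℚ) ⊗[ℚ] Qb →* (v.adicCompletion ℚ) ⊗[ℚ] Qb) t) g =
      thI_unitThetaAdic v q hvq t (g * γ) :=
  letI := thI_adicAlgebra v q hvq
  haveI := thI_isScalarTower_adic v q hvq
  thI_unitTheta_map (F := v.adicCompletion ℚ) q γ g t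

theorem thI_unitThetaAdic_level_iff
    (L : IntermediateField ℚ Qb) (hfd : FiniteDimensional ℚ L) (hgal : IsGalois ℚ L)
    (t : ((v.adicCompletion ℚ) ⊗[ℚ] Qb)ˣ) :
    ((∃ s : (v.adicCompletion ℚ) ⊗[ℚ] ↥L, thT_incl (F := v.adicCompletion ℚ) L s =
        (t : (v.adicCompletion ℚ) ⊗[ℚ] Qb)) ∧
      ∃ s : (v.adicCompletion ℚ) ⊗[ℚ] ↥L, thT_incl (F := v.adicCompletion ℚ) L s =
        ((t⁻¹ : ((v.adicCompletion ℚ) ⊗[ℚ] Qb)ˣ) : (v.adicCompletion ℚ) ⊗[ℚ] Qb)) ↔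
    ∀ g, ∀ u ∈ L.fixingSubgroup,
      thI_unitThetaAdic v q hvq t (g * u) = thI_unitThetaAdic v q hvq t g :=
  letI := thI_adicAlgebra v q hvq
  haveI := thI_isScalarTower_adic v q hvq
  thI_unitTheta_level_iff (F := v.adicCompletion ℚ) q (thI_range_adic v q hvq) L hfd hgal t

theorem thI_existsUnique_unitThetaAdic
    (L : IntermediateField ℚ Qb) (hfd : FiniteDimensional ℚ L) (hgal : IsGalois ℚ L)
    (f : (Qb ≃ₐ[ℚ] Qb) → (PadicAlgCl q)ˣ)
    (hf1 : ∀ (h : PadicAlgCl q ≃ₐ[ℚ_[q]] PadicAlgCl q) g,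
      f (localGaloisToGlobal q h * g) = h • f g)
    (hf2 : ∀ g, ∀ u ∈ L.fixingSubgroup, f (g * u) = f g) :
    ∃! t : ((v.adicCompletion ℚ) ⊗[ℚ] Qb)ˣ, thI_unitThetaAdic v q hvq t = f :=
  letI := thI_adicAlgebra v q hvq
  haveI := thI_isScalarTower_adic v q hvq
  thI_existsUnique_unitTheta (F := v.adicCompletion ℚ) q (thI_range_adic v q hvq) L hfd hgal
    f hf1 hf2

end Adic

end Fermat.Agent.CFT
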