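import Fermat.Agent.CFT.Bridge.ThetaPadic
import Fermat.Agent.CFT.Bridge.TensorDescent

/-!
# S55 bridge (K8): level units in terms of finite levels, and the joint dictionary

* `thQ_mem_levelUnits_iff_exists_level` : a unit `t` of `A ⊗[ℚ] Q̄` is fixed by a member of
  `famS S` iff `t` and `t⁻¹` come from `A ⊗[ℚ] F` for some finite `F` unramified outside `S`
  (the shape of the level condition of the tensor model of the ideles);
* `thQ_joint_bijective` : projections `J ⟶ thQ_levelRep S (A q)`, `q ∈ S`, which are jointly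
  bijective give morphisms `θ_q : J ⟶ smCoind (primeLocalToGlobal q) (famS S) (smLoc_units q)`
  which are jointly bijective (the input `hθ` of `PT/SmoothCoindTop`).
-/

set_option autoImplicit false
set_option linter.style.haveILetI false
set_option linter.unusedSectionVars false

namespace Fermat.Agent.PT

open CategoryTheory Rep Fermat.Agent.CFT IntermediateField

open scoped TensorProduct

local notation "Γℚ" => (AlgebraicClosure ℚ ≃ₐ[ℚ] AlgebraicClosure ℚ)
local notation "Qa" => AlgebraicClosure ℚ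

local instance thL_isAlgebraicQbar : Algebra.IsAlgebraic ℚ (AlgebraicClosure ℚ) :=
  AlgebraicClosure.isAlgebraic ℚ
local instance thL_isAlgClosureQbar : IsAlgClosure ℚ (AlgebraicClosure ℚ) :=
  ⟨inferInstance, inferInstance⟩
local instance thL_isGaloisQbar : IsGalois ℚ (AlgebraicClosure ℚ) :=
  ⟨⟩

section Level

variable (S : Finset Nat.Primes) (A : Type) [Field A] [Algebra ℚ A]

/-- **level units = units of some finite level unramified outside `S`**. -/
theorem thQ_mem_levelUnits_iff_exists_level (t : (A ⊗[ℚ] Qa)ˣ) :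
    t ∈ thQ_levelUnits S A ↔
      ∃ F : IntermediateField ℚ Qa, F.IsUnramifiedOutside S ∧
        (∃ s : A ⊗[ℚ] ↥F,
          Algebra.TensorProduct.map (AlgHom.id A A) F.val s = (t : A ⊗[ℚ] Qa)) ∧
        ∃ s' : A ⊗[ℚ] ↥F, Algebra.TensorProduct.map (AlgHom.id A A) F.val s' =
          ((t⁻¹ : (A ⊗[ℚ] Qa)ˣ) : A ⊗[ℚ] Qa) := by
  constructor
  · rintro ⟨U, ⟨K, hK, -, rfl⟩, ht⟩
    obtain ⟨s, s', -, hs, hs'⟩ := tnD_exists_unit_of_fixed (A := A) K t (fun u hu => by
      have h1 := ht u hu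
      exact congrArg (fun x : (A ⊗[ℚ] Qa)ˣ => (x : A ⊗[ℚ] Qa)) h1)
    exact ⟨K, hK, ⟨s, hs⟩, ⟨s', hs'⟩⟩
  · rintro ⟨F, hF, ⟨s, hs⟩, -⟩
    refine ⟨(galClosure F).fixingSubgroup,
      ⟨_, IsUnramifiedOutside.galClosure hF, galClosure_fixingSubgroup_normal _, rfl⟩,
      fun u hu => ?_⟩
    apply Units.ext
    rw [thQ_act_coe, ← hs]
    have hu' : u ∈ F.fixingSubgroup :=
      IntermediateField.fixingSubgroup_antitone (le_galClosure F) hu
    exact ((tnD_exists_map_val_eq_iff (A := A) F _).1 ⟨s, rfl⟩) u hu'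

end Level

section Joint

open ExtCitation

local instance thL_factPrimes (q : Nat.Primes) : Fact (q : ℕ).Prime := ⟨q.2⟩

variable (S : Finset Nat.Primes) (A : ↥S → Type) [∀ q, Field (A q)] [∀ q, Algebra ℚ (A q)]
  [∀ q : ↥S, Algebra (A q) (PadicAlgCl ((q : Nat.Primes) : ℕ))]
  [∀ q : ↥S, IsScalarTower ℚ (A q) (PadicAlgCl ((q : Nat.Primes) : ℕ))]
  (hF : ∀ (q : ↥S) (τ : PadicAlgCl ((q : Nat.Primes) : ℕ) ≃ₐ[ℚ_[((q : Nat.Primes) : ℕ)]]
      PadicAlgCl ((q : Nat.Primes) : ℕ)) (a : A q),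
    τ (algebraMap (A q) (PadicAlgCl ((q : Nat.Primes) : ℕ)) a) =
      algebraMap (A q) (PadicAlgCl ((q : Nat.Primes) : ℕ)) a)
  (hfix : ∀ (q : ↥S) (z : PadicAlgCl ((q : Nat.Primes) : ℕ)),
    (∀ τ : PadicAlgCl ((q : Nat.Primes) : ℕ) ≃ₐ[ℚ_[((q : Nat.Primes) : ℕ)]]
      PadicAlgCl ((q : Nat.Primes) : ℕ), τ z = z) →
    z ∈ (algebraMap (A q) (PadicAlgCl ((q : Nat.Primes) : ℕ))).range)

include hfix in
/-- **the joint dictionary**: jointly bijective projections to the level units give jointly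
bijective `θ_q` into the smooth coinductions. -/
theorem thQ_joint_bijective {J : Rep.{0} ℤ Γℚ} (pr : ∀ q : ↥S, J ⟶ thQ_levelRep S (A q))
    (hpr : Function.Bijective (fun (a : J.V) (q : ↥S) => (pr q).hom a)) :
    Function.Bijective (fun (a : J.V) (q : ↥S) =>
      (pr q ≫ thQ_levelRepHom S (q : Nat.Primes) (A q) (hF q)).hom a) := by
  have h1 : Function.Bijective
      (fun (f : ∀ q : ↥S, (thQ_levelRep S (A q)).V) (q : ↥S) =>
        (thQ_levelRepHom S (q : Nat.Primes) (A q) (hF q)).hom (f q)) := by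
    constructor
    · intro f f' h
      funext q
      exact (thQ_levelRepHom_bijective S (q : Nat.Primes) (A q) (hF q) (hfix q)).1
        (congrFun h q)
    · intro f
      choose f' hf' using fun q : ↥S =>
        (thQ_levelRepHom_bijective S (q : Nat.Primes) (A q) (hF q) (hfix q)).2 (f q)
      exact ⟨f', funext hf'⟩
  exact h1.comp hpr

theorem thQ_joint_apply {J : Rep.{0} ℤ Γℚ} (pr : ∀ q : ↥S, J ⟶ thQ_levelRep S (A q))
    (a : J.V) (q : ↥S) :
    (pr q ≫ thQ_levelRepHom S (q : Nat.Primes) (A q) (hF q)).hom a =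
      (thQ_levelRepHom S (q : Nat.Primes) (A q) (hF q)).hom ((pr q).hom a) := rfl

end Joint

end Fermat.Agent.PT
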