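import Fermat.Agent.CFT.Bridge.ThetaTop
import Fermat.Agent.CFT.PT.SmoothCoindLocal
import Fermat.Agent.CFT.PT.SUnitsRep

/-!
# S55 bridge (K8): the `q`-component of the ideles as a smooth coinduction

`A` a field with `ℚ ⊆ A ⊆ PadicAlgCl q` whose elements are exactly the elements of `PadicAlgCl q`
fixed by `Gal(PadicAlgCl q / ℚ_q)` (`A = ℚ_q`, or a copy of it such as an adic completion of `ℚ`).
`Γℚ` acts on `(A ⊗[ℚ] Q̄)ˣ` through the second factor.  The subgroup `thQ_levelUnits q S A` of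
units fixed by some member of `famS S` (= units of some finite level unramified outside `S`) is
identified, `Γℚ`-equivariantly, with the smooth coinduction
`smCoind (localGaloisToGlobal q) (famS S) (PadicAlgCl q)ˣ`:
`t ↦ (g ↦ θ t g)`, `θ (a ⊗ y) g = a * ι_q (g y)`.
-/

set_option autoImplicit false
set_option linter.style.haveILetI false
set_option linter.unusedSectionVars false

namespace Fermat.Agent.PT

open CategoryTheory Rep Fermat.Agent.CFT IntermediateField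

open scoped TensorProduct

local notation "Γℚ" => (AlgebraicClosure ℚ ≃ₐ[ℚ] AlgebraicClosure ℚ)
local notation "Qa" => AlgebraicClosure ℚ

local instance thQ_isAlgebraicQbar : Algebra.IsAlgebraic ℚ (AlgebraicClosure ℚ) :=
  AlgebraicClosure.isAlgebraic ℚ
local instance thQ_isAlgClosureQbar : IsAlgClosure ℚ (AlgebraicClosure ℚ) :=
  ⟨inferInstance, inferInstance⟩
local instance thQ_isGaloisQbar : IsGalois ℚ (AlgebraicClosure ℚ) :=
  ⟨⟩

section Abstract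

variable (q : ℕ) [Fact q.Prime] (S : Finset Nat.Primes)
  (A : Type) [Field A] [Algebra ℚ A] [Algebra A (PadicAlgCl q)]
  [IsScalarTower ℚ A (PadicAlgCl q)]

/-- the action of `g ∈ Γℚ` on the units of `A ⊗[ℚ] Q̄` (through the second factor). -/
noncomputable def thQ_act (g : Γℚ) : (A ⊗[ℚ] Qa)ˣ →* (A ⊗[ℚ] Qa)ˣ :=
  Units.map (Algebra.TensorProduct.map (AlgHom.id A A) (g : Qa →ₐ[ℚ] Qa) :
    A ⊗[ℚ] Qa →* A ⊗[ℚ] Qa)

theorem thQ_act_coe (g : Γℚ) (t : (A ⊗[ℚ] Qa)ˣ) :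
    ((thQ_act A g t : (A ⊗[ℚ] Qa)ˣ) : A ⊗[ℚ] Qa) =
      Algebra.TensorProduct.map (AlgHom.id A A) (g : Qa →ₐ[ℚ] Qa) (t : A ⊗[ℚ] Qa) := rfl

theorem thQ_act_one (t : (A ⊗[ℚ] Qa)ˣ) : thQ_act A 1 t = t := by
  apply Units.ext
  rw [thQ_act_coe]
  have h : ((1 : Γℚ) : Qa →ₐ[ℚ] Qa) = AlgHom.id ℚ Qa := rfl
  rw [h, Algebra.TensorProduct.map_id]
  rfl

theorem thQ_act_mul (g g' : Γℚ) (t : (A ⊗[ℚ] Qa)ˣ) :
    thQ_act A (g * g') t = thQ_act A g (thQ_act A g' t) := by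
  apply Units.ext
  rw [thQ_act_coe, thQ_act_coe, thQ_act_coe]
  generalize (t : A ⊗[ℚ] Qa) = x
  induction x using TensorProduct.induction_on with
  | zero => simp
  | tmul a y =>
    rw [Algebra.TensorProduct.map_tmul, Algebra.TensorProduct.map_tmul,
      Algebra.TensorProduct.map_tmul]
    rfl
  | add x y hx hy => simp only [map_add, hx, hy]

/-- the evaluation `(A ⊗[ℚ] Q̄)ˣ → (PadicAlgCl q)ˣ`, `t ↦ θ t g`. -/
noncomputable def thQ_evalUnits (g : Γℚ) : (A ⊗[ℚ] Qa)ˣ →* (PadicAlgCl q)ˣ :=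
  Units.map ((Pi.evalMonoidHom (fun _ : Γℚ => PadicAlgCl q) g).comp
    (thT_theta (F := A) (padicEmbedding q) : A ⊗[ℚ] Qa →* (Γℚ → PadicAlgCl q)))

theorem thQ_evalUnits_coe (g : Γℚ) (t : (A ⊗[ℚ] Qa)ˣ) :
    ((thQ_evalUnits q A g t : (PadicAlgCl q)ˣ) : PadicAlgCl q) =
      thT_theta (F := A) (padicEmbedding q) (t : A ⊗[ℚ] Qa) g := rfl

theorem thQ_evalUnits_act (g g₀ : Γℚ) (t : (A ⊗[ℚ] Qa)ˣ) :
    thQ_evalUnits q A g (thQ_act A g₀ t) = thQ_evalUnits q A (g * g₀) t := by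
  apply Units.ext
  rw [thQ_evalUnits_coe, thQ_evalUnits_coe, thQ_act_coe]
  exact thT_theta_map_smul (F := A) (padicEmbedding q) g₀ _ g

/-- the units of `A ⊗[ℚ] Q̄` fixed by some member of `famS S`. -/
noncomputable def thQ_levelUnits : Subgroup (A ⊗[ℚ] Qa)ˣ where
  carrier := {t | ∃ U ∈ (famS S).sets, ∀ u ∈ U, thQ_act A u t = t}
  one_mem' := by
    obtain ⟨U, hU⟩ := (famS S).nonempty
    exact ⟨U, hU, fun u _ => map_one _⟩
  mul_mem' := by
    rintro t t' ⟨U, hU, ht⟩ ⟨U', hU', ht'⟩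
    obtain ⟨W, hW, hle⟩ := (famS S).directed U hU U' hU'
    exact ⟨W, hW, fun u hu => by rw [map_mul, ht u (hle hu).1, ht' u (hle hu).2]⟩
  inv_mem' := by
    rintro t ⟨U, hU, ht⟩
    exact ⟨U, hU, fun u hu => by rw [map_inv, ht u hu]⟩

theorem thQ_mem_levelUnits_iff (t : (A ⊗[ℚ] Qa)ˣ) :
    t ∈ thQ_levelUnits S A ↔ ∃ U ∈ (famS S).sets, ∀ u ∈ U, thQ_act A u t = t := Iff.rfl

/-- `Γℚ` preserves the level units. -/
theorem thQ_act_mem_levelUnits (g : Γℚ) {t : (A ⊗[ℚ] Qa)ˣ} (ht : t ∈ thQ_levelUnits S A) :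
    thQ_act A g t ∈ thQ_levelUnits S A := by
  obtain ⟨U, hU, ht⟩ := ht
  have hn := (famS S).normal U hU
  refine ⟨U, hU, fun u hu => ?_⟩
  have h1 : u * g = g * (g⁻¹ * u * g⁻¹⁻¹) := by group
  rw [← thQ_act_mul, h1, thQ_act_mul, ht _ (hn.conj_mem u hu g⁻¹)]

end Abstract

section Main

variable (q : ℕ) [Fact q.Prime] (S : Finset Nat.Primes)
  (A : Type) [Field A] [Algebra ℚ A] [Algebra A (PadicAlgCl q)]
  [IsScalarTower ℚ A (PadicAlgCl q)]
  (hF : ∀ (τ : PadicAlgCl q ≃ₐ[ℚ_[q]] PadicAlgCl q) (a : A),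
    τ (algebraMap A (PadicAlgCl q) a) = algebraMap A (PadicAlgCl q) a)
  (hfix : ∀ z : PadicAlgCl q, (∀ τ : PadicAlgCl q ≃ₐ[ℚ_[q]] PadicAlgCl q, τ z = z) →
    z ∈ (algebraMap A (PadicAlgCl q)).range)

/-- the function `g ↦ θ t g` attached to a level unit lies in the smooth coinduction. -/
theorem thQ_fun_mem_smCoindV (hF : ∀ (τ : PadicAlgCl q ≃ₐ[ℚ_[q]] PadicAlgCl q) (a : A),
      τ (algebraMap A (PadicAlgCl q) a) = algebraMap A (PadicAlgCl q) a)
    {t : (A ⊗[ℚ] Qa)ˣ} (ht : t ∈ thQ_levelUnits S A) :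
    (fun g : Γℚ => (Additive.ofMul (thQ_evalUnits q A g t) :
        (Rep.ofAlgebraAutOnUnits ℚ_[q] (PadicAlgCl q)).V)) ∈
      smCoindV (localGaloisToGlobal q) (famS S)
        (Rep.ofAlgebraAutOnUnits ℚ_[q] (PadicAlgCl q)) := by
  obtain ⟨U, hU, htU⟩ := ht
  refine ⟨fun h g => ?_, U, hU, fun g u hu => ?_⟩
  · change Additive.ofMul (thQ_evalUnits q A (localGaloisToGlobal q h * g) t) =
      Additive.ofMul (h • thQ_evalUnits q A g t)
    congr 1
    apply Units.ext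
    rw [thQ_evalUnits_coe]
    exact thT_theta_equivariant (F := A) (H := PadicAlgCl q ≃ₐ[ℚ_[q]] PadicAlgCl q)
      (padicEmbedding q) (localGaloisToGlobal q) hF
      (fun h y => padicEmbedding_localGaloisToGlobal q h y) _ h g
  · change Additive.ofMul (thQ_evalUnits q A (g * u) t) = Additive.ofMul (thQ_evalUnits q A g t)
    rw [← thQ_evalUnits_act, htU u hu]

/-- **the dictionary at `q`** as an additive map into the smooth coinduction. -/
noncomputable def thQ_Theta (hF : ∀ (τ : PadicAlgCl q ≃ₐ[ℚ_[q]] PadicAlgCl q) (a : A),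
      τ (algebraMap A (PadicAlgCl q) a) = algebraMap A (PadicAlgCl q) a) :
    Additive ↥(thQ_levelUnits S A) →+
      smCoindV (localGaloisToGlobal q) (famS S)
        (Rep.ofAlgebraAutOnUnits ℚ_[q] (PadicAlgCl q)) where
  toFun t := ⟨fun g => Additive.ofMul (thQ_evalUnits q A g (t.toMul : (A ⊗[ℚ] Qa)ˣ)),
    thQ_fun_mem_smCoindV q S A hF t.toMul.2⟩
  map_zero' := by
    apply Subtype.ext
    funext g
    change Additive.ofMul (thQ_evalUnits q A g 1) = 0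
    rw [map_one]
    rfl
  map_add' t t' := by
    apply Subtype.ext
    funext g
    change Additive.ofMul (thQ_evalUnits q A g ((t.toMul : (A ⊗[ℚ] Qa)ˣ) * t'.toMul)) = _
    rw [map_mul]
    rfl

theorem thQ_Theta_apply (t : Additive ↥(thQ_levelUnits S A)) (g : Γℚ) :
    (thQ_Theta q S A hF t).1 g =
      Additive.ofMul (thQ_evalUnits q A g (t.toMul : (A ⊗[ℚ] Qa)ˣ)) := rfl

theorem thQ_Theta_apply_coe (t : Additive ↥(thQ_levelUnits S A)) (g : Γℚ) :
    ((Additive.toMul ((thQ_Theta q S A hF t).1 g) : (PadicAlgCl q)ˣ) : PadicAlgCl q) =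
      thT_theta (F := A) (padicEmbedding q) ((t.toMul : (A ⊗[ℚ] Qa)ˣ) : A ⊗[ℚ] Qa) g := rfl

/-- **`Γℚ`-equivariance** of the dictionary. -/
theorem thQ_Theta_act (g₀ : Γℚ) (t : Additive ↥(thQ_levelUnits S A)) :
    thQ_Theta q S A hF (Additive.ofMul ⟨thQ_act A g₀ (t.toMul : (A ⊗[ℚ] Qa)ˣ),
      thQ_act_mem_levelUnits S A g₀ t.toMul.2⟩) =
    (smCoind (localGaloisToGlobal q) (famS S)
      (Rep.ofAlgebraAutOnUnits ℚ_[q] (PadicAlgCl q))).ρ g₀ (thQ_Theta q S A hF t) := by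
  apply Subtype.ext
  funext g
  change Additive.ofMul (thQ_evalUnits q A g (thQ_act A g₀ (t.toMul : (A ⊗[ℚ] Qa)ˣ))) =
    Additive.ofMul (thQ_evalUnits q A (g * g₀) (t.toMul : (A ⊗[ℚ] Qa)ˣ))
  rw [thQ_evalUnits_act]

theorem thQ_Theta_injective : Function.Injective (thQ_Theta q S A hF) := by
  rw [injective_iff_map_eq_zero]
  intro t ht
  have h1 : ((t.toMul : (A ⊗[ℚ] Qa)ˣ) : A ⊗[ℚ] Qa) = 1 := by
    apply thT_theta_injective (F := A) (padicEmbedding q)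
    rw [map_one]
    funext g
    have h2 := congrArg (fun f => f.1 g) ht
    have h3 : thQ_evalUnits q A g (t.toMul : (A ⊗[ℚ] Qa)ˣ) = 1 := h2
    have h4 := congrArg (fun u : (PadicAlgCl q)ˣ => (u : PadicAlgCl q)) h3
    exact h4
  have h2 : (t.toMul : (A ⊗[ℚ] Qa)ˣ) = 1 := Units.ext h1
  have h3 : t.toMul = 1 := Subtype.ext h2
  exact h3

include hfix in
theorem thQ_Theta_surjective : Function.Surjective (thQ_Theta q S A hF) := by
  rintro ⟨f, hf1, U, hU, hf2⟩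
  obtain ⟨K, hK, hn, rfl⟩ := hU
  haveI := hK.1
  haveI := (InfiniteGalois.normal_iff_isGalois K).1 hn
  have hF' : ∀ (h : PadicAlgCl q ≃ₐ[ℚ_[q]] PadicAlgCl q) (x : A),
      h • algebraMap A (PadicAlgCl q) x = algebraMap A (PadicAlgCl q) x := hF
  have hψ' : ∀ (h : PadicAlgCl q ≃ₐ[ℚ_[q]] PadicAlgCl q) (y : Qa),
      padicEmbedding q (localGaloisToGlobal q h y) = h • padicEmbedding q y :=
    fun h y => padicEmbedding_localGaloisToGlobal q h y
  have hfix' : ∀ z : PadicAlgCl q,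
      (∀ h : PadicAlgCl q ≃ₐ[ℚ_[q]] PadicAlgCl q, h • z = z) →
        z ∈ (algebraMap A (PadicAlgCl q)).range := hfix
  set f' : Γℚ → (PadicAlgCl q)ˣ := fun g => Additive.toMul (f g : Additive (PadicAlgCl q)ˣ)
    with hf'
  obtain ⟨t, ht, -⟩ := thT_existsUnique_unit (F := A) (padicEmbedding q)
    (localGaloisToGlobal q) hF' hψ' hfix' K f'
    (fun h g => by
      have h1 := hf1 h g
      have h2 : f' (localGaloisToGlobal q h * g) = h • f' g := h1
      rw [h2]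
      rfl)
    (fun g u hu => by simp only [hf', hf2 g u hu])
  have htmem : t ∈ thQ_levelUnits S A := by
    refine ⟨K.fixingSubgroup, ⟨K, hK, hn, rfl⟩, fun u hu => ?_⟩
    apply Units.ext
    apply thT_theta_injective (F := A) (padicEmbedding q)
    funext g
    rw [thQ_act_coe, thT_theta_map_smul, ht, ht]
    simp only [hf', hf2 g u hu]
  refine ⟨Additive.ofMul ⟨t, htmem⟩, ?_⟩
  apply Subtype.ext
  funext g
  change Additive.ofMul (thQ_evalUnits q A g t) = f g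
  have h1 : thQ_evalUnits q A g t = f' g := Units.ext (ht g)
  rw [h1]
  rfl

include hfix in
theorem thQ_Theta_bijective : Function.Bijective (thQ_Theta q S A hF) :=
  ⟨thQ_Theta_injective q S A hF, thQ_Theta_surjective q S A hF hfix⟩

end Main

section Diag

variable (q : ℕ) [Fact q.Prime] (S : Finset Nat.Primes)
  (A : Type) [Field A] [Algebra ℚ A] [Algebra A (PadicAlgCl q)]
  [IsScalarTower ℚ A (PadicAlgCl q)]

/-- the diagonal embedding `Q̄ˣ → (A ⊗[ℚ] Q̄)ˣ`, `e ↦ 1 ⊗ e`. -/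
noncomputable def thQ_diag : Qaˣ →* (A ⊗[ℚ] Qa)ˣ :=
  Units.map ((Algebra.TensorProduct.includeRight : Qa →ₐ[ℚ] A ⊗[ℚ] Qa) : Qa →* A ⊗[ℚ] Qa)

theorem thQ_diag_coe (e : Qaˣ) :
    ((thQ_diag A e : (A ⊗[ℚ] Qa)ˣ) : A ⊗[ℚ] Qa) = (1 : A) ⊗ₜ[ℚ] (e : Qa) := rfl

theorem thQ_act_diag (g : Γℚ) (e : Qaˣ) : thQ_act A g (thQ_diag A e) = thQ_diag A (g • e) := by
  apply Units.ext
  rw [thQ_act_coe, thQ_diag_coe, thQ_diag_coe, Algebra.TensorProduct.map_tmul]
  rfl

theorem thQ_evalUnits_diag (g : Γℚ) (e : Qaˣ) :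
    ((thQ_evalUnits q A g (thQ_diag A e) : (PadicAlgCl q)ˣ) : PadicAlgCl q) =
      padicEmbedding q (g (e : Qa)) := by
  rw [thQ_evalUnits_coe, thQ_diag_coe, thT_theta_tmul, map_one, one_mul]

/-- the diagonal image of a unit of `ℚ_S` is a level unit. -/
theorem thQ_diag_mem_levelUnits (e : Qaˣ) (he : (e : Qa) ∈ QS S) :
    thQ_diag A e ∈ thQ_levelUnits S A := by
  have hF := isUnramifiedOutside_adjoin_of_mem_QS S he
  refine ⟨(galClosure ℚ⟮(e : Qa)⟯).fixingSubgroup,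
    ⟨_, IsUnramifiedOutside.galClosure hF, galClosure_fixingSubgroup_normal _, rfl⟩,
    fun u hu => ?_⟩
  have h1 : u (e : Qa) = (e : Qa) :=
    (IntermediateField.mem_fixingSubgroup_iff _ _).1 hu _
      (le_galClosure _ (mem_adjoin_simple_self ℚ _))
  rw [thQ_act_diag]
  congr 1
  exact Units.ext h1

end Diag

section Padic

variable (q : ℕ) [Fact q.Prime] (S : Finset Nat.Primes)

theorem thQ_padic_hF (τ : PadicAlgCl q ≃ₐ[ℚ_[q]] PadicAlgCl q) (a : ℚ_[q]) :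
    τ (algebraMap ℚ_[q] (PadicAlgCl q) a) = algebraMap ℚ_[q] (PadicAlgCl q) a :=
  τ.commutes a

theorem thQ_padic_hfix (z : PadicAlgCl q)
    (hz : ∀ τ : PadicAlgCl q ≃ₐ[ℚ_[q]] PadicAlgCl q, τ z = z) :
    z ∈ (algebraMap ℚ_[q] (PadicAlgCl q)).range := by
  obtain ⟨a, ha⟩ := (InfiniteGalois.mem_range_algebraMap_iff_fixed z).2 hz
  exact ⟨a, ha⟩

/-- **the dictionary at `q`, model `ℚ_q ⊗[ℚ] Q̄`**: the level units are the smooth coinduction of
`(PadicAlgCl q)ˣ`. -/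
theorem thQ_padic_Theta_bijective :
    Function.Bijective (thQ_Theta q S ℚ_[q] (thQ_padic_hF q)) :=
  thQ_Theta_bijective q S ℚ_[q] (thQ_padic_hF q) (thQ_padic_hfix q)

end Padic

/-! ### the shape consumed by `PT/SmoothCoindTop` (`q : Nat.Primes`, `smLoc_units q`) -/

section Primes

open ExtCitation

local instance thQ_factPrimes (q : Nat.Primes) : Fact (q : ℕ).Prime := ⟨q.2⟩

variable (S : Finset Nat.Primes) (q : Nat.Primes)
  (A : Type) [Field A] [Algebra ℚ A] [Algebra A (PadicAlgCl (q : ℕ))]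
  [IsScalarTower ℚ A (PadicAlgCl (q : ℕ))]
  (hF : ∀ (τ : PadicAlgCl (q : ℕ) ≃ₐ[ℚ_[(q : ℕ)]] PadicAlgCl (q : ℕ)) (a : A),
    τ (algebraMap A (PadicAlgCl (q : ℕ)) a) = algebraMap A (PadicAlgCl (q : ℕ)) a)

/-- `thQ_Theta` with values in `smCoind (primeLocalToGlobal q) (famS S) (smLoc_units q)`. -/
noncomputable def thQ_ThetaP : Additive ↥(thQ_levelUnits S A) →+
    smCoindV (primeLocalToGlobal q) (famS S) (smLoc_units q) :=
  thQ_Theta (q : ℕ) S A hF

theorem thQ_ThetaP_apply_coe (t : Additive ↥(thQ_levelUnits S A)) (g : Γℚ) :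
    ((Additive.toMul ((thQ_ThetaP S q A hF t).1 g : Additive (PadicAlgCl (q : ℕ))ˣ) :
        (PadicAlgCl (q : ℕ))ˣ) : PadicAlgCl (q : ℕ)) =
      thT_theta (F := A) (padicEmbedding (q : ℕ))
        ((t.toMul : (A ⊗[ℚ] Qa)ˣ) : A ⊗[ℚ] Qa) g := rfl

theorem thQ_ThetaP_bijective
    (hfix : ∀ z : PadicAlgCl (q : ℕ),
      (∀ τ : PadicAlgCl (q : ℕ) ≃ₐ[ℚ_[(q : ℕ)]] PadicAlgCl (q : ℕ), τ z = z) →
        z ∈ (algebraMap A (PadicAlgCl (q : ℕ))).range) :
    Function.Bijective (thQ_ThetaP S q A hF) :=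
  thQ_Theta_bijective (q : ℕ) S A hF hfix

/-- the action of `Γℚ` on the level units. -/
@[reducible] noncomputable def thQ_levelAction : MulDistribMulAction Γℚ ↥(thQ_levelUnits S A) where
  smul g t := ⟨thQ_act A g (t : (A ⊗[ℚ] Qa)ˣ), thQ_act_mem_levelUnits S A g t.2⟩
  one_smul t := Subtype.ext (thQ_act_one A (t : (A ⊗[ℚ] Qa)ˣ))
  mul_smul g g' t := Subtype.ext (thQ_act_mul A g g' (t : (A ⊗[ℚ] Qa)ˣ))
  smul_mul g _ _ := Subtype.ext (map_mul (thQ_act A g) _ _)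
  smul_one g := Subtype.ext (map_one (thQ_act A g))

attribute [local instance] thQ_levelAction sUR_mulDistribMulAction

theorem thQ_levelAction_coe (g : Γℚ) (t : ↥(thQ_levelUnits S A)) :
    ((g • t : ↥(thQ_levelUnits S A)) : (A ⊗[ℚ] Qa)ˣ) = thQ_act A g (t : (A ⊗[ℚ] Qa)ˣ) := rfl

/-- the level units at `q` as a `Γℚ`-module. -/
noncomputable def thQ_levelRep : Rep.{0} ℤ Γℚ :=
  Rep.ofMulDistribMulAction Γℚ ↥(thQ_levelUnits S A)

theorem thQ_levelRep_ρ_apply (g : Γℚ) (t : Additive ↥(thQ_levelUnits S A)) :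
    (thQ_levelRep S A).ρ g t = Additive.ofMul (g • t.toMul) := rfl

/-- **the dictionary at `q` as a morphism of `Γℚ`-modules** (bijective: `thQ_levelRepHom_bijective`). -/
noncomputable def thQ_levelRepHom :
    thQ_levelRep S A ⟶ smCoind (primeLocalToGlobal q) (famS S) (smLoc_units q) :=
  Rep.ofHom (ρ := (thQ_levelRep S A).ρ)
    (σ := (smCoind (primeLocalToGlobal q) (famS S) (smLoc_units q)).ρ)
    ⟨(thQ_ThetaP S q A hF).toIntLinearMap, fun g => by
      refine LinearMap.ext fun t => ?_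
      exact thQ_Theta_act (q : ℕ) S A hF g t⟩

theorem thQ_levelRepHom_apply (t : Additive ↥(thQ_levelUnits S A)) :
    (thQ_levelRepHom S q A hF).hom t = thQ_ThetaP S q A hF t := rfl

theorem thQ_levelRepHom_bijective
    (hfix : ∀ z : PadicAlgCl (q : ℕ),
      (∀ τ : PadicAlgCl (q : ℕ) ≃ₐ[ℚ_[(q : ℕ)]] PadicAlgCl (q : ℕ), τ z = z) →
        z ∈ (algebraMap A (PadicAlgCl (q : ℕ))).range) :
    Function.Bijective (thQ_levelRepHom S q A hF).hom :=
  thQ_ThetaP_bijective S q A hF hfix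

/-- the diagonal embedding of the `S`-units of `ℚ_S` into the level units. -/
noncomputable def thQ_diagLevel : ↥(ES S) →* ↥(thQ_levelUnits S A) :=
  ((thQ_diag A).comp (ES S).subtype).codRestrict (thQ_levelUnits S A)
    (fun e => thQ_diag_mem_levelUnits S A (e : Qaˣ) e.2.1)

theorem thQ_diagLevel_coe (e : ↥(ES S)) :
    ((thQ_diagLevel S A e : ↥(thQ_levelUnits S A)) : (A ⊗[ℚ] Qa)ˣ) = thQ_diag A (e : Qaˣ) := rfl

/-- the diagonal embedding `E_S ⟶ (level units at q)` as a morphism of `Γℚ`-modules. -/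
noncomputable def thQ_diagHom : ESRep S ⟶ thQ_levelRep S A :=
  Rep.ofHom (ρ := (ESRep S).ρ) (σ := (thQ_levelRep S A).ρ)
    ⟨(MonoidHom.toAdditive (thQ_diagLevel S A)).toIntLinearMap, fun g => by
      refine LinearMap.ext fun e => ?_
      change Additive (ES S) at e
      show Additive.ofMul (thQ_diagLevel S A (g • e.toMul)) =
        Additive.ofMul (g • thQ_diagLevel S A e.toMul)
      refine congrArg Additive.ofMul (Subtype.ext ?_)
      rw [thQ_levelAction_coe, thQ_diagLevel_coe, thQ_diagLevel_coe, thQ_act_diag]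
      rfl⟩

theorem thQ_diagHom_apply (e : Additive (ES S)) :
    (thQ_diagHom S A).hom e = Additive.ofMul (thQ_diagLevel S A e.toMul) := rfl

/-- **compatibility with the diagonal**: `θ_q (1 ⊗ e) g = ι_q (g e)`. -/
theorem thQ_levelRepHom_diag_coe (e : Additive (ES S)) (g : Γℚ) :
    ((Additive.toMul (((thQ_levelRepHom S q A hF).hom ((thQ_diagHom S A).hom e)).1 g :
        Additive (PadicAlgCl (q : ℕ))ˣ) : (PadicAlgCl (q : ℕ))ˣ) : PadicAlgCl (q : ℕ)) =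
      padicEmbedding (q : ℕ) (g (((e.toMul : ↥(ES S)) : Qaˣ) : Qa)) :=
  thQ_evalUnits_diag (q : ℕ) A g ((e.toMul : ↥(ES S)) : Qaˣ)

end Primes

end Fermat.Agent.PT
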