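import Mathlib
import Fermat.Agent.CFT.PT.SUnitsCapIdele
import Fermat.Agent.CFT.PT.SUnitsH1Fin
import Fermat.Agent.CFT.Global.CrossVal
import Fermat.Agent.CFT.S14.InertiaLiftDischarge

set_option autoImplicit false
set_option linter.unusedSectionVars false

/-!
# S55 GLOBAL bridge: `IsUnramifiedOutside S` in valuation form, TENSOR BASE `ℚ`

For a finite Galois `L : IntermediateField ℚ Qb` unramified outside `S`, the valuation-form
hypothesis `hS` of the idelic library (`unrUR_hunr`, `idUC_subsingleton`, `idUN_*`, ...) holds with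
tensor base `K := ℚ` (the type `ℚ`, not the intermediate field `⊥`) and `S := sUCI_ratSet S`:

* `urVQ_inertia_eq_bot` : trivial ideal-theoretic inertia in `Gal(L/ℚ)` at the primes over `q ∉ S`;
* `urVQ_hval` : `w.valuation L (algebraMap ℚ L x) = (primeBelow ℚ L w).valuation ℚ x` for
  `primeBelow ℚ L w ∉ sUCI_ratSet S`.
-/

namespace Fermat.Agent.PT

open IsDedekindDomain IsDedekindDomain.HeightOneSpectrum NumberField Fermat.Agent.CFT
  Fermat.Agent.CFT.S14 IntermediateField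

local notation "Qb" => AlgebraicClosure ℚ

variable (S : Finset Nat.Primes) (L : IntermediateField ℚ Qb) [FiniteDimensional ℚ L]
  [Normal ℚ L]

attribute [local instance] sUF_numberField

/-- trivial ideal-theoretic inertia in `Gal(L/ℚ)` at a prime over `q ∉ S`. -/
theorem urVQ_inertia_eq_bot (hL : L.IsUnramifiedOutside S) (Q : Ideal (𝓞 L)) [Q.IsPrime]
    {q : Nat.Primes} (hq : q ∉ S) (hqQ : ((q : ℕ) : 𝓞 L) ∈ Q) :
    Ideal.inertia (L ≃ₐ[ℚ] L) Q = ⊥ := by
  rw [eq_bot_iff]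
  intro g hg
  rw [Subgroup.mem_bot]
  obtain ⟨P, hP, s, hPQ, hsP, hsτ⟩ := liftsInertia_of_normal L Q g (fun x => hg x)
  have hqP : ((q : ℕ) : 𝓞 Qb) ∈ P := by
    have : ((q : ℕ) : 𝓞 L) ∈ P.comap (algebraMap (𝓞 L) (𝓞 Qb)) := hPQ ▸ hqQ
    simpa using this
  have hI := mem_inertiaSubgroupIn_of_trivial P s hsP
  have hsL : s ∈ L.fixingSubgroup := hL.2 q hq _ (valSubringOfPrime_liesOverPrime P q hqP) hI
  apply AlgEquiv.ext
  intro x
  apply Subtype.ext
  rw [← hsτ x]
  exact (IntermediateField.mem_fixingSubgroup_iff _ _).mp hsL x x.2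

/-- **(hval), tensor base `ℚ`**: a finite Galois `L ⊆ ℚ_S` is unramified outside `S` in the
valuation form used by the idelic library. -/
theorem urVQ_hval (hL : L.IsUnramifiedOutside S) (w : HeightOneSpectrum (𝓞 L))
    (hw : primeBelow ℚ L w ∉ sUCI_ratSet S) (x : ℚ) :
    w.valuation L (algebraMap ℚ L x) = (primeBelow ℚ L w).valuation ℚ x := by
  have := w.isPrime
  have : IsGalois ℚ L := ⟨⟩
  obtain ⟨l, hl, hlw⟩ := exists_prime_natCast_mem w.asIdeal w.ne_bot
  have hlS : (⟨l, hl⟩ : Nat.Primes) ∉ S := fun h =>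
    hw ((sUCI_primeBelow_mem_ratSet_iff S L w).2 ⟨⟨l, hl⟩, h, hlw⟩)
  have hin : w.asIdeal.inertia (L ≃ₐ[ℚ] L) = ⊥ :=
    urVQ_inertia_eq_bot S L hL w.asIdeal (q := ⟨l, hl⟩) hlS hlw
  have hlies : w.asIdeal.LiesOver (primeBelow ℚ L w).asIdeal := Ideal.over_under w.asIdeal
  exact valuation_algebraMap_eq_of_inertia_eq_bot w (primeBelow ℚ L w) hin x

end Fermat.Agent.PT
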