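import Mathlib
import Fermat.Agent.CFT.Bridge.UnramValQ
import Fermat.Agent.CFT.Bridge.SplitField
import Fermat.Agent.CFT.PT.IdeleRep

set_option autoImplicit false
set_option linter.unusedSectionVars false

/-!
# S55 GLOBAL bridge: `IsUnramifiedOutside S` in valuation form for NON-normal levels

* `urVG_hval` : for ANY finite `F : IntermediateField ℚ Qb` unramified outside `S` (not
  necessarily normal over `ℚ`) the valuation-form hypothesis of the idelic library holds with
  tensor base the type `ℚ` and the set `sUCI_ratSet S`;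
* `urVG_placesS_eq` : `placesS S = sUCI_ratSet S`;
* `urVG_hval_placesS`, `urVG_hval_placesS_of_normal` : the same with `placesS S`.
-/

namespace Fermat.Agent.PT

open IsDedekindDomain IsDedekindDomain.HeightOneSpectrum NumberField Fermat.Agent.CFT
  Fermat.Agent.CFT.S14 IntermediateField

local notation "Qb" => AlgebraicClosure ℚ

attribute [local instance] sUF_numberField sUF_algebra sUF_isScalarTower sUF_isScalarTower'
  sUF_isGaloisQb

variable (S : Finset Nat.Primes)

/-- membership of a rational prime number in a prime of `𝓞 ℚ`. -/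
theorem urVG_natCast_mem_iff (v : HeightOneSpectrum (𝓞 ℚ)) (q : Nat.Primes) :
    (((q : ℕ) : 𝓞 ℚ) ∈ v.asIdeal) ↔ Rat.HeightOneSpectrum.primesEquiv v = q := by
  have h1 : (((q : ℕ) : 𝓞 ℚ) ∈ v.asIdeal) ↔
      (((q : ℕ) : ℤ) ∈ v.asIdeal.map (Rat.IsIntegralClosure.intEquiv (𝓞 ℚ))) := by
    rw [Ideal.mem_map_of_equiv]
    constructor
    · intro h
      exact ⟨_, h, by simp⟩
    · rintro ⟨y, hy, hyq⟩
      have : y = ((q : ℕ) : 𝓞 ℚ) := by
        apply (Rat.IsIntegralClosure.intEquiv (𝓞 ℚ)).injective
        rw [hyq]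
        simp
      exact this ▸ hy
  rw [h1, ← Rat.HeightOneSpectrum.natGenerator_dvd_iff]
  have hv := Rat.HeightOneSpectrum.prime_natGenerator v
  rw [Nat.prime_dvd_prime_iff_eq hv q.2]
  constructor
  · intro h
    exact Subtype.ext h
  · intro h
    exact congrArg Subtype.val h

/-- helper27's set of places `placesS S` is helper21's `sUCI_ratSet S`. -/
theorem urVG_placesS_eq : placesS S = sUCI_ratSet S := by
  ext v
  rw [mem_sUCI_ratSet]
  show Rat.HeightOneSpectrum.primesEquiv v ∈ S ↔ _
  constructor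
  · intro h
    exact ⟨_, h, (urVG_natCast_mem_iff v _).2 rfl⟩
  · rintro ⟨q, hq, hqv⟩
    rw [(urVG_natCast_mem_iff v q).1 hqv]
    exact hq

variable (F : IntermediateField ℚ Qb) [FiniteDimensional ℚ F]

/-- **(hval), tensor base `ℚ`, no normality**: a finite `F ⊆ ℚ_S` is unramified outside `S` in
the valuation form used by the idelic library. -/
theorem urVG_hval (hF : F.IsUnramifiedOutside S) (w : HeightOneSpectrum (𝓞 F))
    (hw : primeBelow ℚ F w ∉ sUCI_ratSet S) (x : ℚ) :
    w.valuation F (algebraMap ℚ F x) = (primeBelow ℚ F w).valuation ℚ x := by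
  have hN : (galClosure F).IsUnramifiedOutside S := IsUnramifiedOutside.galClosure hF
  have : FiniteDimensional ℚ (galClosure F) := hN.1
  have : Normal ℚ (galClosure F) := by
    rw [galClosure_eq_normalClosure]
    exact normalClosure.normal ℚ F Qb
  have : Fact (F ≤ galClosure F) := ⟨le_galClosure F⟩
  obtain ⟨w', hw'⟩ := primeBelow_surjective (F := F) (M := galClosure F) w
  have hbelow : primeBelow ℚ (galClosure F) w' = primeBelow ℚ F w := by
    rw [← hw']
    ext1
    simp only [primeBelow, under_asIdeal]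
    exact (Ideal.under_under (A := 𝓞 ℚ) (B := 𝓞 F) w'.asIdeal).symm
  have hN' : ∀ y : ℚ, w'.valuation (galClosure F) (algebraMap ℚ (galClosure F) y) =
      (primeBelow ℚ F w).valuation ℚ y := fun y => by
    rw [← hbelow]
    exact urVQ_hval S (galClosure F) hN w' (hbelow ▸ hw) y
  have h1 : w'.asIdeal.LiesOver w.asIdeal := by
    rw [← hw']
    exact Ideal.over_under w'.asIdeal
  have h2 : w.asIdeal.LiesOver (primeBelow ℚ F w).asIdeal := Ideal.over_under w.asIdeal
  have h3 : ∀ y : ℚ, (w.valuation F (algebraMap ℚ F y)) ^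
      (w.asIdeal.ramificationIdx' w'.asIdeal) = (primeBelow ℚ F w).valuation ℚ y := fun y => by
    rw [valuation_liesOver (galClosure F) w w' (algebraMap ℚ F y), ← hN' y,
      ← IsScalarTower.algebraMap_apply ℚ F (galClosure F)]
  have h4 : ∀ y : ℚ, ((primeBelow ℚ F w).valuation ℚ y) ^
      ((primeBelow ℚ F w).asIdeal.ramificationIdx' w.asIdeal) =
      w.valuation F (algebraMap ℚ F y) := fun y =>
    valuation_liesOver F (primeBelow ℚ F w) w y
  obtain ⟨π, hπ⟩ := (primeBelow ℚ F w).valuation_exists_uniformizer ℚ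
  have h5 := h3 π
  rw [← h4 π, hπ, ← pow_mul, ← WithZero.exp_nsmul] at h5
  have h6 := WithZero.exp_injective h5
  have h7 : (primeBelow ℚ F w).asIdeal.ramificationIdx' w.asIdeal *
      w.asIdeal.ramificationIdx' w'.asIdeal = 1 := by
    have : (((primeBelow ℚ F w).asIdeal.ramificationIdx' w.asIdeal *
      w.asIdeal.ramificationIdx' w'.asIdeal : ℕ) : ℤ) = 1 := by
      simp only [nsmul_eq_mul, mul_neg, mul_one, neg_inj] at h6
      exact h6
    exact_mod_cast this
  have h8 : (primeBelow ℚ F w).asIdeal.ramificationIdx' w.asIdeal = 1 :=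
    Nat.eq_one_of_mul_eq_one_right h7
  rw [← h4 x, h8, pow_one]

/-- `urVG_hval` with helper27's set `placesS S`. -/
theorem urVG_hval_placesS (hF : F.IsUnramifiedOutside S) (w : HeightOneSpectrum (𝓞 F))
    (hw : primeBelow ℚ F w ∉ placesS S) (x : ℚ) :
    w.valuation F (algebraMap ℚ F x) = (primeBelow ℚ F w).valuation ℚ x :=
  urVG_hval S F hF w (urVG_placesS_eq S ▸ hw) x

/-- the level form: `F = fixedField V'` for an open subgroup `V'` of `famS S`. -/
theorem urVG_hval_of_le (hF : F.IsUnramifiedOutside S) (F' : IntermediateField ℚ Qb)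
    [FiniteDimensional ℚ F'] (hle : F' ≤ F) (w : HeightOneSpectrum (𝓞 F'))
    (hw : primeBelow ℚ F' w ∉ sUCI_ratSet S) (x : ℚ) :
    w.valuation F' (algebraMap ℚ F' x) = (primeBelow ℚ F' w).valuation ℚ x :=
  urVG_hval S F' ⟨inferInstance, fun q hq A hA =>
    (hF.2 q hq A hA).trans (IntermediateField.fixingSubgroup_antitone hle)⟩ w hw x

end Fermat.Agent.PT
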